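import Mathlib
import Fermat.Agent.FF.PlacesBasic

/-!
# Extension of constants of a function field: levels above a place

`placeOfVal` turns a nontrivial `ℤ`-valued valuation trivial on the constants into a place.
`IsConstExt ι e` says that `e : F →+* F'` extends the constants along `ι : K →+* L` (linearly
disjoint, `F'` generated by the span). For a place `v` of `F`, `level L e v n` is the `L`-span of
the functions of order at least `n`; every nonzero element of the span of `F` has an exact level
(`exists_level_eq`), additive in products when `v` has residue field `K` (`level_mul_exact`).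
-/

set_option autoImplicit false

noncomputable section

open WithZero IsDedekindDomain AlgebraicCurve Submodule

namespace FLTAgent.Torsion

section PlaceOfVal

variable {L F' : Type*} [Field L] [Field F'] [Algebra L F']

/-- The place of a nontrivial `ℤ`-valued valuation trivial on the constants. -/
def placeOfVal (ν : Valuation F' ℤᵐ⁰) (hc : ∀ a : L, ν (algebraMap L F' a) ≤ 1)
    (hne : ∃ x : F', x ≠ 0 ∧ ν x ≠ 1) : Place L F' where
  toValuationSubring := ν.valuationSubring
  algebraMap_mem' a := hc a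
  ne_top' h := by
    obtain ⟨x, hx0, hx⟩ := hne
    have h1 : ν x ≤ 1 := (h ▸ ValuationSubring.mem_top x : x ∈ ν.valuationSubring)
    have h2 : ν x⁻¹ ≤ 1 := (h ▸ ValuationSubring.mem_top x⁻¹ : x⁻¹ ∈ ν.valuationSubring)
    rw [map_inv₀, inv_le_one₀ (zero_lt_iff.mpr ((Valuation.ne_zero_iff _).mpr hx0))] at h2
    exact hx (le_antisymm h1 h2)
  isPrincipalIdealRing' := by
    have : IsCyclic (ℤᵐ⁰)ˣ :=
      isCyclic_of_surjective (WithZero.unitsWithZeroEquiv (α := Multiplicative ℤ)).symm
        (MulEquiv.surjective _)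
    have : Nontrivial (MonoidWithZeroHom.valueGroup (MonoidWithZeroHom.ofClass ν)) := by
      obtain ⟨x, hx0, hx⟩ := hne
      have hxu : ν x ≠ 0 := (Valuation.ne_zero_iff _).mpr hx0
      refine ⟨⟨⟨Units.mk0 _ hxu, ?_⟩, 1, ?_⟩⟩
      · exact MonoidWithZeroHom.mem_valueGroup (MonoidWithZeroHom.ofClass ν) ⟨x, rfl⟩
      · intro h
        apply hx
        simpa [Units.ext_iff] using congrArg Subtype.val h
    exact Valuation.valuationSubring_isPrincipalIdealRing ν

theorem mem_placeOfVal {ν : Valuation F' ℤᵐ⁰} {hc : ∀ a : L, ν (algebraMap L F' a) ≤ 1}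
    {hne : ∃ x : F', x ≠ 0 ∧ ν x ≠ 1} (x : F') :
    x ∈ (placeOfVal ν hc hne).toValuationSubring ↔ ν x ≤ 1 := Iff.rfl

/-- If the valuation is onto, its logarithm is the order at its place. -/
theorem ord_placeOfVal {ν : Valuation F' ℤᵐ⁰} {hc : ∀ a : L, ν (algebraMap L F' a) ≤ 1}
    {hne : ∃ x : F', x ≠ 0 ∧ ν x ≠ 1} {π : F'} (hπ : ν π = exp (-1 : ℤ)) (x : F') :
    (placeOfVal ν hc hne).ord x = -log (ν x) := by
  set v := placeOfVal ν hc hne with hv
  have hπ0 : π ≠ 0 := by
    rintro rfl
    rw [map_zero] at hπ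
    exact exp_ne_zero hπ.symm
  have key : ∀ f : F', f ≠ 0 → v.ord f = -log (ν f) * v.ord π := by
    intro f hf
    set n : ℤ := -log (ν f)
    have hνf : ν f = exp (-n) := by
      rw [neg_neg, exp_log ((Valuation.ne_zero_iff _).mpr hf)]
    have hu : ν (f * π ^ (-n)) = 1 := by
      rw [map_mul, map_zpow₀, hπ, hνf, ← exp_zsmul, ← exp_add, ← exp_zero]
      congr 1
      simp
    have h1 : 0 ≤ v.ord (f * π ^ (-n)) :=
      FF.ord_nonneg_of_mem_placeRing v ((mem_placeOfVal _).mpr hu.le)
    have h2 : 0 ≤ v.ord (f * π ^ (-n))⁻¹ :=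
      FF.ord_nonneg_of_mem_placeRing v ((mem_placeOfVal _).mpr (by rw [map_inv₀, hu, inv_one]))
    rw [v.ord_inv] at h2
    have h3 : v.ord (f * π ^ (-n)) = 0 := by omega
    rw [v.ord_mul hf (zpow_ne_zero _ hπ0), v.ord_zpow] at h3
    linarith
  rcases eq_or_ne x 0 with rfl | hx
  · simp
  obtain ⟨f, hf, hf1⟩ := FF.exists_ord_eq v 1
  have h1 : -log (ν f) * v.ord π = 1 := by rw [← key f hf, hf1]
  have h0 : 0 ≤ v.ord π :=
    FF.ord_nonneg_of_mem_placeRing v ((mem_placeOfVal _).mpr (by
      rw [hπ, ← exp_zero, exp_le_exp]; omega))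
  have hone : v.ord π = 1 := by
    rcases Int.eq_one_or_neg_one_of_mul_eq_one (by rwa [mul_comm] at h1) with h | h <;> omega
  rw [key x hx, hone, mul_one]

end PlaceOfVal

/-- `e : F → F'` is an extension of constants along `ι : K → L`. -/
structure IsConstExt {K L F F' : Type*} [Field K] [Field L] [Field F] [Field F']
    [Algebra K F] [Algebra L F'] (ι : K →+* L) (e : F →+* F') : Prop where
  map_algebraMap : ∀ a : K, e (algebraMap K F a) = algebraMap L F' (ι a)
  linIndep : ∀ s : Finset F, LinearIndependent K (fun i : s => (i : F)) →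
    LinearIndependent L (fun i : s => e (i : F))
  generates : ∀ x : F', ∃ a ∈ span L (Set.range e), ∃ b ∈ span L (Set.range e),
    b ≠ 0 ∧ x = a / b

namespace IsConstExt

variable {K L F F' : Type*} [Field K] [Field L] [Field F] [Field F'] [Algebra K F] [Algebra L F']
variable {ι : K →+* L} {e : F →+* F'}

theorem map_smul (he : IsConstExt ι e) (a : K) (f : F) : e (a • f) = ι a • e f := by
  rw [Algebra.smul_def, map_mul, he.map_algebraMap, Algebra.smul_def]

theorem mul_mem_span {S : Set F} {x : F} {h : F'} {T : Set F}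
    (hST : ∀ f ∈ S, x * f ∈ T) (hh : h ∈ span L (e '' S)) : e x * h ∈ span L (e '' T) := by
  induction hh using Submodule.span_induction with
  | mem y hy =>
    obtain ⟨f, hf, rfl⟩ := hy
    exact subset_span ⟨x * f, hST f hf, map_mul e x f⟩
  | zero => simp
  | add y z _ _ hy hz => rw [mul_add]; exact add_mem hy hz
  | smul a y _ hy => rw [mul_smul_comm]; exact smul_mem _ a hy

theorem mul_mem_span₂ {S T U : Set F} {g h : F'}
    (hSTU : ∀ x ∈ S, ∀ f ∈ T, x * f ∈ U) (hg : g ∈ span L (e '' S)) (hh : h ∈ span L (e '' T)) :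
    g * h ∈ span L (e '' U) := by
  induction hg using Submodule.span_induction with
  | mem y hy =>
    obtain ⟨x, hx, rfl⟩ := hy
    exact mul_mem_span (hSTU x hx) hh
  | zero => simp
  | add y z _ _ hy hz => rw [add_mul]; exact add_mem hy hz
  | smul a y _ hy => rw [smul_mul_assoc]; exact smul_mem _ a hy

theorem mul_mem (g h : F') (hg : g ∈ span L (Set.range e)) (hh : h ∈ span L (Set.range e)) :
    g * h ∈ span L (Set.range e) := by
  rw [← Set.image_univ] at hg hh ⊢
  exact mul_mem_span₂ (fun _ _ _ _ => Set.mem_univ _) hg hh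

theorem li (he : IsConstExt ι e) {β : Type*} {f : β → F} (hf : LinearIndependent K f) :
    LinearIndependent L (e ∘ f) := by
  classical
  rw [linearIndependent_iff_finset_linearIndependent]
  intro s
  have h1 : LinearIndependent K (fun i : (s.image f : Finset F) => (i : F)) :=
    hf.linearIndepOn_id.mono (by simp)
  exact (he.linIndep _ h1).comp (fun i : s => (⟨f i, Finset.mem_image_of_mem f i.2⟩ : s.image f))
    (fun i j hij => Subtype.ext (hf.injective (congrArg Subtype.val hij)))

theorem image_span_subset (he : IsConstExt ι e) (S : Set F) :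
    e '' (span K S : Set F) ⊆ span L (e '' S) := by
  rintro _ ⟨f, hf, rfl⟩
  induction hf using Submodule.span_induction with
  | mem y hy => exact subset_span ⟨y, hy, rfl⟩
  | zero => simp
  | add y z _ _ hy hz => rw [map_add]; exact add_mem hy hz
  | smul a y _ hy => rw [he.map_smul]; exact smul_mem _ _ hy

theorem disjoint_span (he : IsConstExt ι e) {W V : Submodule K F} (h : Disjoint W V) :
    Disjoint (span L (e '' W)) (span L (e '' V)) := by
  let bW := Module.Basis.ofVectorSpace K W
  let bV := Module.Basis.ofVectorSpace K V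
  have h1 : span K (Set.range ((↑) ∘ bW : _ → F)) = W := by
    rw [Set.range_comp, ← Submodule.coe_subtype, span_image, bW.span_eq, Submodule.map_top,
      range_subtype]
  have h2 : span K (Set.range ((↑) ∘ bV : _ → F)) = V := by
    rw [Set.range_comp, ← Submodule.coe_subtype, span_image, bV.span_eq, Submodule.map_top,
      range_subtype]
  have hli : LinearIndependent K (Sum.elim ((↑) ∘ bW : _ → F) ((↑) ∘ bV : _ → F)) := by
    refine LinearIndependent.sum_type ?_ ?_ ?_
    · exact bW.linearIndependent.map' W.subtype W.ker_subtype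
    · exact bV.linearIndependent.map' V.subtype V.ker_subtype
    · rwa [h1, h2]
  have h3 := (linearIndependent_sum.mp (he.li hli)).2.2
  rw [show (⇑e ∘ Sum.elim ((↑) ∘ bW : _ → F) ((↑) ∘ bV : _ → F)) ∘ Sum.inl
      = ⇑e ∘ ((↑) ∘ bW) from rfl,
    show (⇑e ∘ Sum.elim ((↑) ∘ bW : _ → F) ((↑) ∘ bV : _ → F)) ∘ Sum.inr
      = ⇑e ∘ ((↑) ∘ bV) from rfl, Set.range_comp e, Set.range_comp e] at h3
  refine h3.mono (span_le.mpr ?_) (span_le.mpr ?_)
  · conv_lhs => rw [← h1]
    exact he.image_span_subset _
  · conv_lhs => rw [← h2]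
    exact he.image_span_subset _

theorem mem_of_map_mem_span (he : IsConstExt ι e) {V : Submodule K F} {t : F}
    (ht : e t ∈ span L (e '' V)) : t ∈ V := by
  by_contra hV
  have h : Disjoint (span K {t}) V := by
    rw [Submodule.disjoint_def]
    intro x hx hxV
    obtain ⟨a, rfl⟩ := mem_span_singleton.mp hx
    by_contra hne
    have ha : a ≠ 0 := by rintro rfl; simp at hne
    exact hV (by simpa [smul_smul, ha] using smul_mem V a⁻¹ hxV)
  have h0 : e t = 0 := (Submodule.disjoint_def.mp (he.disjoint_span h)) _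
    (subset_span ⟨t, mem_span_singleton_self t, rfl⟩) ht
  exact hV (by rw [(map_eq_zero e).mp h0]; exact zero_mem V)

end IsConstExt

/-- Every element regular at the place is congruent to a constant. -/
def HasResidue {K F : Type*} [Field K] [Field F] [Algebra K F] (v : Place K F) : Prop :=
  ∀ f : F, 0 ≤ v.ord f → ∃ c : K, f = algebraMap K F c ∨ 0 < v.ord (f - algebraMap K F c)

section Level

variable {K L F F' : Type*} [Field K] [Field L] [Field F] [Field F'] [Algebra K F] [Algebra L F']

/-- Functions of order at least `n`. -/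
def levelK (v : Place K F) (n : ℤ) : Submodule K F where
  carrier := {f | f = 0 ∨ n ≤ v.ord f}
  zero_mem' := Or.inl rfl
  add_mem' {f g} hf hg := by
    rcases eq_or_ne f 0 with rfl | hf0
    · simpa using hg
    rcases eq_or_ne g 0 with rfl | hg0
    · simpa using hf
    rcases eq_or_ne (f + g) 0 with h | h
    · exact Or.inl h
    · exact Or.inr ((le_min (hf.resolve_left hf0) (hg.resolve_left hg0)).trans
        (FF.ord_add_ge v hf0 hg0 h))
  smul_mem' a f hf := by
    rcases eq_or_ne f 0 with rfl | hf0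
    · simp
    rcases eq_or_ne a 0 with rfl | ha
    · simp
    refine Or.inr ?_
    rw [Algebra.smul_def, v.ord_mul (by simpa using ha) hf0, FF.ord_algebraMap, zero_add]
    exact hf.resolve_left hf0

theorem mem_levelK {v : Place K F} {n : ℤ} {f : F} :
    f ∈ levelK v n ↔ f = 0 ∨ n ≤ v.ord f := Iff.rfl

theorem levelK_anti (v : Place K F) : Antitone (levelK v) :=
  fun _ _ hmn _ hf => hf.imp_right hmn.trans

/-- `L`-combinations of functions of order at least `n`. -/
def level (L : Type*) {K F F' : Type*} [Field K] [Field L] [Field F] [Field F'] [Algebra K F]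
    [Algebra L F'] (e : F →+* F') (v : Place K F) (n : ℤ) : Submodule L F' :=
  span L (e '' (levelK v n : Set F))

variable {e : F →+* F'} {v : Place K F}

theorem level_anti : Antitone (level L e v) :=
  fun _ _ hmn => span_mono (Set.image_mono (levelK_anti v hmn))

theorem level_le_span (n : ℤ) : level L e v n ≤ span L (Set.range e) :=
  span_mono (Set.image_subset_range _ _)

theorem map_mem_level {n : ℤ} {f : F} (hf : n ≤ v.ord f) : e f ∈ level L e v n :=
  subset_span ⟨f, Or.inr hf, rfl⟩

theorem mul_mem_level {m n : ℤ} {g h : F'} (hg : g ∈ level L e v m) (hh : h ∈ level L e v n) :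
    g * h ∈ level L e v (m + n) := by
  refine IsConstExt.mul_mem_span₂ ?_ hg hh
  intro x hx y hy
  rcases eq_or_ne x 0 with rfl | hx0
  · simp
  rcases eq_or_ne y 0 with rfl | hy0
  · simp
  exact Or.inr (by rw [v.ord_mul hx0 hy0];
                   exact add_le_add (hx.resolve_left hx0) (hy.resolve_left hy0))

theorem exists_mem_level {h : F'} (hh : h ∈ span L (Set.range e)) : ∃ n, h ∈ level L e v n := by
  induction hh using Submodule.span_induction with
  | mem y hy =>
    obtain ⟨f, rfl⟩ := hy
    exact ⟨v.ord f, map_mem_level le_rfl⟩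
  | zero => exact ⟨0, zero_mem _⟩
  | add y z _ _ hy hz =>
    obtain ⟨m, hm⟩ := hy
    obtain ⟨n, hn⟩ := hz
    exact ⟨min m n, add_mem (level_anti (min_le_left m n) hm) (level_anti (min_le_right m n) hn)⟩
  | smul a y _ hy => exact ⟨hy.choose, smul_mem _ _ hy.choose_spec⟩

variable {ι : K →+* L}

theorem exists_levelK_disjoint (W : Submodule K F) [FiniteDimensional K W] :
    ∃ n, Disjoint W (levelK v n) := by
  have : IsArtinian K W := inferInstance
  obtain ⟨k, hk⟩ := IsArtinian.monotone_stabilizes (R := K) (M := W)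
    ⟨fun m : ℕ => OrderDual.toDual ((levelK v (m : ℤ)).comap W.subtype),
      fun m m' hmm' => Submodule.comap_mono (levelK_anti v (by exact_mod_cast hmm'))⟩
  refine ⟨(k : ℤ), Submodule.disjoint_def.mpr fun x hxW hxV => ?_⟩
  by_contra hx
  set m : ℕ := max k ((v.ord x).toNat + 1)
  have h : (levelK v (k : ℤ)).comap W.subtype = (levelK v (m : ℤ)).comap W.subtype :=
    OrderDual.toDual.injective (hk m (le_max_left _ _))
  have hmem : (⟨x, hxW⟩ : W) ∈ (levelK v (k : ℤ)).comap W.subtype := hxV
  rw [h] at hmem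
  have h2 : (m : ℤ) ≤ v.ord x := (mem_levelK.mp hmem).resolve_left hx
  have h3 : (v.ord x).toNat + 1 ≤ m := le_max_right _ _
  omega

theorem exists_notMem_level (he : IsConstExt ι e) {h : F'} (hh : h ∈ span L (Set.range e))
    (h0 : h ≠ 0) : ∃ n, h ∉ level L e v n := by
  obtain ⟨t, ht, hht⟩ := Submodule.mem_span_finite_of_mem_span hh
  classical
  choose pre hpre using fun y : t => ht y.2
  let W : Submodule K F := span K (Set.range pre)
  have : FiniteDimensional K W := FiniteDimensional.span_of_finite K (Set.finite_range pre)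
  obtain ⟨n, hn⟩ := exists_levelK_disjoint (v := v) W
  refine ⟨n, fun hmem => h0 ?_⟩
  refine Submodule.disjoint_def.mp (he.disjoint_span hn) h ?_ hmem
  exact span_mono (show (t : Set F') ⊆ e '' (W : Set F) from
    fun y hy => ⟨pre ⟨y, hy⟩, subset_span ⟨⟨y, hy⟩, rfl⟩, hpre _⟩) hht

/-- Modulo higher order, a function of order at least `n` is a multiple of `π ^ n`. -/
theorem exists_sub_smul_mem_level (he : IsConstExt ι e) (hres : HasResidue v) {π : F}
    (hπ : π ≠ 0) (hπ1 : v.ord π = 1) {n : ℤ} {h : F'} (hh : h ∈ level L e v n) :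
    ∃ a : L, h - a • e (π ^ n) ∈ level L e v (n + 1) := by
  rw [level] at hh
  induction hh using Submodule.span_induction with
  | mem y hy =>
    obtain ⟨f, hf, rfl⟩ := hy
    rcases eq_or_ne f 0 with rfl | hf0
    · exact ⟨0, by simp⟩
    have hfn : n ≤ v.ord f := hf.resolve_left hf0
    have hn0 : π ^ (-n) ≠ 0 := zpow_ne_zero _ hπ
    have hg : 0 ≤ v.ord (f * π ^ (-n)) := by
      rw [v.ord_mul hf0 hn0, v.ord_zpow, hπ1]; omega
    obtain ⟨c, hc⟩ := hres _ hg
    refine ⟨ι c, ?_⟩
    rw [← he.map_smul, ← map_sub]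
    refine subset_span ⟨_, ?_, rfl⟩
    rcases eq_or_ne (f - c • π ^ n) 0 with h | h
    · exact Or.inl h
    refine Or.inr ?_
    have key : f - c • π ^ n = (f * π ^ (-n) - algebraMap K F c) * π ^ n := by
      rw [sub_mul, mul_assoc, ← zpow_add₀ hπ, neg_add_cancel, zpow_zero, mul_one,
        Algebra.smul_def]
    have h' : f * π ^ (-n) - algebraMap K F c ≠ 0 := by
      intro h0'; rw [key, h0', zero_mul] at h; exact h rfl
    rw [key, v.ord_mul h' (zpow_ne_zero _ hπ), v.ord_zpow, hπ1]
    rcases hc with hc | hc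
    · exact absurd (sub_eq_zero.mpr hc) h'
    · omega
  | zero => exact ⟨0, by simp⟩
  | add y z _ _ hy hz =>
    obtain ⟨a, ha⟩ := hy
    obtain ⟨b, hb⟩ := hz
    exact ⟨a + b, by rw [add_smul, add_sub_add_comm]; exact add_mem ha hb⟩
  | smul c y _ hy =>
    obtain ⟨a, ha⟩ := hy
    exact ⟨c * a, by rw [mul_smul, ← smul_sub]; exact smul_mem _ _ ha⟩

theorem zpow_notMem_level (he : IsConstExt ι e) {π : F} (hπ : π ≠ 0) (hπ1 : v.ord π = 1)
    (n : ℤ) : e (π ^ n) ∉ level L e v (n + 1) := by
  intro h
  rcases he.mem_of_map_mem_span h with h | h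
  · exact zpow_ne_zero n hπ h
  · rw [v.ord_zpow, hπ1] at h; omega

/-- A nonzero element of the span of `F` has an exact level. -/
theorem exists_level_eq (he : IsConstExt ι e) {h : F'} (hh : h ∈ span L (Set.range e))
    (h0 : h ≠ 0) : ∃ n, h ∈ level L e v n ∧ h ∉ level L e v (n + 1) := by
  obtain ⟨m, hm⟩ := exists_mem_level (v := v) hh
  obtain ⟨M, hM⟩ := exists_notMem_level (v := v) he hh h0
  by_contra hne
  push Not at hne
  have : ∀ j : ℕ, h ∈ level L e v (m + j) := by
    intro j
    induction j with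
    | zero => simpa using hm
    | succ j ih =>
      have := hne _ ih
      rwa [Nat.cast_succ, ← add_assoc]
  exact hM (level_anti (show M ≤ m + ((M - m).toNat : ℤ) by omega) (this _))

theorem level_unique {h : F'} {m n : ℤ} (hm : h ∈ level L e v m ∧ h ∉ level L e v (m + 1))
    (hn : h ∈ level L e v n ∧ h ∉ level L e v (n + 1)) : m = n := by
  rcases lt_trichotomy m n with hl | hl | hl
  · exact absurd (level_anti (show m + 1 ≤ n by omega) hn.1) hm.2
  · exact hl
  · exact absurd (level_anti (show n + 1 ≤ m by omega) hm.1) hn.2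

theorem level_mul_exact (he : IsConstExt ι e) (hres : HasResidue v) {g h : F'} {m n : ℤ}
    (hg : g ∈ level L e v m ∧ g ∉ level L e v (m + 1))
    (hh : h ∈ level L e v n ∧ h ∉ level L e v (n + 1)) :
    g * h ∈ level L e v (m + n) ∧ g * h ∉ level L e v (m + n + 1) := by
  refine ⟨mul_mem_level hg.1 hh.1, fun hc => ?_⟩
  obtain ⟨π, hπ, hπ1⟩ := FF.exists_ord_eq v 1
  obtain ⟨a, ha⟩ := exists_sub_smul_mem_level he hres hπ hπ1 hg.1
  obtain ⟨b, hb⟩ := exists_sub_smul_mem_level he hres hπ hπ1 hh.1
  set g' := g - a • e (π ^ m)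
  set h' := h - b • e (π ^ n)
  have hexp : g * h = (a * b) • e (π ^ (m + n)) + (a • e (π ^ m) * h' + g' * h) := by
    simp only [g', h', zpow_add₀ hπ, map_mul, mul_sub, sub_mul, smul_mul_assoc, mul_smul_comm,
      smul_smul]
    module
  have h1 : a • e (π ^ m) * h' ∈ level L e v (m + n + 1) := by
    rw [show m + n + 1 = m + (n + 1) by ring]
    exact mul_mem_level (smul_mem _ _ (map_mem_level (by rw [v.ord_zpow, hπ1]; omega))) hb
  have h2 : g' * h ∈ level L e v (m + n + 1) := by
    rw [show m + n + 1 = (m + 1) + n by ring]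
    exact mul_mem_level ha hh.1
  rw [hexp] at hc
  have h3 : (a * b) • e (π ^ (m + n)) ∈ level L e v (m + n + 1) := by
    have := sub_mem hc (add_mem h1 h2)
    simpa using this
  have hab : a * b ≠ 0 := by
    refine mul_ne_zero ?_ ?_
    · rintro rfl; exact hg.2 (by simpa [g'] using ha)
    · rintro rfl; exact hh.2 (by simpa [h'] using hb)
  exact zpow_notMem_level he hπ hπ1 (m + n)
    (by simpa only [smul_smul, inv_mul_cancel₀ hab, one_smul] using smul_mem _ (a * b)⁻¹ h3)

end Level

end FLTAgent.Torsion
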