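import Mathlib

/-!
# Automorphisms of an algebraically closed field over an algebraically closed subfield

`exists_aut_translate`: an element `a` of `L` outside the image of `K` is sent to `a + c` by some
automorphism of `L` over `K` (extend `{a}` to a transcendence basis, translate, extend to the
algebraic closure). Consequently (`mem_range_of_forall_aut`) an element fixed by all these
automorphisms lies in the image of `K`.
-/

set_option autoImplicit false

noncomputable section

namespace FLTAgent.Torsion

variable {K L : Type*} [Field K] [Field L] [IsAlgClosed K] [IsAlgClosed L]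

open MvPolynomial in
/-- An element outside `K` can be translated by any constant by an automorphism fixing `K`. -/
theorem exists_aut_translate (ι : K →+* L) {a : L} (ha : a ∉ ι.range) (c : K) :
    ∃ τ : L ≃+* L, (∀ b, τ (ι b) = ι b) ∧ τ a = a + ι c := by
  classical
  let : Algebra K L := ι.toAlgebra
  have htr : Transcendental K a := by
    intro halg
    exact ha (minpoly.mem_range_of_degree_eq_one K a
      (IsAlgClosed.degree_eq_one_of_irreducible K (minpoly.irreducible halg.isIntegral)))
  obtain ⟨s, has, hs⟩ := exists_isTranscendenceBasis_superset (R := K) (s := ({a} : Set L))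
    ((algebraicIndependent_singleton_iff (⟨a, rfl⟩ : ({a} : Set L))).mpr htr)
  let a0 : s := ⟨a, has rfl⟩
  let := IsAlgClosed.isAlgClosure_of_transcendence_basis ((↑) : s → L) hs
  let tr : K → MvPolynomial s K →ₐ[K] MvPolynomial s K := fun d =>
    aeval (fun i => if i = a0 then X i + C d else X i)
  have htr2 : ∀ d d', (tr d).comp (tr d') = tr (d + d') := fun d d' => by
    refine algHom_ext fun i => ?_
    by_cases hi : i = a0
    · simp [tr, hi, add_assoc]
    · simp [tr, hi]
  have htr0 : tr 0 = AlgHom.id K _ := algHom_ext fun i => by simp [tr]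
  let ψ : MvPolynomial s K ≃ₐ[K] MvPolynomial s K :=
    AlgEquiv.ofAlgHom (tr c) (tr (-c)) (by rw [htr2, add_neg_cancel, htr0])
      (by rw [htr2, neg_add_cancel, htr0])
  let Ψ := hs.1.aevalEquiv.symm.trans (ψ.trans hs.1.aevalEquiv)
  refine ⟨IsAlgClosure.equivOfEquiv L L Ψ.toRingEquiv, fun b => ?_, ?_⟩
  · have := IsAlgClosure.equivOfEquiv_algebraMap L L Ψ.toRingEquiv
      (algebraMap K (Algebra.adjoin K (Set.range ((↑) : s → L))) b)
    simp only [AlgEquiv.coe_ringEquiv, AlgEquiv.commutes] at this
    exact this
  · have key := IsAlgClosure.equivOfEquiv_algebraMap L L Ψ.toRingEquiv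
      (hs.1.aevalEquiv (X a0))
    rw [hs.1.algebraMap_aevalEquiv, aeval_X] at key
    refine key.trans ?_
    show algebraMap _ L (hs.1.aevalEquiv (ψ (hs.1.aevalEquiv.symm (hs.1.aevalEquiv (X a0))))) = _
    rw [AlgEquiv.symm_apply_apply, hs.1.algebraMap_aevalEquiv]
    show aeval _ (tr c (X a0)) = _
    simp [tr, a0, RingHom.algebraMap_toAlgebra]

/-- An element fixed by all automorphisms over `K` lies in `K`. -/
theorem mem_range_of_forall_aut (ι : K →+* L) {a : L}
    (h : ∀ τ : L ≃+* L, (∀ b, τ (ι b) = ι b) → τ a = a) : a ∈ ι.range := by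
  by_contra ha
  obtain ⟨τ, hτ, hτa⟩ := exists_aut_translate ι ha 1
  rw [h τ hτ, map_one] at hτa
  exact one_ne_zero (α := L) (by linear_combination -hτa)

end FLTAgent.Torsion
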