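import Fermat.Agent.Torsion.ConstExt
import Fermat.Agent.Torsion.AutLemma
import Fermat.Agent.FF.PlacesMain
import Fermat.Prelude.Def_AlgebraicCurve_BaseChangeGalois

/-!
# Extension of constants: descent of functions and of principal divisors

`fixer L e` is the group of semilinear automorphisms of `F'` fixing `F`. If all automorphisms of
`L` over `K` extend to it (`HasAutExt`), an element fixed by the whole group comes from `F`
(`mem_range_of_fixed`). Hence, with `extP` the extension of places, a divisor of `F` which becomes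
principal on `F'` is principal (`isPrincipal_of_mapDomain_extP`).
-/

set_option autoImplicit false
set_option linter.unusedSectionVars false

noncomputable section

open WithZero AlgebraicCurve Submodule

namespace FLTAgent.Torsion

variable {K L F F' : Type*} [Field K] [Field L] [Field F] [Field F'] [Algebra K F] [Algebra L F']

/-- Semilinear automorphisms fixing `e F`. -/
def fixer (L : Type*) {F F' : Type*} [Field L] [Field F] [Field F'] [Algebra L F']
    (e : F →+* F') : Subgroup (SemilinearAut L F') where
  carrier := {g | ∀ f : F, g • e f = e f}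
  one_mem' f := one_smul _ _
  mul_mem' {g h} hg hh f := by rw [mul_smul, hh f, hg f]
  inv_mem' {g} hg f := by rw [inv_smul_eq_iff, hg f]

/-- Automorphisms of `L` over `K` extend to `F'` over `F`. -/
def HasAutExt (ι : K →+* L) (e : F →+* F') : Prop :=
  ∀ τ : L ≃+* L, (∀ a, τ (ι a) = ι a) →
    ∃ g ∈ fixer L e, SemilinearAut.baseAut g = τ

variable {ι : K →+* L} {e : F →+* F'}

/-- An element fixed by all of `fixer L e` comes from `F`. -/
theorem mem_range_of_fixed [IsAlgClosed K] [IsAlgClosed L] (he : IsConstExt ι e)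
    (haut : HasAutExt ι e) {x : F'} (hx : ∀ g ∈ fixer L e, g • x = x) :
    ∃ f : F, e f = x := by
  classical
  let B := Module.Basis.ofVectorSpace K F
  set u := (⇑e) ∘ (⇑B) with hu
  have hli : LinearIndependent L u := he.li B.linearIndependent
  have hspan : span L (Set.range e) = span L (Set.range u) := by
    refine le_antisymm (span_le.mpr ?_) (span_mono (Set.range_comp_subset_range _ _))
    have h := he.image_span_subset (Set.range B)
    rwa [B.span_eq, top_coe, Set.image_univ, ← Set.range_comp] at h
  let Φ := Finsupp.linearCombination L u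
  have hΦ : ∀ g ∈ fixer L e, ∀ c, g • Φ c =
      Φ (c.mapRange (SemilinearAut.baseAut g) (map_zero _)) := by
    intro g hg c
    simp only [Φ, Finsupp.linearCombination_apply, Finsupp.sum_mapRange_index, zero_smul,
      implies_true, Finsupp.smul_sum]
    refine Finsupp.sum_congr fun i _ => ?_
    rw [Algebra.smul_def, Algebra.smul_def, smul_mul', SemilinearAut.smul_algebraMap,
      show g • u i = u i from hg _]
  let P : (↑(Module.Basis.ofVectorSpaceIndex K F) →₀ L) → Prop := fun c =>
    c ≠ 0 ∧ x * Φ c ∈ span L (Set.range e)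
  have hP : ∃ n, ∃ c, P c ∧ c.support.card = n := by
    obtain ⟨a, ha, b, hb, hb0, rfl⟩ := he.generates x
    rw [hspan, Finsupp.mem_span_range_iff_exists_finsupp] at hb
    obtain ⟨c, hc⟩ := hb
    have hc' : Φ c = b := by rw [← hc, Finsupp.linearCombination_apply]
    refine ⟨_, c, ⟨fun h => hb0 ?_, ?_⟩, rfl⟩
    · rw [← hc', h, map_zero]
    · rwa [hc', div_mul_cancel₀ _ hb0]
  obtain ⟨c₀, ⟨hc0, hc1⟩, hcn⟩ := Nat.find_spec hP
  obtain ⟨i₀, hi₀⟩ := Finsupp.support_nonempty_iff.mpr hc0
  rw [Finsupp.mem_support_iff] at hi₀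
  set c := (c₀ i₀)⁻¹ • c₀ with hc
  have hcP : x * Φ c ∈ span L (Set.range e) := by
    rw [hc, map_smul, mul_smul_comm]; exact smul_mem _ _ hc1
  have hci : c i₀ = 1 := by simp [hc, hi₀]
  have hfixc : ∀ g ∈ fixer L e, c.mapRange (SemilinearAut.baseAut g) (map_zero _) = c := by
    intro g hg
    by_contra hne
    have hd : P (c.mapRange (SemilinearAut.baseAut g) (map_zero _) - c) := by
      refine ⟨sub_ne_zero.mpr hne, ?_⟩
      rw [map_sub, mul_sub]
      refine sub_mem ?_ hcP
      rw [← hΦ g hg]
      nth_rewrite 1 [← hx g hg]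
      rw [← smul_mul']
      rw [hspan, Finsupp.mem_span_range_iff_exists_finsupp] at hcP ⊢
      obtain ⟨d, hd⟩ := hcP
      refine ⟨d.mapRange (SemilinearAut.baseAut g) (map_zero _), ?_⟩
      rw [← hd, ← Finsupp.linearCombination_apply, ← Finsupp.linearCombination_apply]
      exact (hΦ g hg d).symm
    have hlt : (c.mapRange (SemilinearAut.baseAut g) (map_zero _) - c).support.card
        < c₀.support.card := by
      refine Finset.card_lt_card (Finset.ssubset_iff_of_subset ?_ |>.mpr ⟨i₀, ?_, ?_⟩)
      · intro i hi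
        by_contra hi'
        rw [Finsupp.notMem_support_iff] at hi'
        simp [hc, hi'] at hi
      · simpa using hi₀
      · simp [hci]
    exact Nat.find_min hP (hlt.trans_eq hcn) ⟨_, hd, rfl⟩
  have hrange : ∀ d : (↑(Module.Basis.ofVectorSpaceIndex K F) →₀ L),
      (∀ g ∈ fixer L e, d.mapRange (SemilinearAut.baseAut g) (map_zero _) = d) →
      ∃ f : F, e f = Φ d := by
    intro d hd
    have hmem : ∀ i, d i ∈ ι.range := fun i => mem_range_of_forall_aut ι fun τ hτ => by
      obtain ⟨g, hg, rfl⟩ := haut τ hτ
      have := DFunLike.congr_fun (hd g hg) i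
      simpa using this
    choose a ha using hmem
    refine ⟨∑ i ∈ d.support, a i • B i, ?_⟩
    simp only [Φ, map_sum, he.map_smul, ha, Finsupp.linearCombination_apply, Finsupp.sum]
    rfl
  obtain ⟨b, hb⟩ := hrange c hfixc
  have hxb : ∃ f, e f = x * Φ c := by
    have hcP' := hcP
    rw [hspan, Finsupp.mem_span_range_iff_exists_finsupp] at hcP'
    obtain ⟨d, hd⟩ := hcP'
    have hd' : Φ d = x * Φ c := by rw [← hd, Finsupp.linearCombination_apply]
    rw [← hd']
    refine hrange d fun g hg => ?_
    refine (linearIndependent_iff_injective_finsuppLinearCombination.mp hli) ?_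
    show Φ _ = Φ d
    rw [← hΦ g hg, hd', smul_mul', hx g hg, hΦ g hg, hfixc g hg]
  obtain ⟨f, hf⟩ := hxb
  refine ⟨f / b, ?_⟩
  have hne : Φ c ≠ 0 := fun h => by
    have := (linearIndependent_iff_injective_finsuppLinearCombination.mp hli)
      (h.trans (map_zero Φ).symm)
    simp [this] at hci
  rw [map_div₀, hf, hb, mul_div_cancel_right₀ _ hne]

section Divisors

variable [IsAlgClosed K] [IsAlgClosed L] [FF.IsFF K F] [FF.IsFF L F']

theorem hasResidue_of_isFF {K F : Type*} [Field K] [Field F] [Algebra K F] [IsAlgClosed K]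
    [FF.IsFF K F] (v : Place K F) : HasResidue v := fun f hf =>
  FF.exists_residue v ((FF.mem_iff v f).mpr (Or.inr hf))

variable (he : IsConstExt ι e)

/-- The extension of places. -/
def extP (v : Place K F) : Place L F' := extPlace he (hasResidue_of_isFF v)

theorem ord_extP (v : Place K F) (f : F) : (extP he v).ord (e f) = v.ord f :=
  ord_extPlace he _ f

theorem extP_injective : Function.Injective (extP he) := fun v v' h =>
  FF.place_eq_of_ord_nonneg fun f hf => by rwa [← ord_extP he v', ← h, ord_extP]

theorem exists_eq_extP {w : Place L F'} {y : F} (hy : w.ord (e y) ≠ 0) :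
    ∃ v, w = extP he v := by
  obtain ⟨v, hv⟩ := exists_place_below he hy
  exact ⟨v, eq_extPlace he _ hv⟩

theorem smul_extP {g : SemilinearAut L F'} (hg : g ∈ fixer L e) (v : Place K F) :
    g • extP he v = extP he v := by
  refine eq_extPlace he _ fun f => ?_
  have h := SemilinearAut.ord_smul g (extP he v) (e f)
  rw [hg f, ord_extP] at h
  rw [h]

theorem smul_mapDomain_extP {g : SemilinearAut L F'} (hg : g ∈ fixer L e) (G : Divisor K F) :
    g • Finsupp.mapDomain (extP he) G = Finsupp.mapDomain (extP he) G := by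
  rw [SemilinearAut.divisor_smul_def, ← Finsupp.mapDomain_comp]
  exact Finsupp.mapDomain_congr fun v _ => smul_extP he hg v

/-- A principal extended divisor is principal. -/
theorem isPrincipal_of_mapDomain_extP (haut : HasAutExt ι e) {D : Divisor K F}
    (hD : Divisor.IsPrincipal (Finsupp.mapDomain (extP he) D : Divisor L F')) :
    Divisor.IsPrincipal D := by
  obtain ⟨y, hy, hdiv⟩ := hD
  obtain ⟨v₀⟩ := FF.place_nonempty (K := K) (F := F)
  obtain ⟨π, hπ, hπ1⟩ := FF.exists_ord_eq v₀ 1
  set P := extP he v₀
  set n : ℤ := P.ord y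
  set z : F' := e (π ^ n) with hz
  have hz0 : z ≠ 0 := (map_ne_zero e).mpr (zpow_ne_zero _ hπ)
  have hzn : P.ord z = n := by rw [hz, ord_extP, v₀.ord_zpow, hπ1, mul_one]
  have hu : P.ord (y / z) = 0 := by rw [FF.ord_div P hy hz0, hzn]; simp [n]
  obtain ⟨r, hr⟩ := hasResidue_of_isFF P (y / z) hu.ge
  have hr0 : r ≠ 0 := by
    rintro rfl
    rcases hr with hr | hr
    · exact div_ne_zero hy hz0 (by simpa using hr)
    · rw [map_zero, sub_zero, hu] at hr; exact lt_irrefl _ hr
  set y1 := y / algebraMap L F' r with hy1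
  have hy10 : y1 ≠ 0 := div_ne_zero hy (by simpa using hr0)
  have hy1ord : ∀ w : Place L F', w.ord y1 = w.ord y := fun w => by
    rw [hy1, FF.ord_div w hy (by simpa using hr0), FF.ord_algebraMap, sub_zero]
  have hlead : y1 / z = 1 ∨ 0 < P.ord (y1 / z - 1) := by
    have hR0 : algebraMap L F' r ≠ 0 := by simpa using hr0
    have e1 : y1 / z = (y / z) / algebraMap L F' r := by rw [hy1, div_right_comm]
    rcases hr with hr | hr
    · exact Or.inl (by rw [e1, hr, div_self hR0])
    · rcases eq_or_ne (y1 / z) 1 with h | h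
      · exact Or.inl h
      refine Or.inr ?_
      have e2 : y1 / z - 1 = (y / z - algebraMap L F' r) / algebraMap L F' r := by
        rw [e1, sub_div, div_self hR0]
      have hne : y / z - algebraMap L F' r ≠ 0 := fun h0 => h (sub_eq_zero.mp (by
        rw [e2, h0, zero_div]))
      rwa [e2, FF.ord_div P hne hR0, FF.ord_algebraMap, sub_zero]
  have hfix : ∀ g ∈ fixer L e, g • y1 = y1 := by
    intro g hg
    have hgy0 : g • y1 ≠ 0 := by simpa using hy10
    have hord : ∀ w : Place L F', w.ord (g • y1 / y1) = 0 := by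
      intro w
      have h1 := SemilinearAut.ord_smul g (g⁻¹ • w) y1
      rw [smul_inv_smul, hy1ord, ← hdiv, ← SemilinearAut.divisor_smul_apply,
        smul_mapDomain_extP he hg, hdiv] at h1
      rw [FF.ord_div w hgy0 hy10, h1, hy1ord, sub_self]
    obtain ⟨c, hc⟩ := FF.mem_range_of_forall_ord_nonneg (fun w => (hord w).ge)
    have hgy : g • y1 = algebraMap L F' c * y1 := by rw [hc, div_mul_cancel₀ _ hy10]
    rw [hgy]
    suffices c = 1 by rw [this, map_one, one_mul]
    have hgz : g • z = z := hg _
    have hgl : g • (y1 / z) = algebraMap L F' c * (y1 / z) := by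
      simp only [SemilinearAut.smul_def, map_div₀] at hgy hgz ⊢
      rw [hgy, hgz, mul_div_assoc]
    have hP : g • P = P := smul_extP he hg v₀
    rcases hlead with h1 | h1
    · rw [h1, mul_one] at hgl
      exact (algebraMap L F').injective (by rw [map_one, ← hgl]; exact smul_one g)
    · by_contra hc1
      have h2 : 0 < P.ord (algebraMap L F' c * (y1 / z) - 1) := by
        have := SemilinearAut.ord_smul g P (y1 / z - 1)
        rw [hP, smul_sub, hgl, smul_one] at this
        omega
      have hc0 : c ≠ 0 := by
        rintro rfl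
        rw [map_zero, zero_mul, zero_sub, FF.ord_neg, Place.ord_one] at h2
        exact lt_irrefl _ h2
      have hd : algebraMap L F' c * (y1 / z) - 1
          = algebraMap L F' (c - 1) + algebraMap L F' c * (y1 / z - 1) := by
        rw [map_sub, map_one]; ring
      have hA : algebraMap L F' (c - 1) ≠ 0 := by simpa [sub_eq_zero] using hc1
      have hB : algebraMap L F' c * (y1 / z - 1) = 0 ∨
          P.ord (algebraMap L F' (c - 1)) < P.ord (algebraMap L F' c * (y1 / z - 1)) := by
        rcases eq_or_ne (y1 / z - 1) 0 with h | h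
        · simp [h]
        · refine Or.inr ?_
          rw [P.ord_mul (by simpa using hc0) h, FF.ord_algebraMap, FF.ord_algebraMap]
          omega
      rw [hd, (FF.ord_add_of_lt P hA hB).2, FF.ord_algebraMap] at h2
      exact lt_irrefl _ h2
  obtain ⟨f, hf⟩ := mem_range_of_fixed he haut hfix
  refine ⟨f, fun h => hy10 (by rw [← hf, h, map_zero]), fun v => ?_⟩
  rw [← ord_extP he v f, hf, hy1ord, ← hdiv, Finsupp.mapDomain_apply (extP_injective he)]

end Divisors

end FLTAgent.Torsion
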