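import Mathlib
import Fermat.Agent.Modular.API
import Fermat.Agent.Period.Defs
import Fermat.Prelude.Def_AlgebraicCurve_Correspondence
import Fermat.Prelude.Def_ModularCurve_GenusNumerics

/-!
# Torsion of the Jacobian of `X₀(N)` as characters: definitions

`expChar` (the character `exp (2πi φ / n)`), `EqOffDiscrete`, `HasDivisor` (a function on `ℍ` with
given divisor on `X₀(N)`, cusps included), `restrictChar`, the embedding `embFC` of the function
field over `ℚ̄` into the one over `ℂ`, and `picPullback` on degree zero divisor classes.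
-/

set_option autoImplicit false

noncomputable section

open UpperHalfPlane CongruenceSubgroup Filter Topology AlgebraicCurve ModularCurve
open scoped MatrixGroups

namespace FLTAgent.Torsion

open FLTAgent.Modular

/-- `Qb` is the algebraic closure of `ℚ`. -/
abbrev Qb : Type := AlgebraicClosure ℚ

/-- The character `γ ↦ exp (2πi φ(γ) / n)` attached to `φ : Γ₀(N) → ℤ/n`. -/
def expChar {N n : ℕ} [NeZero n] (φ : Additive (Gamma0 N) →+ ZMod n) : Gamma0 N →* ℂˣ :=
  MonoidHom.toHomUnits
    { toFun := fun γ => ZMod.stdAddChar (φ (Additive.ofMul γ))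
      map_one' := by simp
      map_mul' := fun γ δ => by
        rw [ofMul_mul, map_add, AddChar.map_add_eq_mul] }

@[simp]
theorem coe_expChar {N n : ℕ} [NeZero n] (φ : Additive (Gamma0 N) →+ ZMod n) (γ : Gamma0 N) :
    (expChar φ γ : ℂ) = ZMod.stdAddChar (φ (Additive.ofMul γ)) := rfl

/-- `f` and `g` agree outside a discrete subset of the upper half plane. -/
def EqOffDiscrete (f g : ℍ → ℂ) : Prop :=
  ∀ z : ℍ, f ∘ ofComplex =ᶠ[𝓝[≠] (z : ℂ)] g ∘ ofComplex

/-- The meromorphic function `f` on `ℍ` has divisor `D` on `X₀(N)` (cusps included). -/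
structure HasDivisor (N : ℕ) [NeZero N] (f : ℍ → ℂ) (D : Divisor ℂ (FC N)) : Prop where
  mero : IsMero f
  order : ∀ z : ℍ, meromorphicOrderAt (f ∘ ofComplex) (z : ℂ) =
    (((ellOrder N z : ℤ) * D (placeOf z) : ℤ) : WithTop ℤ)
  cusp : ∀ γ : SL(2, ℤ), ∃ c : ℂ, c ≠ 0 ∧ Tendsto (fun z : ℍ => f (γ • z) *
      qPow (cuspWidth N γ : ℝ) (-(D (cuspPlace γ))) z) atImInfty (𝓝 c)

/-- Restriction of additive characters of `Γ₀(N)` to `Γ₀(M)`. -/
def restrictChar {N M : ℕ} (h : N ∣ M) {A : Type*} [AddCommGroup A]
    (φ : Additive (Gamma0 N) →+ A) : Additive (Gamma0 M) →+ A :=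
  φ.comp (MonoidHom.toAdditive (Subgroup.inclusion (fun γ hγ => by
    rw [Gamma0_mem] at hγ ⊢
    have := congrArg (ZMod.castHom h (ZMod N)) hγ
    simpa using this)))

theorem coeffMap_mem_FC {N : ℕ} (ι : Qb →+* ℂ) {x : LaurentSeries Qb}
    (hx : x ∈ modularFunctionFieldBar N) : coeffMap ι x ∈ FC N := by
  rw [modularFunctionFieldBar, mem_laurentBaseChange_iff] at hx
  induction hx using Subfield.closure_induction with
  | mem y hy =>
      rcases hy with ⟨a, rfl⟩ | ⟨z, hz, rfl⟩
      · rw [algebraMap_laurentSeries_eq_single, coeffMap_single,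
          ← algebraMap_laurentSeries_eq_single]
        exact (FC N).algebraMap_mem _
      · rw [coeffEmb, coeffMap_coeffMap,
          coeffMap_congr (Subsingleton.elim (ι.comp (algebraMap ℚ Qb)) (algebraMap ℚ ℂ))]
        exact coeffEmb_mem_laurentBaseChange ℂ hz
  | one => simp
  | add x y _ _ hx hy => simpa using add_mem hx hy
  | neg x _ hx => simpa using neg_mem hx
  | inv x _ hx => simpa using inv_mem hx
  | mul x y _ _ hx hy => simpa using mul_mem hx hy

/-- The semilinear embedding of the function field over `ℚ̄` into the one over `ℂ`. -/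
def embFC (N : ℕ) (ι : Qb →+* ℂ) : modularFunctionFieldBar N →+* FC N :=
  ((coeffMap ι).comp (modularFunctionFieldBar N).toSubfield.subtype).codRestrict
    (FC N).toSubfield (fun x => coeffMap_mem_FC ι x.2)

@[simp]
theorem coe_embFC {N : ℕ} (ι : Qb →+* ℂ) (x : modularFunctionFieldBar N) :
    (embFC N ι x : LaurentSeries ℂ) = coeffMap ι (x : LaurentSeries Qb) := rfl

/-- Pullback of degree zero divisor classes along an embedding of function fields. -/
def picPullback {K F F' : Type*} [Field K] [Field F] [Field F'] [Algebra K F] [Algebra K F']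
    [HasPrincipalDivisors K F'] (φ : F →ₐ[K] F') (hφ : φ.toRingHom.IsIntegral)
    (hFI : FundamentalIdentityAlong K φ hφ) : Pic0 K F →+ Pic0 K F' :=
  letI := algebraAlong φ
  haveI := isScalarTower_along φ
  haveI := isIntegral_along φ hφ
  haveI : FundamentalIdentity K F F' := hFI
  Pic0.pullbackHom F'

theorem picPullback_mk {K F F' : Type*} [Field K] [Field F] [Field F'] [Algebra K F]
    [Algebra K F'] [HasPrincipalDivisors K F'] (φ : F →ₐ[K] F') (hφ : φ.toRingHom.IsIntegral)
    (hFI : FundamentalIdentityAlong K φ hφ) (D : Divisor.degZero (K := K) (F := F)) :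
    picPullback φ hφ hFI (Pic0.mk D) =
      Pic0.mk ⟨Divisor.pullbackAlong φ hφ D, Divisor.pullbackAlong_mem_degZero φ hφ hFI D.2⟩ :=
  rfl

end FLTAgent.Torsion
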