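import Fermat.Agent.Torsion.Descent

/-!
# Extension of constants: classes with finite orbit

A place of `F'` trivial on `F` has infinite orbit under the automorphisms fixing `F`
(`infinite_orbit`). Taking, in a class with finite orbit, an effective representative modulo
extended divisors of least degree, one gets `exists_sub_mapDomain_mem_principal`: such a class
comes from a divisor of the small field.
-/

set_option autoImplicit false
set_option linter.unusedSectionVars false

noncomputable section

open WithZero AlgebraicCurve Submodule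

namespace FLTAgent.Torsion

variable {K L F F' : Type*} [Field K] [Field L] [Field F] [Field F'] [Algebra K F] [Algebra L F']
variable {ι : K →+* L} {e : F →+* F'}
variable [IsAlgClosed K] [IsAlgClosed L] [FF.IsFF K F] [FF.IsFF L F']

/-- A place that is trivial on `F` sees an element of `F` as a constant outside `K`. -/
theorem exists_residue_notMem (he : IsConstExt ι e) {x : F} (hx : Transcendental K x)
    {w : Place L F'} (hw : ∀ f : F, w.ord (e f) = 0) :
    ∃ a : L, a ∉ ι.range ∧ 0 < w.ord (e x - algebraMap L F' a) := by
  obtain ⟨a, ha⟩ := hasResidue_of_isFF w (e x) (hw x).ge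
  have hne : a ∉ ι.range := by
    rintro ⟨c, rfl⟩
    rw [← he.map_algebraMap, ← map_sub] at ha
    rcases ha with ha | ha
    · exact hx (by rw [e.injective ha]; exact isAlgebraic_algebraMap c)
    · rw [hw] at ha; exact lt_irrefl _ ha
  refine ⟨a, hne, ha.resolve_left fun h => ?_⟩
  have hli : LinearIndependent K ![(1 : F), x] := by
    rw [LinearIndependent.pair_iff]
    intro s t hst
    have ht : t = 0 := by
      by_contra ht
      refine hx ?_
      rw [show x = algebraMap K F (-s / t) from ?_]
      · exact isAlgebraic_algebraMap _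
      rw [Algebra.smul_def, Algebra.smul_def, mul_one] at hst
      rw [map_div₀, map_neg, eq_div_iff (by simpa using ht)]
      linear_combination hst
    subst ht
    simpa using hst
  have h2 := LinearIndependent.pair_iff.mp (s := -a) (t := (1 : L)) (by
    simpa [FinVec.map, Function.comp_def, Fin.forall_fin_two] using
      (show LinearIndependent L ![(1 : F'), e x] from by
        convert he.li hli using 1; ext i; fin_cases i <;> simp)) (by
    rw [Algebra.smul_def, mul_one, one_smul, map_neg, h, neg_add_cancel])
  exact one_ne_zero h2.2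

variable (he : IsConstExt ι e) (haut : HasAutExt ι e)

include he haut in
/-- A place that is trivial on `F` has infinite orbit. -/
theorem infinite_orbit {w : Place L F'} (hw : ∀ f : F, w.ord (e f) = 0) :
    (Set.range fun g : fixer L e => (g : SemilinearAut L F') • w).Infinite := by
  obtain ⟨x, hx, -, -⟩ := FF.IsFF.exists_sep (K := K) (F := F)
  obtain ⟨a, ha, hpos⟩ := exists_residue_notMem he hx hw
  have hg : ∀ c : K, ∃ g : fixer L e, 0 <
      ((g : SemilinearAut L F') • w).ord (e x - algebraMap L F' (a + ι c)) := fun c => by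
    obtain ⟨τ, hτ, hτa⟩ := exists_aut_translate ι ha c
    obtain ⟨g, hg, rfl⟩ := haut τ hτ
    refine ⟨⟨g, hg⟩, ?_⟩
    have := SemilinearAut.ord_smul g w (e x - algebraMap L F' a)
    rw [smul_sub, hg x, SemilinearAut.smul_algebraMap, hτa] at this
    show 0 < (g • w).ord _
    omega
  choose g hg using hg
  have hinf : Infinite K := IsAlgClosed.instInfinite
  refine Set.infinite_of_injective_forall_mem (f := fun c : K => (g c : SemilinearAut L F') • w)
    (fun c d hcd => ?_) (fun c => ⟨g c, rfl⟩)
  by_contra hne
  have h1 := hg c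
  have h2 := hg d
  simp only at hcd
  rw [← hcd] at h2
  set v := (g c : SemilinearAut L F') • w
  set p := e x - algebraMap L F' (a + ι c)
  set q := e x - algebraMap L F' (a + ι d)
  have hp : p ≠ 0 := fun h => by rw [h, Place.ord_zero] at h1; exact lt_irrefl _ h1
  have hq : q ≠ 0 := fun h => by rw [h, Place.ord_zero] at h2; exact lt_irrefl _ h2
  have hd : p + -q = algebraMap L F' (ι d - ι c) := by
    simp only [p, q, map_add, map_sub]; ring
  have hne0 : p + -q ≠ 0 := by
    rw [hd]
    simpa [sub_eq_zero, ι.injective.eq_iff] using Ne.symm hne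
  have h3 := FF.ord_add_ge v hp (neg_ne_zero.mpr hq) hne0
  rw [hd, FF.ord_algebraMap, FF.ord_neg] at h3
  omega

theorem not_eq_extP_iff (w : Place L F') :
    (∀ f : F, w.ord (e f) = 0) ↔ ∀ v, w ≠ extP he v := by
  constructor
  · rintro h v rfl
    obtain ⟨π, hπ, hπ1⟩ := FF.exists_ord_eq v 1
    have := h π
    rw [ord_extP] at this
    omega
  · intro h f
    by_contra hne
    obtain ⟨v, hv⟩ := exists_eq_extP he hne
    exact h v hv

/-- Effective representatives of a class up to extended divisors. -/
def EffRep (D E : Divisor L F') : Prop :=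
  (∀ w, 0 ≤ E w) ∧ ∃ G : Divisor K F,
    E - (D + Finsupp.mapDomain (extP he) G) ∈ Divisor.principal (K := L) (F := F')

theorem exists_effRep (D : Divisor L F') : ∃ E, EffRep he D E := by
  classical
  obtain ⟨x, hx, -, -⟩ := FF.IsFF.exists_sep (K := K) (F := F)
  set S := D.support.filter fun w => D w < 0 ∧ ∀ f : F, w.ord (e f) = 0
  have hS : ∀ w : {w // w ∈ S}, ∃ a : L, a ∉ ι.range ∧ 0 < w.1.ord (e x - algebraMap L F' a) :=
    fun w => exists_residue_notMem he hx (Finset.mem_filter.mp w.2).2.2
  choose a ha hpos using hS
  let P : {w // w ∈ S} → Divisor L F' := fun w =>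
    FF.divisorOf (e x - algebraMap L F' (a w))
  set D1 := D + ∑ w ∈ S.attach, (-D w.1) • P w
  have hprinc : D1 - D ∈ Divisor.principal (K := L) (F := F') := by
    rw [add_sub_cancel_left]
    refine sum_mem fun w _ => AddSubgroup.zsmul_mem _ ?_ _
    refine ⟨e x - algebraMap L F' (a w), fun h => ?_, fun v => FF.divisorOf_apply _ v⟩
    have := hpos w
    rw [h, Place.ord_zero] at this
    exact lt_irrefl _ this
  have hnn : ∀ w : Place L F', (∀ f : F, w.ord (e f) = 0) → 0 ≤ D1 w := by
    intro w hw
    have hterm : ∀ u : {w // w ∈ S}, 0 ≤ ((-D u.1) • P u) w := fun u => by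
      rw [Finsupp.smul_apply, smul_eq_mul]
      refine mul_nonneg (by have := (Finset.mem_filter.mp u.2).2.1; omega) ?_
      rw [FF.divisorOf_apply]
      rcases eq_or_ne (e x - algebraMap L F' (a u)) 0 with h | h
      · simp [h]
      have hex : e x ≠ 0 := (map_ne_zero e).mpr fun h0 => hx (by
        rw [h0]; exact isAlgebraic_zero)
      rcases eq_or_ne (a u) 0 with h0 | h0
      · simp [h0, hw x]
      have := FF.ord_add_ge w hex (neg_ne_zero.mpr (show algebraMap L F' (a u) ≠ 0 by
        simpa using h0)) (by rwa [← sub_eq_add_neg])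
      rw [FF.ord_neg, FF.ord_algebraMap, hw, ← sub_eq_add_neg, min_self] at this
      exact this
    simp only [D1, Finsupp.add_apply, Finsupp.finsetSum_apply]
    by_cases hwS : w ∈ S
    · have h1 : -D w ≤ ∑ u ∈ S.attach, ((-D u.1) • P u) w := by
        refine le_trans ?_ (Finset.single_le_sum (fun u _ => hterm u)
          (Finset.mem_attach S ⟨w, hwS⟩))
        rw [Finsupp.smul_apply, smul_eq_mul, FF.divisorOf_apply]
        have := hpos ⟨w, hwS⟩
        have := (Finset.mem_filter.mp hwS).2.1
        refine le_mul_of_one_le_right (by omega) ?_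
        have h1 : 0 < w.ord (e x - algebraMap L F' (a ⟨w, hwS⟩)) := hpos ⟨w, hwS⟩
        omega
      omega
    · have h0 : 0 ≤ D w := by
        by_contra hlt
        exact hwS (Finset.mem_filter.mpr ⟨by simp; omega, by omega, hw⟩)
      have := Finset.sum_nonneg fun u (_ : u ∈ S.attach) => hterm u
      omega
  let G : Divisor K F := (Finsupp.comapDomain (extP he)
    (D1.mapRange (fun n => max 0 (-n)) (by simp)) (extP_injective he).injOn)
  refine ⟨D1 + Finsupp.mapDomain (extP he) G, fun w => ?_, G, ?_⟩
  · by_cases hw : ∀ f : F, w.ord (e f) = 0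
    · rw [Finsupp.add_apply, Finsupp.mapDomain_of_notMem_range]
      · simpa using hnn w hw
      · rintro ⟨v, hv⟩
        exact (not_eq_extP_iff he w).mp hw v hv.symm
    · rw [not_eq_extP_iff he] at hw
      push Not at hw
      obtain ⟨v, rfl⟩ := hw
      rw [Finsupp.add_apply, Finsupp.mapDomain_apply (extP_injective he)]
      simp [G]
      omega
  · rw [add_sub_add_right_eq_sub]
    exact hprinc

variable [HasPrincipalDivisors L F']

theorem degree_sub_single (E : Divisor L F') (P : Place L F') :
    Divisor.degree (E - Finsupp.single P 1) = Divisor.degree E - 1 := by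
  rw [map_sub, Divisor.degree_single, deg_eq_one_of_hasResidue (hasResidue_of_isFF P)]
  simp

theorem degree_nonneg_of_effective {E : Divisor L F'} (h : ∀ w, 0 ≤ E w) :
    0 ≤ Divisor.degree E := by
  rw [FF.degree_eq_sum]
  exact Finsupp.sum_nonneg fun w _ => h w

include he haut in
/-- A class with finite orbit comes from a divisor of the small field. -/
theorem exists_sub_mapDomain_mem_principal {D : Divisor L F'}
    (hfin : (Set.range fun g : fixer L e =>
      (QuotientAddGroup.mk ((g : SemilinearAut L F') • D) : Pic L F')).Finite) :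
    ∃ D₀ : Divisor K F,
      D - Finsupp.mapDomain (extP he) D₀ ∈ Divisor.principal (K := L) (F := F') := by
  classical
  set PR := Divisor.principal (K := L) (F := F')
  have hex : ∃ m : ℕ, ∃ E, EffRep he D E ∧ (Divisor.degree E).toNat = m := by
    obtain ⟨E, hE⟩ := exists_effRep he D
    exact ⟨_, E, hE, rfl⟩
  obtain ⟨E, ⟨hE, G, hG⟩, hm⟩ := Nat.find_spec hex
  have hmin : ∀ E' G', (∀ w, 0 ≤ E' w) → E' - (D + Finsupp.mapDomain (extP he) G') ∈ PR →
      Divisor.degree E ≤ Divisor.degree E' := by
    intro E' G' h1 h2
    have := Nat.find_min' hex ⟨E', ⟨h1, G', h2⟩, rfl⟩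
    have := degree_nonneg_of_effective h1
    have := degree_nonneg_of_effective hE
    omega
  have hsupp : ∀ E' : Divisor L F', (∀ w, 0 ≤ E' w) →
      E' - (D + Finsupp.mapDomain (extP he) G) ∈ PR → Divisor.degree E' = Divisor.degree E →
      ∀ v, E' (extP he v) = 0 := by
    intro E' h1 h2 hdeg v
    by_contra hne
    have h3 := hmin (E' - Finsupp.single (extP he v) 1) (G - Finsupp.single v 1) (fun w => ?_) ?_
    · rw [degree_sub_single] at h3; omega
    · rw [Finsupp.sub_apply, Finsupp.single_apply]
      split_ifs with h
      · subst h; have := h1 (extP he v); omega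
      · simpa using h1 w
    · rw [show (Finsupp.mapDomain (extP he) (G - Finsupp.single v 1) : Divisor L F')
          = Finsupp.mapDomain (extP he) G - Finsupp.single (extP he v) 1 by
            rw [← Finsupp.mapDomain_single (f := extP he)]
            exact map_sub (Finsupp.mapDomain.addMonoidHom (extP he)) _ _,
        show E' - Finsupp.single (extP he v) 1 - (D + (Finsupp.mapDomain (extP he) G -
          Finsupp.single (extP he v) 1)) = E' - (D + Finsupp.mapDomain (extP he) G) by abel]
      exact h2
  have huniq : ∀ E', (∀ w, 0 ≤ E' w) → E' - (D + Finsupp.mapDomain (extP he) G) ∈ PR →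
      E' = E := by
    intro E' h1 h2
    by_contra hne
    have hdiff : E' - E ∈ PR := by
      have := sub_mem h2 hG
      rwa [sub_sub_sub_cancel_right] at this
    obtain ⟨f, hf, hdiv⟩ := hdiff
    obtain ⟨v₀⟩ := FF.place_nonempty (K := K) (F := F)
    set P := extP he v₀
    have hP0 : E P = 0 := hsupp E hE hG rfl v₀
    have hfP : 0 ≤ P.ord f := by
      rw [← hdiv, Finsupp.sub_apply, hP0, sub_zero]
      exact h1 P
    obtain ⟨c, hc⟩ := hasResidue_of_isFF P f hfP
    have hfc : ¬ f = algebraMap L F' c := fun h => hne (sub_eq_zero.mp (Finsupp.ext fun w => by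
      rw [hdiv, h, FF.ord_algebraMap, Finsupp.zero_apply]))
    have hfc' : f - algebraMap L F' c ≠ 0 := sub_ne_zero.mpr hfc
    let E'' := E + FF.divisorOf (f - algebraMap L F' c)
    have hE'' : ∀ w, 0 ≤ E'' w := by
      intro w
      simp only [E'', Finsupp.add_apply, FF.divisorOf_apply]
      rcases eq_or_ne c 0 with hc0 | hc0
      · rw [hc0, map_zero, sub_zero, ← hdiv, Finsupp.sub_apply]
        have := h1 w
        omega
      have h3 := FF.ord_add_ge w hf (neg_ne_zero.mpr (show algebraMap L F' c ≠ 0 by
        simpa using hc0)) (by rwa [← sub_eq_add_neg])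
      rw [FF.ord_neg, FF.ord_algebraMap, ← sub_eq_add_neg] at h3
      have := hdiv w
      rw [Finsupp.sub_apply] at this
      have := h1 w
      have := hE w
      omega
    have h2'' : E'' - (D + Finsupp.mapDomain (extP he) G) ∈ PR := by
      simp only [E'', add_sub_right_comm E]
      exact add_mem hG ⟨_, hfc', fun v => FF.divisorOf_apply _ v⟩
    have := hsupp E'' hE'' h2'' (by simp only [E'', map_add, FF.degree_divisorOf, add_zero]) v₀
    simp only [E'', Finsupp.add_apply, FF.divisorOf_apply] at this
    have hpos := hc.resolve_left hfc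
    simp only [P] at hpos hP0
    omega
  have hGg : ∀ g : fixer L e, (g : SemilinearAut L F') • E
      - ((g : SemilinearAut L F') • D + Finsupp.mapDomain (extP he) G) ∈ PR := fun g => by
    have := SemilinearAut.smul_mem_principal (g : SemilinearAut L F') hG
    rwa [smul_sub, smul_add, smul_mapDomain_extP he g.2] at this
  have hfix : ∀ g h : fixer L e, (QuotientAddGroup.mk ((g : SemilinearAut L F') • D) : Pic L F')
      = QuotientAddGroup.mk ((h : SemilinearAut L F') • D) →
      (g : SemilinearAut L F') • E = (h : SemilinearAut L F') • E := by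
    intro g h hgh
    rw [QuotientAddGroup.eq] at hgh
    have h3 : ((h⁻¹ * g : fixer L e) : SemilinearAut L F') • D - D ∈ PR := by
      have := SemilinearAut.smul_mem_principal ((h⁻¹ : fixer L e) : SemilinearAut L F')
        (neg_mem hgh)
      rwa [neg_add_rev, neg_neg, ← sub_eq_neg_add, smul_sub, ← mul_smul, ← Subgroup.coe_mul,
        ← mul_smul, ← Subgroup.coe_mul, inv_mul_cancel, Subgroup.coe_one, one_smul] at this
    have h4 := huniq (((h⁻¹ * g : fixer L e) : SemilinearAut L F') • E) (fun w => by
      rw [SemilinearAut.divisor_smul_apply]; exact hE _) (by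
      have := add_mem (hGg (h⁻¹ * g)) h3
      rwa [show ∀ A B C X : Divisor L F', A - (B + C) + (B - X) = A - (X + C) from
        fun A B C X => by abel] at this)
    have h5 := congrArg ((h : SemilinearAut L F') • ·) h4
    simpa [← mul_smul, ← Subgroup.coe_mul] using h5
  have horb : (Set.range fun g : fixer L e => (g : SemilinearAut L F') • E).Finite := by
    refine (hfin.image fun c => if h : ∃ g : fixer L e,
      (QuotientAddGroup.mk ((g : SemilinearAut L F') • D) : Pic L F') = c then
        (h.choose : SemilinearAut L F') • E else 0).subset ?_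
    rintro _ ⟨g, rfl⟩
    refine ⟨_, ⟨g, rfl⟩, ?_⟩
    have hh : ∃ g' : fixer L e, (QuotientAddGroup.mk ((g' : SemilinearAut L F') • D) : Pic L F')
        = QuotientAddGroup.mk ((g : SemilinearAut L F') • D) := ⟨g, rfl⟩
    refine (dif_pos hh).trans ?_
    exact hfix _ _ hh.choose_spec
  have hext : ∀ w ∈ E.support, ∃ v, extP he v = w := by
    intro w hw
    by_contra hne
    push Not at hne
    refine infinite_orbit he haut ((not_eq_extP_iff he w).mpr fun v => (hne v).symm) ?_
    refine ((horb.biUnion fun X _ => X.support.finite_toSet)).subset ?_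
    rintro _ ⟨g, rfl⟩
    simp only [Set.mem_iUnion, Set.mem_range]
    refine ⟨_, ⟨g, rfl⟩, ?_⟩
    rw [Finset.mem_coe, Finsupp.mem_support_iff, SemilinearAut.divisor_smul_apply_smul]
    exact Finsupp.mem_support_iff.mp hw
  refine ⟨Finsupp.comapDomain (extP he) E (extP_injective he).injOn - G, ?_⟩
  have hE0 : Finsupp.mapDomain (extP he) (Finsupp.comapDomain (extP he) E
      (extP_injective he).injOn) = E :=
    Finsupp.mapDomain_comapDomain _ (extP_injective he) _
      (fun w hw => hext w hw)
  rw [show (Finsupp.mapDomain (extP he) (Finsupp.comapDomain (extP he) E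
      (extP_injective he).injOn - G) : Divisor L F') = E - Finsupp.mapDomain (extP he) G by
    conv_rhs => rw [← hE0]
    exact map_sub (Finsupp.mapDomain.addMonoidHom (extP he)) _ _,
    show D - (E - Finsupp.mapDomain (extP he) G) = -(E - (D + Finsupp.mapDomain (extP he) G))
      by abel]
  exact neg_mem hG

end FLTAgent.Torsion
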