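import Fermat.Agent.ModularPlaces.Fields
import Fermat.Agent.Torsion.Defs
import Fermat.Agent.Torsion.FiniteOrbit

/-!
# Extension of constants from `ℚ̄` to `ℂ` for the function field of `X₀(N)`

`embFC` is an extension of constants to which automorphisms of `ℂ` over `ℚ̄` extend
(`isConstExt_embFC`, `hasAutExt_embFC`). This gives `placeExt`, `divExt` and
`picExt : J₀(N)(ℚ̄) → Pic⁰(X₀(N)_ℂ)`, injective (`picExt_injective`) and natural in automorphisms
(`picExt_smul`). If the `n`-torsion over `ℂ` is finite, its classes have finite orbit, so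
`picExtTorsion` is bijective (`picExtTorsion_bijective_of_finite`).
-/

set_option autoImplicit false
set_option linter.unusedSectionVars false

noncomputable section

open AlgebraicCurve ModularCurve Submodule

namespace FLTAgent.Torsion

open FLTAgent.Modular

variable {N : ℕ} [NeZero N] (ι : Qb →+* ℂ)

/-- `coeffMap` preserves linear independence. -/
theorem linearIndependent_coeffMap {K L : Type*} [Field K] [Field L] (ι : K →+* L) {β : Type*}
    [Fintype β] {f : β → LaurentSeries K} (hf : LinearIndependent K f) :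
    LinearIndependent L fun i => coeffMap ι (f i) := by
  let : Algebra K L := ι.toAlgebra
  rw [Fintype.linearIndependent_iff] at hf ⊢
  intro a ha i
  let B := Module.Basis.ofVectorSpace K L
  refine B.repr.injective (Finsupp.ext fun j => ?_)
  rw [map_zero, Finsupp.zero_apply]
  refine hf (fun i => B.repr (a i) j) ?_ i
  ext k
  have h := congrArg (fun x : LaurentSeries L => B.repr (x.coeff k) j) ha
  simp only [HahnSeries.coeff_sum, map_sum, Finsupp.coe_finsetSum, Finset.sum_apply,
    HahnSeries.coeff_smul, coeffMap_coeff, HahnSeries.coeff_zero, map_zero,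
    Finsupp.zero_apply] at h ⊢
  rw [← h]
  refine Finset.sum_congr rfl fun i _ => ?_
  rw [smul_eq_mul, smul_eq_mul,
    show a i * ι ((f i).coeff k) = (f i).coeff k • a i by rw [mul_comm]; rfl, map_smul,
    Finsupp.smul_apply, smul_eq_mul, mul_comm]

/-- `embFC` is an extension of constants. -/
theorem isConstExt_embFC : IsConstExt ι (embFC N ι) where
  map_algebraMap a := Subtype.ext (by
    rw [coe_embFC]
    show coeffMap ι (algebraMap Qb (LaurentSeries Qb) a) = algebraMap ℂ (LaurentSeries ℂ) (ι a)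
    rw [algebraMap_laurentSeries_eq_single, coeffMap_single, algebraMap_laurentSeries_eq_single])
  linIndep s hs := by
    rw [Fintype.linearIndependent_iff] at hs ⊢
    have hL : LinearIndependent Qb fun i : s =>
        ((i : modularFunctionFieldBar N) : LaurentSeries Qb) := by
      rw [Fintype.linearIndependent_iff]
      intro a ha
      refine hs a (Subtype.ext ?_)
      rw [AddSubmonoidClass.coe_finsetSum, ZeroMemClass.coe_zero, ← ha]
      refine Finset.sum_congr rfl fun i _ => ?_
      rw [← HahnSeries.C_mul_eq_smul, Algebra.smul_def, MulMemClass.coe_mul]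
      exact congrArg (· * _) (algebraMap_laurentSeries_eq_single Qb (a i))
    have hC := Fintype.linearIndependent_iff.mp (linearIndependent_coeffMap ι hL)
    intro a ha
    refine hC a ?_
    have h := congrArg Subtype.val ha
    rw [AddSubmonoidClass.coe_finsetSum, ZeroMemClass.coe_zero] at h
    rw [← h]
    refine Finset.sum_congr rfl fun i _ => ?_
    rw [← HahnSeries.C_mul_eq_smul, Algebra.smul_def, MulMemClass.coe_mul, coe_embFC]
    exact congrArg (· * _) (algebraMap_laurentSeries_eq_single ℂ (a i)).symm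
  generates := by
    let S : Submodule ℂ (FC N) := span ℂ (Set.range (embFC N ι))
    have hmul : ∀ {a b : FC N}, a ∈ S → b ∈ S → a * b ∈ S :=
      fun ha hb => IsConstExt.mul_mem _ _ ha hb
    have hone : (1 : FC N) ∈ S := subset_span ⟨1, map_one _⟩
    rintro ⟨x, hx⟩
    suffices h : ∀ y, ∀ hy : y ∈ FC N,
        ∃ a ∈ S, ∃ b ∈ S, b ≠ 0 ∧ (⟨y, hy⟩ : FC N) = a / b from h x hx
    intro y hy
    revert hy
    suffices h : ∀ y, y ∈ Subfield.closure (Set.range (algebraMap ℂ (LaurentSeries ℂ)) ∪
        (⇑(coeffEmb ℂ) '' (modularFunctionFieldFull N : Set (LaurentSeries ℚ)))) →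
        ∃ a ∈ S, ∃ b ∈ S, b ≠ 0 ∧ y = (a / b : FC N) by
      intro hy
      obtain ⟨a, ha, b, hb, hb0, h⟩ := h y (mem_laurentBaseChange_iff.mp hy)
      exact ⟨a, ha, b, hb, hb0, Subtype.ext h⟩
    intro y hy
    induction hy using Subfield.closure_induction with
    | mem z hz =>
      rcases hz with ⟨c, rfl⟩ | ⟨w, hw, rfl⟩
      · exact ⟨algebraMap ℂ (FC N) c, by
          rw [Algebra.algebraMap_eq_smul_one]; exact smul_mem _ _ hone, 1, hone, one_ne_zero,
          by rw [div_one]; rfl⟩
      · refine ⟨embFC N ι ⟨coeffEmb Qb w, coeffEmb_mem_laurentBaseChange Qb hw⟩,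
          subset_span ⟨_, rfl⟩, 1, hone, one_ne_zero, ?_⟩
        rw [div_one, coe_embFC]
        show coeffMap (algebraMap ℚ ℂ) w = coeffMap ι (coeffMap (algebraMap ℚ Qb) w)
        rw [coeffMap_coeffMap]
        exact coeffMap_congr (Subsingleton.elim _ _) w
    | one => exact ⟨1, hone, 1, hone, one_ne_zero, by simp⟩
    | add z w _ _ hz hw =>
      obtain ⟨a, ha, b, hb, hb0, rfl⟩ := hz
      obtain ⟨c, hc, d, hd, hd0, rfl⟩ := hw
      exact ⟨a * d + b * c, add_mem (hmul ha hd) (hmul hb hc), b * d, hmul hb hd,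
        mul_ne_zero hb0 hd0, congrArg Subtype.val (div_add_div a c hb0 hd0)⟩
    | neg z _ hz =>
      obtain ⟨a, ha, b, hb, hb0, rfl⟩ := hz
      exact ⟨-a, neg_mem ha, b, hb, hb0, congrArg Subtype.val (neg_div b a).symm⟩
    | inv z _ hz =>
      obtain ⟨a, ha, b, hb, hb0, rfl⟩ := hz
      rcases eq_or_ne a 0 with rfl | ha0
      · exact ⟨0, zero_mem _, 1, hone, one_ne_zero, by simp⟩
      · exact ⟨b, hb, a, ha, ha0, congrArg Subtype.val (inv_div a b)⟩
    | mul z w _ _ hz hw =>
      obtain ⟨a, ha, b, hb, hb0, rfl⟩ := hz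
      obtain ⟨c, hc, d, hd, hd0, rfl⟩ := hw
      exact ⟨a * c, hmul ha hc, b * d, hmul hb hd, mul_ne_zero hb0 hd0,
        congrArg Subtype.val (div_mul_div_comm a b c d)⟩

theorem toRingAut_arith (σ : ℂ ≃ₐ[ℚ] ℂ) (x : FC N) :
    (((arithmeticGalois (modularFunctionFieldFull N) σ) • x : FC N) : LaurentSeries ℂ) =
      coeffMap (σ : ℂ →+* ℂ) (x : LaurentSeries ℂ) := rfl

theorem hasAutExt_embFC : HasAutExt ι (embFC N ι) := by
  intro τ hτ
  let σ : ℂ ≃ₐ[ℚ] ℂ := AlgEquiv.ofRingEquiv (f := τ) fun q => by simp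
  refine ⟨arithmeticGalois (modularFunctionFieldFull N) σ, fun f => Subtype.ext ?_, rfl⟩
  rw [toRingAut_arith, coe_embFC, coeffMap_coeffMap]
  exact coeffMap_congr (RingHom.ext hτ) _

/-- The place of `FC N` above a place of the function field over `ℚ̄`. -/
def placeExt (v : Place Qb (modularFunctionFieldBar N)) : Place ℂ (FC N) :=
  extP (isConstExt_embFC ι) v

theorem ord_placeExt (v : Place Qb (modularFunctionFieldBar N)) (y : modularFunctionFieldBar N) :
    (placeExt ι v).ord (embFC N ι y) = v.ord y :=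
  ord_extP _ v y

theorem placeExt_injective : Function.Injective (placeExt (N := N) ι) :=
  extP_injective _

theorem deg_placeExt (v : Place Qb (modularFunctionFieldBar N)) :
    (placeExt ι v).deg = v.deg := by
  rw [deg_eq_one_of_hasResidue (hasResidue_of_isFF v),
    deg_eq_one_of_hasResidue (hasResidue_of_isFF (placeExt ι v))]

theorem eq_placeExt_of_ord_ne_zero {w : Place ℂ (FC N)} {y : modularFunctionFieldBar N}
    (hy : w.ord (embFC N ι y) ≠ 0) : ∃ v, w = placeExt ι v :=
  exists_eq_extP _ hy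

theorem eq_placeExt_of_forall {w : Place ℂ (FC N)} {v : Place Qb (modularFunctionFieldBar N)}
    (h : ∀ y, 0 ≤ v.ord y ↔ 0 ≤ w.ord (embFC N ι y)) : w = placeExt ι v :=
  eq_extPlace _ _ h

/-- Extension of constants on divisors. -/
def divExt : Divisor Qb (modularFunctionFieldBar N) →+ Divisor ℂ (FC N) :=
  Finsupp.mapDomain.addMonoidHom (placeExt ι)

theorem divExt_apply (D : Divisor Qb (modularFunctionFieldBar N)) :
    divExt ι D = Finsupp.mapDomain (placeExt ι) D := rfl

theorem divExt_single (v : Place Qb (modularFunctionFieldBar N)) (n : ℤ) :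
    divExt ι (Finsupp.single v n) = Finsupp.single (placeExt ι v) n :=
  Finsupp.mapDomain_single

theorem divExt_apply_placeExt (D : Divisor Qb (modularFunctionFieldBar N))
    (v : Place Qb (modularFunctionFieldBar N)) : divExt ι D (placeExt ι v) = D v :=
  Finsupp.mapDomain_apply (placeExt_injective ι) D v

theorem degree_divExt (D : Divisor Qb (modularFunctionFieldBar N)) :
    Divisor.degree (divExt ι D) = Divisor.degree D := by
  induction D using Finsupp.induction with
  | zero => simp
  | single_add v n D _ _ ih =>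
    rw [map_add, map_add, map_add, ih, divExt_single, Divisor.degree_single,
      Divisor.degree_single, deg_placeExt]

theorem isPrincipal_divExt {D : Divisor Qb (modularFunctionFieldBar N)} (hD : D.IsPrincipal) :
    (divExt ι D).IsPrincipal := by
  obtain ⟨f, hf, hdiv⟩ := hD
  refine ⟨embFC N ι f, (map_ne_zero _).mpr hf, fun w => ?_⟩
  by_cases hw : ∃ v, w = placeExt ι v
  · obtain ⟨v, rfl⟩ := hw
    rw [divExt_apply_placeExt, ord_placeExt, hdiv]
  · rw [divExt_apply, Finsupp.mapDomain_of_notMem_range]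
    · by_contra hne
      exact hw (eq_placeExt_of_ord_ne_zero ι (Ne.symm hne))
    · rintro ⟨v, hv⟩; exact hw ⟨v, hv.symm⟩

theorem divExt_mem_principal_iff (D : Divisor Qb (modularFunctionFieldBar N)) :
    divExt ι D ∈ Divisor.principal (K := ℂ) (F := FC N) ↔
      D ∈ Divisor.principal (K := Qb) (F := modularFunctionFieldBar N) :=
  ⟨fun h => isPrincipal_of_mapDomain_extP (isConstExt_embFC ι) (hasAutExt_embFC ι) h,
    fun h => isPrincipal_divExt ι h⟩

/-- Extension of constants on degree zero divisors. -/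
def degZeroExt : Divisor.degZero (K := Qb) (F := modularFunctionFieldBar N) →+
    Divisor.degZero (K := ℂ) (F := FC N) :=
  ((divExt ι).domRestrict _).codRestrict _ fun D => by
    rw [Divisor.mem_degZero, AddMonoidHom.domRestrict_apply, degree_divExt]
    exact D.2

@[simp]
theorem coe_degZeroExt (D : Divisor.degZero (K := Qb) (F := modularFunctionFieldBar N)) :
    (degZeroExt ι D : Divisor ℂ (FC N)) = divExt ι D := rfl

/-- Extension of constants on divisor classes. -/
def picExt (N : ℕ) [NeZero N] (ι : Qb →+* ℂ) : JZero N →+ Pic0 ℂ (FC N) :=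
  QuotientAddGroup.map _ _ (degZeroExt ι) (fun D hD => by
    simp only [AddSubgroup.mem_comap, AddSubgroup.mem_addSubgroupOf] at hD ⊢
    exact (divExt_mem_principal_iff ι _).mpr hD)

theorem picExt_mk (D : Divisor.degZero (K := Qb) (F := modularFunctionFieldBar N)) :
    picExt N ι (Pic0.mk D) = Pic0.mk (degZeroExt ι D) := rfl

/-- Extension of constants is injective on `J₀(N)(ℚ̄)`. -/
theorem picExt_injective : Function.Injective (picExt N ι) := by
  rw [injective_iff_map_eq_zero]
  intro x hx
  obtain ⟨D, rfl⟩ := Pic0.mk_surjective x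
  rw [picExt_mk] at hx
  refine (QuotientAddGroup.eq_zero_iff _).mpr ?_
  have h := (QuotientAddGroup.eq_zero_iff _).mp hx
  rw [AddSubgroup.mem_addSubgroupOf] at h ⊢
  exact (divExt_mem_principal_iff ι _).mp h

theorem exists_picExt_eq_of_finite_torsion {n : ℕ} [NeZero n]
    (hfin : Finite (Pic0.torsion ℂ (FC N) n)) {x : Pic0 ℂ (FC N)}
    (hx : x ∈ Pic0.torsion ℂ (FC N) n) :
    ∃ y ∈ Pic0.torsion Qb (modularFunctionFieldBar N) n, picExt N ι y = x := by
  obtain ⟨D, rfl⟩ := Pic0.mk_surjective x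
  obtain ⟨D₀, hD₀⟩ := exists_sub_mapDomain_mem_principal (isConstExt_embFC ι)
    (hasAutExt_embFC ι) (D := (D : Divisor ℂ (FC N))) (by
      let j : Pic0 ℂ (FC N) → Pic ℂ (FC N) :=
        Quotient.lift (fun E : Divisor.degZero (K := ℂ) (F := FC N) =>
            (QuotientAddGroup.mk (E : Divisor ℂ (FC N)) : Pic ℂ (FC N))) (fun a b h =>
          QuotientAddGroup.eq.mpr (by
            have := QuotientAddGroup.leftRel_apply.mp h
            simpa [AddSubgroup.mem_addSubgroupOf] using this))
      refine ((Set.finite_coe_iff.mp hfin).image j).subset ?_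
      rintro _ ⟨g, rfl⟩
      exact ⟨(g : SemilinearAut ℂ (FC N)) • Pic0.mk D, SemilinearAut.smul_mem_torsion _ hx, rfl⟩)
  have hD₀' : (D : Divisor ℂ (FC N)) - divExt ι D₀ ∈ Divisor.principal (K := ℂ) (F := FC N) :=
    hD₀
  have hdeg : D₀ ∈ Divisor.degZero (K := Qb) (F := modularFunctionFieldBar N) := by
    rw [Divisor.mem_degZero, ← degree_divExt ι]
    obtain ⟨f, hf, hdiv⟩ := hD₀'
    have h1 : (D : Divisor ℂ (FC N)) - divExt ι D₀ = FF.divisorOf f :=
      Finsupp.ext fun v => by rw [hdiv, FF.divisorOf_apply]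
    have h2 := congrArg Divisor.degree h1
    rw [map_sub, Divisor.mem_degZero.mp D.2, FF.degree_divisorOf, zero_sub, neg_eq_zero] at h2
    exact h2
  have heq : picExt N ι (Pic0.mk ⟨D₀, hdeg⟩) = Pic0.mk D := by
    rw [picExt_mk]
    refine QuotientAddGroup.eq.mpr ?_
    rw [AddSubgroup.mem_addSubgroupOf]
    simpa [neg_add_eq_sub] using hD₀'
  refine ⟨_, ?_, heq⟩
  rw [Pic0.mem_torsion]
  apply picExt_injective ι
  rw [map_zsmul, heq, map_zero]
  exact Pic0.mem_torsion.mp hx

/-- Naturality in automorphisms of `ℂ`. -/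
theorem smul_placeExt (σ : Qb ≃ₐ[ℚ] Qb) (σ' : ℂ ≃ₐ[ℚ] ℂ) (h : ∀ a, σ' (ι a) = ι (σ a))
    (v : Place Qb (modularFunctionFieldBar N)) :
    arithmeticGalois (modularFunctionFieldFull N) σ' • placeExt ι v =
      placeExt ι (arithmeticGalois (modularFunctionFieldFull N) σ • v) := by
  set g := arithmeticGalois (modularFunctionFieldFull N) σ
  set g' := arithmeticGalois (modularFunctionFieldFull N) σ'
  refine eq_placeExt_of_forall ι fun y => ?_
  obtain ⟨y₀, rfl⟩ : ∃ y₀, g • y₀ = y := ⟨g⁻¹ • y, smul_inv_smul _ _⟩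
  have he : embFC N ι (g • y₀) = g' • embFC N ι y₀ := Subtype.ext (by
    rw [toRingAut_arith, coe_embFC, coe_embFC, coeffMap_coeffMap]
    show coeffMap ι (coeffMap _ _) = _
    rw [coeffMap_coeffMap]
    exact coeffMap_congr (RingHom.ext fun a => (h a).symm) _)
  rw [SemilinearAut.ord_smul, he, SemilinearAut.ord_smul, ord_placeExt]

theorem divExt_smul (σ : Qb ≃ₐ[ℚ] Qb) (σ' : ℂ ≃ₐ[ℚ] ℂ) (h : ∀ a, σ' (ι a) = ι (σ a))
    (D : Divisor Qb (modularFunctionFieldBar N)) :
    divExt ι (arithmeticGalois (modularFunctionFieldFull N) σ • D) =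
      arithmeticGalois (modularFunctionFieldFull N) σ' • divExt ι D := by
  rw [SemilinearAut.divisor_smul_def, SemilinearAut.divisor_smul_def, divExt_apply, divExt_apply,
    ← Finsupp.mapDomain_comp, ← Finsupp.mapDomain_comp]
  exact Finsupp.mapDomain_congr fun v _ => (smul_placeExt ι σ σ' h v).symm

theorem picExt_smul (σ : Qb ≃ₐ[ℚ] Qb) (σ' : ℂ ≃ₐ[ℚ] ℂ) (h : ∀ a, σ' (ι a) = ι (σ a))
    (x : JZero N) : picExt N ι (σ • x) = σ' • picExt N ι x := by
  obtain ⟨D, rfl⟩ := Pic0.mk_surjective x
  rw [galois_smul_pic0_def, galois_smul_pic0_def, SemilinearAut.pic0_smul_mk, picExt_mk,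
    picExt_mk, SemilinearAut.pic0_smul_mk]
  exact congrArg Pic0.mk (Subtype.ext (divExt_smul ι σ σ' h (D : Divisor Qb (modularFunctionFieldBar N))))

/-- `picExt` on `n`-torsion. -/
def picExtTorsion (n : ℕ) :
    Pic0.torsion Qb (modularFunctionFieldBar N) n →+ Pic0.torsion ℂ (FC N) n :=
  ((picExt N ι).domRestrict _).codRestrict _ fun x => by
    rw [AddMonoidHom.domRestrict_apply, Pic0.mem_torsion, ← map_zsmul, Pic0.mem_torsion.mp x.2,
      map_zero]

@[simp]
theorem coe_picExtTorsion {n : ℕ} (x : Pic0.torsion Qb (modularFunctionFieldBar N) n) :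
    (picExtTorsion ι n x : Pic0 ℂ (FC N)) = picExt N ι (x : JZero N) := rfl

/-- Bijectivity on `n`-torsion, given finiteness over `ℂ`. -/
theorem picExtTorsion_bijective_of_finite (n : ℕ) [NeZero n]
    (hfin : Finite (Pic0.torsion ℂ (FC N) n)) :
    Function.Bijective (picExtTorsion (N := N) ι n) := by
  refine ⟨fun x y h => Subtype.ext (picExt_injective ι (congrArg Subtype.val h)), fun x => ?_⟩
  obtain ⟨y, hy, h⟩ := exists_picExt_eq_of_finite_torsion ι hfin x.2
  exact ⟨⟨y, hy⟩, Subtype.ext h⟩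

end FLTAgent.Torsion
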