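import Fermat.Agent.Torsion.Root
import Fermat.Agent.Modular.JFun

/-!
# Multiplier functions with a given unitary character

For a unitary character `c` of `Γ₀(N)` trivial on parabolic elements, the twisted Eisenstein
series `eisTwist c` of weight four (sum over bottom rows of `Γ₀(N)`) transforms by `c`, is analytic
and bounded at all cusps, and tends to `2` along `i(k+1)`, so is nonzero. Divided by `E₄` it gives
a multiplier function (`exists_isMult_of_unitary'`, `exists_isMult_of_unitary`).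
-/

set_option autoImplicit false
set_option linter.unusedSectionVars false

noncomputable section

open UpperHalfPlane CongruenceSubgroup Filter Topology Complex Matrix EisensteinSeries
open scoped MatrixGroups

namespace FLTAgent.Torsion

open FLTAgent.Modular

theorem coeff_zero_psC_E₄ :
    (psC (ModularCurve.eisenstein4.map (Int.castRingHom ℂ))).coeff 0 = 1 := by
  have h := HahnSeries.ofPowerSeries_apply_coeff (Γ := ℤ)
    (ModularCurve.eisenstein4.map (Int.castRingHom ℂ)) 0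
  simpa [psC, ModularCurve.eisenstein4] using h

variable {N : ℕ} (c : Gamma0 N →* ℂˣ)

/-- The bottom row of a matrix. -/
def botRow (γ : SL(2, ℤ)) : Fin 2 → ℤ := fun i => γ 1 i

theorem botRow_mul (γ δ : SL(2, ℤ)) :
    botRow (γ * δ) = botRow γ ᵥ* (δ : Matrix (Fin 2) (Fin 2) ℤ) := by
  funext i
  simp [botRow, Matrix.vecMul, dotProduct, Matrix.mul_apply]

open Classical in
/-- The coefficients of the twisted Eisenstein series. -/
def eisCoeff (v : Fin 2 → ℤ) : ℂ :=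
  if h : ∃ δ : Gamma0 N, botRow (δ : SL(2, ℤ)) = v then ((c h.choose : ℂˣ) : ℂ)⁻¹ else 0

/-- The twisted Eisenstein series of weight four. -/
def eisTwist (z : ℍ) : ℂ := ∑' v : Fin 2 → ℤ, eisCoeff c v * eisSummand 4 v z

variable {c}

section algebra

variable (htr : ∀ γ : Gamma0 N,
  ((γ : SL(2, ℤ)).1.trace) ^ 2 = 4 → c γ = 1)

include htr

theorem char_eq_of_botRow {δ δ' : Gamma0 N}
    (h : botRow (δ' : SL(2, ℤ)) = botRow (δ : SL(2, ℤ))) : c δ' = c δ := by
  have hb : botRow ((δ' : SL(2, ℤ)) * (δ : SL(2, ℤ))⁻¹) = botRow 1 := by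
    rw [botRow_mul, h, ← botRow_mul, mul_inv_cancel]
  set M : SL(2, ℤ) := (δ' : SL(2, ℤ)) * (δ : SL(2, ℤ))⁻¹ with hM
  have h0 : M 1 0 = 0 := by simpa [botRow] using congrFun hb 0
  have h1 : M 1 1 = 1 := by simpa [botRow] using congrFun hb 1
  have h00 : M 0 0 = 1 := by
    have hd := M.2
    rw [Matrix.det_fin_two, h0, h1] at hd
    linarith
  have := htr (δ' * δ⁻¹) (by
    show (M.1.trace) ^ 2 = 4
    rw [Matrix.trace_fin_two, h00, h1]; norm_num)
  rwa [map_mul, map_inv, mul_inv_eq_one] at this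

theorem eisCoeff_botRow (δ : Gamma0 N) :
    eisCoeff c (botRow (δ : SL(2, ℤ))) = ((c δ : ℂˣ) : ℂ)⁻¹ := by
  have hex : ∃ δ' : Gamma0 N, botRow (δ' : SL(2, ℤ)) = botRow (δ : SL(2, ℤ)) := ⟨δ, rfl⟩
  rw [eisCoeff, dif_pos hex, char_eq_of_botRow htr hex.choose_spec]

theorem eisCoeff_vecMul (v : Fin 2 → ℤ) (γ : Gamma0 N) :
    eisCoeff c v = (c γ : ℂ) * eisCoeff c (v ᵥ* ((γ : SL(2, ℤ)) : Matrix (Fin 2) (Fin 2) ℤ)) := by
  by_cases h : ∃ δ : Gamma0 N, botRow (δ : SL(2, ℤ)) = v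
  · obtain ⟨δ, rfl⟩ := h
    rw [← botRow_mul, ← Subgroup.coe_mul, eisCoeff_botRow htr, eisCoeff_botRow htr, map_mul]
    have := (c γ).ne_zero
    push_cast
    field_simp
  · have h' : ¬ ∃ δ : Gamma0 N,
        botRow (δ : SL(2, ℤ)) = v ᵥ* ((γ : SL(2, ℤ)) : Matrix (Fin 2) (Fin 2) ℤ) := by
      rintro ⟨δ, hδ⟩
      refine h ⟨δ * γ⁻¹, ?_⟩
      rw [Subgroup.coe_mul, botRow_mul, hδ, Matrix.vecMul_vecMul, Subgroup.coe_inv,
        ← Matrix.SpecialLinearGroup.coe_mul, mul_inv_cancel, Matrix.SpecialLinearGroup.coe_one,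
        Matrix.vecMul_one]
    rw [eisCoeff, eisCoeff, dif_neg h, dif_neg h', mul_zero]

theorem eisTwist_smul (γ : Gamma0 N) (z : ℍ) :
    eisTwist c ((γ : SL(2, ℤ)) • z) =
      (c γ : ℂ) * denom (γ : SL(2, ℤ)) z ^ (4 : ℤ) * eisTwist c z := by
  set g : SL(2, ℤ) := (γ : SL(2, ℤ)) with hg
  let e : (Fin 2 → ℤ) ≃ (Fin 2 → ℤ) :=
    { toFun := fun v => v ᵥ* (g : Matrix (Fin 2) (Fin 2) ℤ)
      invFun := fun v => v ᵥ* ((g⁻¹ : SL(2, ℤ)) : Matrix (Fin 2) (Fin 2) ℤ)
      left_inv := fun v => by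
        simp_rw [Matrix.vecMul_vecMul, ← Matrix.SpecialLinearGroup.coe_mul, mul_inv_cancel,
          Matrix.SpecialLinearGroup.coe_one, Matrix.vecMul_one]
      right_inv := fun v => by
        simp_rw [Matrix.vecMul_vecMul, ← Matrix.SpecialLinearGroup.coe_mul, inv_mul_cancel,
          Matrix.SpecialLinearGroup.coe_one, Matrix.vecMul_one] }
  calc eisTwist c (g • z)
      = ∑' v, (c γ : ℂ) * denom g z ^ (4 : ℤ) * (eisCoeff c (e v) * eisSummand 4 (e v) z) := by
        refine tsum_congr fun v => ?_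
        rw [eisCoeff_vecMul htr v γ, eisSummand_SL2_apply]
        simp only [e, Equiv.coe_fn_mk]
        ring
    _ = (c γ : ℂ) * denom g z ^ (4 : ℤ) * eisTwist c z := by
        rw [tsum_mul_left, eisTwist, ← e.tsum_eq (fun v => eisCoeff c v * eisSummand 4 v z)]

end algebra

section analysis

variable (hnorm : ∀ γ : Gamma0 N, ‖(c γ : ℂ)‖ = 1)

include hnorm

theorem norm_eisCoeff_le (v : Fin 2 → ℤ) : ‖eisCoeff c v‖ ≤ 1 := by
  unfold eisCoeff
  split <;> simp [hnorm]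

omit hnorm in
theorem summable_norm_eis (z : ℍ) : Summable fun v : Fin 2 → ℤ => ‖eisSummand 4 v z‖ :=
  EisensteinSeries.summable_norm_eisSummand (by norm_num) z

omit hnorm in
theorem norm_eisSummand_le {A B : ℝ} (hB : 0 < B) {z : ℍ} (hz : z ∈ verticalStrip A B)
    (v : Fin 2 → ℤ) :
    ‖eisSummand 4 v z‖ ≤ r ⟨⟨A, B⟩, hB⟩ ^ (-4 : ℝ) * ‖v‖ ^ (-4 : ℝ) := by
  have h := summand_bound_of_mem_verticalStrip (k := (4 : ℝ)) (by norm_num) v hB hz
  rw [eisSummand, norm_zpow, ← Real.rpow_intCast]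
  simpa using h

theorem norm_coeff_mul_le {A B : ℝ} (hB : 0 < B) {z : ℍ} (hz : z ∈ verticalStrip A B)
    (v : Fin 2 → ℤ) :
    ‖eisCoeff c v * eisSummand 4 v z‖ ≤ r ⟨⟨A, B⟩, hB⟩ ^ (-4 : ℝ) * ‖v‖ ^ (-4 : ℝ) := by
  rw [norm_mul]
  calc ‖eisCoeff c v‖ * ‖eisSummand 4 v z‖ ≤ 1 * ‖eisSummand 4 v z‖ :=
        mul_le_mul_of_nonneg_right (norm_eisCoeff_le hnorm v) (norm_nonneg _)
    _ ≤ _ := by rw [one_mul]; exact norm_eisSummand_le hB hz v

theorem summable_coeff_mul (z : ℍ) :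
    Summable fun v => ‖eisCoeff c v * eisSummand 4 v z‖ :=
  (summable_norm_eis z).of_nonneg_of_le (fun v => norm_nonneg _) fun v => by
    rw [norm_mul]
    exact mul_le_of_le_one_left (norm_nonneg _) (norm_eisCoeff_le hnorm v)

theorem analyticAt_eisTwist (z : ℍ) : AnalyticAt ℂ (eisTwist c ∘ ofComplex) (z : ℂ) := by
  set A := |z.re| + 1 with hA
  set B := z.im / 2 with hB
  have hB0 : 0 < B := by have := z.im_pos; positivity
  set U : Set ℂ := {w | |w.re| < A ∧ B < w.im} with hU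
  have hUo : IsOpen U := (isOpen_lt (Complex.continuous_re.abs) continuous_const).inter
    (isOpen_lt continuous_const Complex.continuous_im)
  have hzU : (z : ℂ) ∈ U := ⟨by simp [hA], by have := z.im_pos; simp [hB]; linarith⟩
  have hUH : ∀ w ∈ U, 0 < w.im := fun w hw => hB0.trans hw.2
  have hsum : Summable fun v : Fin 2 → ℤ => r ⟨⟨A, B⟩, hB0⟩ ^ (-4 : ℝ) * ‖v‖ ^ (-4 : ℝ) :=
    (summable_one_div_norm_rpow (by norm_num)).mul_left _
  have hd : DifferentiableOn ℂ
      (fun w : ℂ => ∑' v, eisCoeff c v * eisSummand 4 v (ofComplex w)) U := by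
    refine differentiableOn_tsum_of_summable_norm hsum (fun v => ?_) hUo (fun v w hw => ?_)
    · refine DifferentiableOn.const_mul ?_ _
      by_cases hv : v = 0
      · subst hv
        simp [eisSummand]
      intro w hw
      have hev : (fun w : ℂ => eisSummand 4 v (ofComplex w)) =ᶠ[𝓝 w]
          fun w : ℂ => ((v 0 : ℂ) * w + v 1) ^ (-4 : ℤ) := by
        filter_upwards [isOpen_upperHalfPlaneSet.mem_nhds (hUH w hw)] with x hx
        simp [eisSummand, ofComplex_apply_of_im_pos hx]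
      refine (DifferentiableAt.congr_of_eventuallyEq ?_ hev).differentiableWithinAt
      refine (((differentiableAt_id.const_mul _).add_const _)).zpow (Or.inl ?_)
      have := linear_ne_zero (cd := fun i => (v i : ℝ)) (⟨w, hUH w hw⟩ : ℍ)
        (by
          intro h0
          exact hv (funext fun i => by simpa using congrFun h0 i))
      simpa using this
    · refine norm_coeff_mul_le hnorm hB0 ?_ v
      have h := hUH w hw
      rw [mem_verticalStrip_iff, ofComplex_apply_of_im_pos h]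
      exact ⟨hw.1.le, hw.2.le⟩
  exact hd.analyticAt (hUo.mem_nhds hzU)

/-- The majorant of the twisted series. -/
def eisMajor (z : ℍ) : ℝ := ∑' v : Fin 2 → ℤ, ‖eisSummand 4 v z‖

theorem norm_eisTwist_smul_le (δ : SL(2, ℤ)) (z : ℍ) :
    ‖eisTwist c (δ • z)‖ ≤ ‖denom δ z‖ ^ (4 : ℤ) * eisMajor z := by
  let e : (Fin 2 → ℤ) ≃ (Fin 2 → ℤ) :=
    { toFun := fun v => v ᵥ* (δ : Matrix (Fin 2) (Fin 2) ℤ)
      invFun := fun v => v ᵥ* ((δ⁻¹ : SL(2, ℤ)) : Matrix (Fin 2) (Fin 2) ℤ)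
      left_inv := fun v => by
        simp_rw [Matrix.vecMul_vecMul, ← Matrix.SpecialLinearGroup.coe_mul, mul_inv_cancel,
          Matrix.SpecialLinearGroup.coe_one, Matrix.vecMul_one]
      right_inv := fun v => by
        simp_rw [Matrix.vecMul_vecMul, ← Matrix.SpecialLinearGroup.coe_mul, inv_mul_cancel,
          Matrix.SpecialLinearGroup.coe_one, Matrix.vecMul_one] }
  refine (norm_tsum_le_tsum_norm (summable_coeff_mul hnorm _)).trans ?_
  rw [eisMajor, ← e.tsum_eq (fun v => ‖eisSummand 4 v z‖), ← tsum_mul_left]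
  refine (summable_coeff_mul hnorm _).tsum_le_tsum (fun v => ?_)
    ((e.summable_iff.2 (summable_norm_eis z)).mul_left _)
  rw [norm_mul, eisSummand_SL2_apply, norm_mul, norm_zpow]
  calc ‖eisCoeff c v‖ * (‖denom δ z‖ ^ (4 : ℤ) * ‖eisSummand 4 (v ᵥ* δ.1) z‖)
      ≤ 1 * (‖denom δ z‖ ^ (4 : ℤ) * ‖eisSummand 4 (v ᵥ* δ.1) z‖) :=
        mul_le_mul_of_nonneg_right (norm_eisCoeff_le hnorm v) (by positivity)
    _ = _ := by rw [one_mul]; rfl

omit hnorm in
theorem eisMajor_T_zpow (m : ℤ) (z : ℍ) : eisMajor (ModularGroup.T ^ m • z) = eisMajor z := by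
  let e : (Fin 2 → ℤ) ≃ (Fin 2 → ℤ) :=
    { toFun := fun v => v ᵥ* ((ModularGroup.T ^ m : SL(2, ℤ)) : Matrix (Fin 2) (Fin 2) ℤ)
      invFun := fun v => v ᵥ* (((ModularGroup.T ^ m)⁻¹ : SL(2, ℤ)) : Matrix (Fin 2) (Fin 2) ℤ)
      left_inv := fun v => by
        simp_rw [Matrix.vecMul_vecMul, ← Matrix.SpecialLinearGroup.coe_mul, mul_inv_cancel,
          Matrix.SpecialLinearGroup.coe_one, Matrix.vecMul_one]
      right_inv := fun v => by
        simp_rw [Matrix.vecMul_vecMul, ← Matrix.SpecialLinearGroup.coe_mul, inv_mul_cancel,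
          Matrix.SpecialLinearGroup.coe_one, Matrix.vecMul_one] }
  rw [eisMajor, eisMajor, ← e.tsum_eq (fun v => ‖eisSummand 4 v z‖)]
  refine tsum_congr fun v => ?_
  rw [eisSummand_SL2_apply, norm_mul]
  have hd : denom ((ModularGroup.T ^ m : SL(2, ℤ)) : GL (Fin 2) ℝ) z = 1 := by
    rw [ModularGroup.denom_apply]
    simp [ModularGroup.coe_T_zpow]
  rw [hd]
  simp [e]

omit hnorm in
theorem exists_eisMajor_le : ∃ C : ℝ, ∀ z : ℍ, 1 ≤ z.im → eisMajor z ≤ C := by
  refine ⟨r ⟨⟨1, 1⟩, one_pos⟩ ^ (-4 : ℝ) * ∑' v : Fin 2 → ℤ, ‖v‖ ^ (-4 : ℝ), fun z hz => ?_⟩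
  obtain ⟨n, hn⟩ := ModularGroup_T_zpow_mem_verticalStrip z (N := 1) one_pos
  rw [← eisMajor_T_zpow (((1 : ℕ) : ℤ) * n) z, eisMajor, ← tsum_mul_left]
  refine (summable_norm_eis _).tsum_le_tsum (fun v => norm_eisSummand_le one_pos ?_ v)
    ((summable_one_div_norm_rpow (by norm_num)).mul_left _)
  rw [Nat.cast_one] at hn
  exact ⟨hn.1, hz.trans hn.2⟩

end analysis

section nonvanishing

variable (htr : ∀ γ : Gamma0 N,
  ((γ : SL(2, ℤ)).1.trace) ^ 2 = 4 → c γ = 1)
variable (hnorm : ∀ γ : Gamma0 N, ‖(c γ : ℂ)‖ = 1)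

include htr

theorem eisCoeff_limit (v : Fin 2 → ℤ) :
    (if v 0 = 0 then eisCoeff c v * ((v 1 : ℂ)) ^ (-4 : ℤ) else 0) =
      (if v = ![0, 1] ∨ v = ![0, -1] then 1 else 0) := by
  by_cases h0 : v 0 = 0
  swap
  · rw [if_neg h0, if_neg]
    rintro (rfl | rfl) <;> simp at h0
  rw [if_pos h0]
  by_cases h : v = ![0, 1] ∨ v = ![0, -1]
  · rw [if_pos h]
    rcases h with rfl | rfl
    · have h1 := eisCoeff_botRow htr (1 : Gamma0 N)
      have hb : botRow ((1 : Gamma0 N) : SL(2, ℤ)) = ![0, 1] := by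
        funext i; fin_cases i <;> simp [botRow]
      rw [hb] at h1
      simp [h1]
    · set δ : Gamma0 N := ⟨-1, by simp [Gamma0_mem]⟩ with hδ
      have h1 := eisCoeff_botRow htr δ
      have hb : botRow (δ : SL(2, ℤ)) = ![0, -1] := by
        funext i; fin_cases i <;> simp [botRow, δ]
      have hc : c δ = 1 := htr δ (by simp [δ])
      rw [hb, hc] at h1
      simp [h1]
      norm_num
  · rw [if_neg h]
    rw [eisCoeff, dif_neg, zero_mul]
    rintro ⟨δ, hδ⟩
    have hd := (δ : SL(2, ℤ)).2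
    have e0 : (δ : SL(2, ℤ)) 1 0 = 0 := by rw [← h0, ← hδ]; rfl
    rw [Matrix.det_fin_two, e0, mul_zero, sub_zero] at hd
    have e1 : v 1 = (δ : SL(2, ℤ)) 1 1 := by rw [← hδ]; rfl
    rcases Int.eq_one_or_neg_one_of_mul_eq_one ((mul_comm _ _).trans hd) with h2 | h2
    · exact h (Or.inl (funext fun i => by fin_cases i <;> simp [h0, e1, h2]))
    · exact h (Or.inr (funext fun i => by fin_cases i <;> simp [h0, e1, h2]))

include hnorm

theorem exists_eisTwist_ne_zero : ∃ z : ℍ, eisTwist c z ≠ 0 := by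
  let zk : ℕ → ℍ := fun k => ⟨Complex.I * ((k + 1 : ℕ) : ℂ), by simp; positivity⟩
  have hlim : Tendsto (fun k => eisTwist c (zk k)) atTop
      (𝓝 (∑' v : Fin 2 → ℤ, if v 0 = 0 then eisCoeff c v * ((v 1 : ℂ)) ^ (-4 : ℤ) else 0)) := by
    refine tendsto_tsum_of_dominated_convergence
      (bound := fun v => r ⟨⟨0, 1⟩, one_pos⟩ ^ (-4 : ℝ) * ‖v‖ ^ (-4 : ℝ))
      ((summable_one_div_norm_rpow (by norm_num)).mul_left _) (fun v => ?_)
      (Eventually.of_forall fun k v => norm_coeff_mul_le hnorm one_pos ?_ v)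
    · by_cases h0 : v 0 = 0
      · rw [if_pos h0]
        simp only [eisSummand, h0, Int.cast_zero, zero_mul, zero_add]
        exact tendsto_const_nhds
      · rw [if_neg h0, tendsto_zero_iff_norm_tendsto_zero]
        have hb : ∀ k : ℕ, ‖eisCoeff c v * eisSummand 4 v (zk k)‖ ≤ 1 / ((k : ℝ) + 1) := by
          intro k
          rw [norm_mul]
          refine (mul_le_of_le_one_left (norm_nonneg _) (norm_eisCoeff_le hnorm v)).trans ?_
          have h1 : (1 : ℝ) ≤ |(v 0 : ℝ)| := by exact_mod_cast Int.one_le_abs h0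
          have hk : (1 : ℝ) ≤ (k : ℝ) + 1 := by
            have : (0 : ℝ) ≤ k := Nat.cast_nonneg k
            linarith
          have h2 : (k : ℝ) + 1 ≤ ‖(v 0 : ℂ) * (zk k : ℂ) + v 1‖ := by
            refine le_trans ?_ (Complex.abs_im_le_norm _)
            have him : ((v 0 : ℂ) * (zk k : ℂ) + v 1).im = (v 0 : ℝ) * ((k : ℝ) + 1) := by
              simp [zk]
            rw [him, abs_mul, abs_of_nonneg (zero_le_one.trans hk)]
            exact le_mul_of_one_le_left (zero_le_one.trans hk) h1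
          rw [eisSummand, norm_zpow, _root_.zpow_neg, one_div]
          refine inv_anti₀ (zero_lt_one.trans_le hk) (h2.trans ?_)
          exact le_self_pow₀ (hk.trans h2) (by norm_num : (4 : ℕ) ≠ 0)
        exact squeeze_zero (fun k => norm_nonneg _) hb tendsto_one_div_add_atTop_nhds_zero_nat
    · rw [mem_verticalStrip_iff]
      constructor
      · simp [zk, UpperHalfPlane.re]
      · show (1 : ℝ) ≤ (Complex.I * ((k + 1 : ℕ) : ℂ)).im
        simp
  have hval : (∑' v : Fin 2 → ℤ, if v 0 = 0 then eisCoeff c v * ((v 1 : ℂ)) ^ (-4 : ℤ) else 0)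
      = 2 := by
    rw [tsum_congr (eisCoeff_limit htr), tsum_eq_sum (s := {![0, 1], ![0, -1]})]
    · rw [Finset.sum_pair]
      · simp; norm_num
      · intro h
        simpa using congrFun h 1
    · intro v hv
      simp only [Finset.mem_insert, Finset.mem_singleton] at hv
      rw [if_neg hv]
  rw [hval] at hlim
  obtain ⟨k, hk⟩ := (hlim.eventually_ne two_ne_zero).exists
  exact ⟨zk k, hk⟩

/-- A multiplier function with a given unitary character, trivial on parabolic elements; its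
poles in `ℍ` lie over the zeros of `E₄` and it is bounded at every cusp. -/
theorem exists_isMult_of_unitary' : ∃ f : ℍ → ℂ, IsMult N f c ∧
    (∀ z : ℍ, ModularForm.E₄ z ≠ 0 → AnalyticAt ℂ (f ∘ ofComplex) (z : ℂ)) ∧
    ∀ δ : SL(2, ℤ), IsBoundedAtImInfty fun z : ℍ => f (δ • z) := by
  set E : ℍ → ℂ := (ModularForm.E₄ : ℍ → ℂ) with hE
  have hEan : ∀ z : ℍ, AnalyticAt ℂ (E ∘ ofComplex) (z : ℂ) := fun z =>
    (UpperHalfPlane.mdifferentiable_iff.1 (ModularFormClass.holo ModularForm.E₄)).analyticAt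
      (isOpen_upperHalfPlaneSet.mem_nhds z.im_pos)
  have hElim : Tendsto E atImInfty (𝓝 1) := by
    have h := hasQExp_E₄.tendsto_leading one_pos (m := 0) fun k hk =>
      ModularCurve.ofPowerSeries_coeff_of_neg _ hk
    rw [coeff_zero_psC_E₄] at h
    simpa [qPow_zero] using h
  have hEsl : ∀ (γ : SL(2, ℤ)) (z : ℍ), E (γ • z) = denom γ z ^ (4 : ℤ) * E z := by
    intro γ z
    have h := SlashInvariantForm.slash_action_eqn'' (Γ := 𝒮ℒ) (k := 4) ModularForm.E₄
      (γ := (γ : GL (Fin 2) ℝ)) ⟨γ, rfl⟩ z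
    rw [ModularGroup.sl_moeb]
    exact h
  set F : ℍ → ℂ := fun z => eisTwist c z * (E z)⁻¹ with hF
  have hFraw : IsMeroRaw F := fun x hx =>
    ((analyticAt_eisTwist hnorm ⟨x, hx⟩).meromorphicAt).mul
      (hEan ⟨x, hx⟩).meromorphicAt.inv
  have hFan : ∀ z : ℍ, E z ≠ 0 → AnalyticAt ℂ (F ∘ ofComplex) (z : ℂ) := fun z hz =>
    (analyticAt_eisTwist hnorm z).mul ((hEan z).inv (by simpa [ofComplex_apply] using hz))
  obtain ⟨C, hC⟩ := exists_eisMajor_le
  have hev1 : ∀ᶠ z : ℍ in atImInfty, 1 ≤ z.im ∧ (1 : ℝ) / 2 ≤ ‖E z‖ := by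
    have h1 : ∀ᶠ z : ℍ in atImInfty, 1 ≤ z.im := (atImInfty_mem _).2 ⟨1, fun z hz => hz⟩
    refine h1.and ?_
    exact hElim.norm.eventually (eventually_ge_nhds (by norm_num : (1 : ℝ) / 2 < ‖(1 : ℂ)‖))
  have hnfan : ∀ z : ℍ, E z ≠ 0 → AnalyticAt ℂ (nfH F ∘ ofComplex) (z : ℂ) := fun z hz => by
    rw [← (isMero_nfH hFraw z).meromorphicOrderAt_nonneg_iff_analyticAt,
      meromorphicOrderAt_nfH hFraw]
    exact (hFan z hz).meromorphicOrderAt_nonneg
  have hbd : ∀ δ : SL(2, ℤ), IsBoundedAtImInfty fun z : ℍ => nfH F (δ • z) := by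
    intro δ
    rw [isBoundedAtImInfty_iff]
    rw [Filter.Eventually, atImInfty_mem] at hev1
    obtain ⟨A, hA⟩ := hev1
    refine ⟨C * 2, A, fun z hz => ?_⟩
    obtain ⟨hz1, hz2⟩ := hA z hz
    have hd : denom (δ : GL (Fin 2) ℝ) z ≠ 0 := denom_ne_zero _ _
    have hE0 : E z ≠ 0 := fun h0 => by rw [h0, norm_zero] at hz2; norm_num at hz2
    have hEγ : E (δ • z) ≠ 0 := by rw [hEsl]; exact mul_ne_zero (zpow_ne_zero _ hd) hE0
    rw [nfH_apply_of_analyticAt (hFan _ hEγ)]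
    simp only [hF, hEsl, norm_mul, norm_inv, norm_zpow]
    have hb := norm_eisTwist_smul_le hnorm δ z
    have hd4 : 0 < ‖denom (δ : GL (Fin 2) ℝ) z‖ ^ (4 : ℤ) := zpow_pos (norm_pos_iff.2 hd) _
    rw [← div_eq_mul_inv, div_le_iff₀ (mul_pos hd4 (by linarith))]
    calc ‖eisTwist c (δ • z)‖ ≤ _ := hb
      _ ≤ ‖denom (δ : GL (Fin 2) ℝ) z‖ ^ (4 : ℤ) * C :=
          mul_le_mul_of_nonneg_left (hC z hz1) hd4.le
      _ = C * 2 * (‖denom (δ : GL (Fin 2) ℝ) z‖ ^ (4 : ℤ) * (1 / 2)) := by ring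
      _ ≤ _ := by
          refine mul_le_mul_of_nonneg_left (mul_le_mul_of_nonneg_left hz2 hd4.le) ?_
          exact mul_nonneg (le_trans (tsum_nonneg fun v => norm_nonneg _) (hC z hz1)) zero_le_two
  refine ⟨nfH F, ⟨isMero_nfH hFraw, fun δ => ⟨0, ?_⟩, ?_, fun γ z => ?_⟩, hnfan, hbd⟩
  · simpa [qPow_zero] using hbd δ
  · obtain ⟨z, hz⟩ := exists_eisTwist_ne_zero htr hnorm
    have hEz : meromorphicOrderAt (E ∘ ofComplex) (z : ℂ) ≠ ⊤ :=
      hasQExp_E₄.order_ne_top one_pos (fun x hx => (hEan ⟨x, hx⟩).meromorphicAt) (by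
        intro h0
        have := congrArg (fun s => HahnSeries.coeff s 0) h0
        rw [coeff_zero_psC_E₄] at this
        simp at this) z
    refine ⟨z, ?_⟩
    rw [meromorphicOrderAt_nfH hFraw]
    have hFeq : F ∘ ofComplex = (eisTwist c ∘ ofComplex) * (E ∘ ofComplex)⁻¹ := rfl
    have han := analyticAt_eisTwist hnorm z
    rw [hFeq, meromorphicOrderAt_mul han.meromorphicAt (hEan z).meromorphicAt.inv,
      meromorphicOrderAt_inv, han.meromorphicNFAt.meromorphicOrderAt_eq_zero_iff.2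
        (by simpa [ofComplex_apply] using hz), zero_add]
    obtain ⟨m, hm⟩ := WithTop.ne_top_iff_exists.1 hEz
    rw [← hm]
    exact WithTop.coe_ne_top (a := -m)
  · have key : (fun z => nfH F ((γ : SL(2, ℤ)) • z)) = fun z => (c γ : ℂ) * nfH F z := by
      obtain ⟨A, hA⟩ := eventually_nhds_of_atImInfty hev1
      obtain ⟨w, hw⟩ := exists_im_gt A
      refine ((isMero_nfH hFraw).comp_sl _).eq_of_eventuallyEq
        (isMero_const_mul (isMero_nfH hFraw) (c γ).ne_zero) (z := w) ?_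
      refine eventually_nhdsWithin_of_eventually_nhds ((hA w hw).mono fun x hx => ?_)
      simp only [Function.comp_apply]
      set z' : ℍ := ofComplex x
      have hE0 : E z' ≠ 0 := fun h0 => by
        have := hx.2.2
        rw [h0, norm_zero] at this; norm_num at this
      have hd : denom ((γ : SL(2, ℤ)) : GL (Fin 2) ℝ) z' ≠ 0 := denom_ne_zero _ _
      have hEγ : E ((γ : SL(2, ℤ)) • z') ≠ 0 := by
        rw [hEsl]; exact mul_ne_zero (zpow_ne_zero _ hd) hE0
      rw [nfH_apply_of_analyticAt (hFan _ hEγ), nfH_apply_of_analyticAt (hFan _ hE0)]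
      simp only [hF, hEsl, eisTwist_smul htr]
      field_simp
    exact congrFun key z

/-- A multiplier function with a given unitary character, trivial on parabolic elements. -/
theorem exists_isMult_of_unitary : ∃ f : ℍ → ℂ, IsMult N f c :=
  (exists_isMult_of_unitary' htr hnorm).imp fun _ h => h.1

end nonvanishing

end FLTAgent.Torsion
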