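import Fermat.Agent.Torsion.Mult
import Fermat.Agent.Torsion.Eisenstein
import Fermat.Agent.Torsion.ExtC
import Fermat.Agent.Period.Lattice
import Fermat.Agent.Period.Basic

/-!
# The torsion of `Pic⁰ (X₀(N))` as characters of `Γ₀(N)`

If `n • D` is the divisor of `y`, an `n`-th root of `y` on `ℍ` has a multiplier
(`exists_mult_of_nsmul_principal`); it depends only on the class (`char_unique`), and every
character in `H N (ℤ/n)` occurs, by the twisted Eisenstein series (`exists_mult_of_mem_H`).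
This gives `torsionEquiv : Pic⁰(X₀(N)_ℂ)[n] ≃ H N (ℤ/n)`; composed with extension of constants,
`jTorsionEquiv` for `J₀(N)(ℚ̄)[n]`, whence `natCard_jTorsion` (`n ^ (2g)`).
-/

set_option autoImplicit false
set_option linter.unusedSectionVars false

noncomputable section

open UpperHalfPlane CongruenceSubgroup Filter Topology AlgebraicCurve ModularCurve
open scoped MatrixGroups

namespace FLTAgent.Torsion

open FLTAgent.Modular

variable {N : ℕ} [NeZero N]

/-- Transport of an equality off a discrete set along the action. -/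
theorem eventually_smul_nhdsNE (γ : SL(2, ℤ)) (z : ℍ) {F G : ℍ → ℂ}
    (h : F ∘ ofComplex =ᶠ[𝓝[≠] ((γ • z : ℍ) : ℂ)] G ∘ ofComplex) :
    (fun w => F (γ • w)) ∘ ofComplex =ᶠ[𝓝[≠] (z : ℂ)] (fun w => G (γ • w)) ∘ ofComplex := by
  have hd := ModularPlaces.den_ne_zero γ z.im_pos
  have hm : Tendsto (ModularPlaces.mob γ) (𝓝[≠] (z : ℂ)) (𝓝[≠] ((γ • z : ℍ) : ℂ)) := by
    rw [ModularPlaces.coe_smul_eq_mob]
    refine tendsto_nhdsWithin_iff.mpr ⟨((ModularPlaces.analyticAt_mob γ hd).continuousAt.tendsto).mono_left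
      nhdsWithin_le_nhds, ?_⟩
    filter_upwards [self_mem_nhdsWithin, nhdsWithin_le_nhds
      ((isOpen_lt continuous_const Complex.continuous_im).mem_nhds z.im_pos)] with w hw hwi h
    have h2 := ModularPlaces.mob_sub_mob γ (ModularPlaces.den_ne_zero γ hwi) hd
    rw [(h : ModularPlaces.mob γ w = _), sub_self] at h2
    exact hw (sub_eq_zero.mp ((div_eq_zero_iff.mp h2.symm).resolve_right
      (mul_ne_zero (ModularPlaces.den_ne_zero γ hwi) hd)))
  filter_upwards [hm.eventually h,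
    nhdsWithin_le_nhds (ModularPlaces.eventuallyEq_smul_comp_ofComplex F γ z),
    nhdsWithin_le_nhds (ModularPlaces.eventuallyEq_smul_comp_ofComplex G γ z)] with w h1 h2 h3
  rw [h2, h3]
  exact h1

section Chars

variable {n : ℕ} [NeZero n]

theorem expChar_injective {φ ψ : Additive (Gamma0 N) →+ ZMod n} (h : expChar φ = expChar ψ) :
    φ = ψ := by
  refine AddMonoidHom.ext fun x => ZMod.injective_stdAddChar ?_
  have := congrArg (fun c : Gamma0 N →* ℂˣ => (c (Additive.toMul x) : ℂ)) h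
  simpa using this

theorem expChar_add (φ ψ : Additive (Gamma0 N) →+ ZMod n) (γ : Gamma0 N) :
    (expChar (φ + ψ) γ : ℂ) = (expChar φ γ : ℂ) * (expChar ψ γ : ℂ) := by
  simp [AddChar.map_add_eq_mul]

theorem expChar_pow_eq_one (φ : Additive (Gamma0 N) →+ ZMod n) (γ : Gamma0 N) :
    expChar φ γ ^ n = 1 := by
  refine Units.ext ?_
  rw [Units.val_pow_eq_pow_val, coe_expChar, ← AddChar.map_nsmul_eq_pow, Units.val_one]
  simp

theorem norm_expChar (φ : Additive (Gamma0 N) →+ ZMod n) (γ : Gamma0 N) :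
    ‖(expChar φ γ : ℂ)‖ = 1 :=
  Complex.norm_eq_one_of_pow_eq_one
    (by rw [← Units.val_pow_eq_pow_val, expChar_pow_eq_one, Units.val_one]) (NeZero.ne n)

theorem expChar_eq_one_iff {φ : Additive (Gamma0 N) →+ ZMod n} {γ : Gamma0 N} :
    expChar φ γ = 1 ↔ φ (Additive.ofMul γ) = 0 := by
  rw [← Units.val_inj, coe_expChar, Units.val_one,
    ← AddChar.map_zero_eq_one (ZMod.stdAddChar (N := n)), ZMod.injective_stdAddChar.eq_iff]

theorem expChar_eq_one_of_mem_H {φ : Additive (Gamma0 N) →+ ZMod n}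
    (hφ : φ ∈ Period.H N (ZMod n) (ZMod n)) (γ : Gamma0 N)
    (hγ : ((γ : SL(2, ℤ)) : Matrix (Fin 2) (Fin 2) ℤ).trace ^ 2 = 4 ∨ IsOfFinOrder γ) :
    expChar φ γ = 1 :=
  expChar_eq_one_iff.mpr (hγ.elim (hφ.1 γ) (hφ.2 γ))

theorem mem_H_of_expChar {φ : Additive (Gamma0 N) →+ ZMod n}
    (hpar : ∀ γ : Gamma0 N, ((γ : SL(2, ℤ)) : Matrix (Fin 2) (Fin 2) ℤ).trace ^ 2 = 4 →
      expChar φ γ = 1)
    (hfin : ∀ γ : Gamma0 N, IsOfFinOrder γ → expChar φ γ = 1) :
    φ ∈ Period.H N (ZMod n) (ZMod n) :=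
  ⟨fun γ hγ => expChar_eq_one_iff.mp (hpar γ hγ), fun γ hγ => expChar_eq_one_iff.mp (hfin γ hγ)⟩

/-- Every homomorphism to the `n`-th roots of unity is an `expChar`. -/
theorem exists_expChar_eq {c : Gamma0 N →* ℂˣ} (hc : ∀ γ, c γ ^ n = 1) :
    ∃ φ : Additive (Gamma0 N) →+ ZMod n, expChar φ = c := by
  have hsurj : ∀ γ : Gamma0 N, ∃ x : ZMod n, ZMod.stdAddChar x = (c γ : ℂ) := by
    intro γ
    obtain ⟨i, -, hi⟩ := (Complex.isPrimitiveRoot_exp n (NeZero.ne n)).eq_pow_of_pow_eq_one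
      (ξ := (c γ : ℂ)) (by rw [← Units.val_pow_eq_pow_val, hc, Units.val_one])
    refine ⟨((i : ℤ) : ZMod n), ?_⟩
    rw [ZMod.stdAddChar_coe, ← hi, ← Complex.exp_nat_mul]
    congr 1
    push_cast
    ring
  choose x hx using hsurj
  let φ : Additive (Gamma0 N) →+ ZMod n :=
    AddMonoidHom.mk' (fun g => x (Additive.toMul g)) fun a b => ZMod.injective_stdAddChar (by
      rw [AddChar.map_add_eq_mul, hx, hx, hx, toMul_add, map_mul, Units.val_mul])
  exact ⟨φ, MonoidHom.ext fun γ => Units.ext (hx γ)⟩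

end Chars

section Torsion

theorem HasDivisor.exists_ne_zero {f : ℍ → ℂ} {D : Divisor ℂ (FC N)} (hf : HasDivisor N f D) :
    ∃ z : ℍ, f z ≠ 0 := by
  by_contra h
  push Not at h
  exact hf.order_ne_top UpperHalfPlane.I (meromorphicOrderAt_eq_top_iff.mpr
    (Eventually.of_forall fun w => h (ofComplex w)))

theorem HasDivisor.exists_div_eq {f : ℍ → ℂ} {D : Divisor ℂ (FC N)} (hf : HasDivisor N f D)
    {c : Gamma0 N →* ℂˣ}
    (hc : ∀ (γ : Gamma0 N) (z : ℍ), f ((γ : SL(2, ℤ)) • z) = (c γ : ℂ) * f z) {n : ℕ}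
    (hcn : ∀ γ, c γ ^ n = 1) :
    ∃ y : FC N, y ≠ 0 ∧ ev (y : LaurentSeries ℂ) = f ^ n ∧ ∀ v, (n • D) v = v.ord y := by
  obtain ⟨y, hy⟩ := exists_eq_ev (isModFun_pow hf hc hcn)
  have hy0 : y ≠ 0 := by
    rintro rfl
    rw [ZeroMemClass.coe_zero, ev_zero'] at hy
    refine (hf.pow n).order_ne_top UpperHalfPlane.I ?_
    rw [← hy]
    exact meromorphicOrderAt_eq_top_iff.mpr (Eventually.of_forall fun _ => rfl)
  refine ⟨y, hy0, hy, fun v => ?_⟩
  have h1 := hasDivisor_ev (D := FF.divisorOf y) hy0 fun v => FF.divisorOf_apply y v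
  rw [hy] at h1
  rw [(hf.pow n).unique h1, FF.divisorOf_apply]

variable {n : ℕ} [NeZero n]

/-- An `n`-torsion divisor is the divisor of a function with multiplier of order dividing `n`. -/
theorem exists_mult_of_nsmul_principal {D : Divisor ℂ (FC N)}
    (hD : n • D ∈ Divisor.principal (K := ℂ) (F := FC N)) :
    ∃ φ ∈ Period.H N (ZMod n) (ZMod n), ∃ f : ℍ → ℂ,
      IsMult N f (expChar φ) ∧ HasDivisor N f D := by
  obtain ⟨y, hy, hDy⟩ := hD
  have hn := NeZero.ne n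
  set g := ev (y : LaurentSeries ℂ) with hgdef
  have hg : HasDivisor N g (n • D) := hasDivisor_ev hy hDy
  have hnD : ∀ v, (n • D) v = (n : ℤ) * D v := fun v => by rw [Finsupp.smul_apply, nsmul_eq_mul]
  have hordg : ∀ z : ℍ, ordH g z = (ellOrder N z : ℤ) * ((n : ℤ) * D (placeOf z)) := fun z => by
    rw [ordH, hg.order z, hnD, WithTop.untop₀_coe]
  obtain ⟨f, hf, hfg⟩ := exists_root hg.mero hg.order_ne_top hn fun z =>
    ⟨(ellOrder N z : ℤ) * D (placeOf z), by rw [hordg]; ring⟩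
  have hpow : f ^ n = g := (isMero_pow hf n).eq_of_eventuallyEq hg.mero (hfg UpperHalfPlane.I)
  have hord : ∀ z : ℍ, meromorphicOrderAt (f ∘ ofComplex) (z : ℂ) =
      (((ellOrder N z : ℤ) * D (placeOf z) : ℤ) : WithTop ℤ) := by
    intro z
    have h1 : meromorphicOrderAt ((f ^ n) ∘ ofComplex) (z : ℂ) =
        n * meromorphicOrderAt (f ∘ ofComplex) (z : ℂ) :=
      meromorphicOrderAt_pow (f := f ∘ ofComplex) (hf.meromorphicAt z)
    rw [hpow, hg.order z, hnD] at h1
    cases hl : meromorphicOrderAt (f ∘ ofComplex) (z : ℂ) with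
    | top =>
      rw [hl, WithTop.mul_top (by exact_mod_cast hn)] at h1
      exact absurd h1 WithTop.coe_ne_top
    | coe m =>
      rw [hl, ← WithTop.coe_natCast, ← WithTop.coe_mul, WithTop.coe_inj] at h1
      rw [WithTop.coe_inj]
      refine mul_left_cancel₀ (Int.natCast_ne_zero.mpr hn) ?_
      linear_combination -h1
  have hne : ∀ z : ℍ, meromorphicOrderAt (f ∘ ofComplex) (z : ℂ) ≠ ⊤ := fun z => by
    rw [hord]; exact WithTop.coe_ne_top
  have hζ : ∀ γ : Gamma0 N, ∃ ζ : ℂ, ζ ^ n = 1 ∧ ∀ z, f ((γ : SL(2, ℤ)) • z) = ζ * f z := by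
    intro γ
    refine exists_eq_const_mul_of_pow_eq (hf.comp_sl _) hf hne hn fun z =>
      Eventually.of_forall fun w => ?_
    simp only [Function.comp_apply, Pi.pow_apply]
    have h2 := congrFun hpow ((γ : SL(2, ℤ)) • ofComplex w)
    have h3 := congrFun hpow (ofComplex w)
    simp only [Pi.pow_apply] at h2 h3
    rw [h2, h3]
    exact (isModFun_ev y).smul γ _
  choose ζ hζn hζf using hζ
  obtain ⟨z₀, hz₀⟩ : ∃ z : ℍ, f z ≠ 0 := by
    by_contra h
    push Not at h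
    exact hne UpperHalfPlane.I (meromorphicOrderAt_eq_top_iff.mpr
      (Eventually.of_forall fun w => h (ofComplex w)))
  let c : Gamma0 N →* ℂˣ := MonoidHom.toHomUnits
    { toFun := ζ
      map_one' := mul_right_cancel₀ hz₀ (by rw [← hζf, one_mul]; simp)
      map_mul' := fun γ δ => mul_right_cancel₀ hz₀ (by
        rw [← hζf, Subgroup.coe_mul, mul_smul, hζf, hζf, mul_assoc]) }
  have hc : ∀ (γ : Gamma0 N) (z : ℍ), f ((γ : SL(2, ℤ)) • z) = (c γ : ℂ) * f z := hζf
  have hcn : ∀ γ, c γ ^ n = 1 := fun γ => Units.ext (hζn γ)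
  have hfD : HasDivisor N f D := by
    refine ⟨hf, hord, fun γ => ?_⟩
    obtain ⟨L, hL, hlim⟩ := hg.cusp γ
    set w := cuspWidth N γ
    let P : Gamma0 N :=
      ⟨γ * ModularGroup.T ^ (w : ℤ) * γ⁻¹, (ModularPlaces.cuspWidth_spec (N := N) γ).2⟩
    set v : ℍ → ℂ := fun z => f (γ • z) * qPow (w : ℝ) (-(D (cuspPlace γ))) z with hv
    refine (eq_one_and_tendsto_of_pow_tendsto (v := v) (ζ := (c P : ℂ))
      (t := (w : ℝ)) hn ?_ hL ?_ ?_).2
    · filter_upwards [hg.eventually_analyticAt γ] with z hz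
      have h1 : AnalyticAt ℂ (f ∘ ofComplex) ((γ • z : ℍ) : ℂ) := by
        rw [← (hf (γ • z)).meromorphicOrderAt_nonneg_iff_analyticAt, hord,
          ← WithTop.coe_zero, WithTop.coe_le_coe]
        have h2 := hz.meromorphicOrderAt_nonneg
        rw [hg.order, hnD, ← WithTop.coe_zero, WithTop.coe_le_coe, mul_left_comm] at h2
        exact nonneg_of_mul_nonneg_right h2 (by exact_mod_cast Nat.pos_of_ne_zero hn)
      have h3 : ContinuousAt (fun x : ℂ => f (γ • ofComplex x)) (z : ℂ) := by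
        have := (((hf.comp_sl γ) z).meromorphicOrderAt_nonneg_iff_analyticAt.1 (by
          rw [ModularPlaces.meromorphicOrderAt_smul f γ z]
          exact h1.meromorphicOrderAt_nonneg)).continuousAt
        exact this
      have h4 : ContinuousAt (fun x : ℂ => qPow (w : ℝ) (-(D (cuspPlace γ))) (ofComplex x))
          (z : ℂ) := by
        have : (fun x : ℂ => qPow (w : ℝ) (-(D (cuspPlace γ))) (ofComplex x)) =ᶠ[𝓝 (z : ℂ)]
            fun x : ℂ => Complex.exp (2 * Real.pi * Complex.I * ((-(D (cuspPlace γ)) : ℤ) : ℂ) *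
              x / ((w : ℝ) : ℂ)) := by
          filter_upwards [isOpen_upperHalfPlaneSet.mem_nhds z.im_pos] with x hx
          simp [qPow, ofComplex_apply_of_im_pos hx]
        exact (ContinuousAt.cexp (by fun_prop)).congr this.symm
      exact h3.mul h4
    · refine hlim.congr fun z => ?_
      rw [← hpow, Pi.pow_apply, mul_pow, hnD, ← qPow_natCast_mul]
      congr 2
      ring
    · intro z
      simp only [hv]
      rw [qPow_shift (cuspWidth_cast_pos γ).ne', ← mul_assoc, ← hc P]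
      congr 2
      show γ • ((w : ℝ) +ᵥ z) = (γ * ModularGroup.T ^ (w : ℤ) * γ⁻¹) • (γ • z)
      exact_mod_cast shift_smul γ (w : ℤ) z
  obtain ⟨φ, hφ⟩ := exists_expChar_eq hcn
  rw [← hφ] at hc
  exact ⟨φ, mem_H_of_expChar (hfD.multiplier_parabolic hc) (hfD.multiplier_finOrder hc), f,
    ⟨hf, hfD.meroCusp, ⟨_, hne UpperHalfPlane.I⟩, hc⟩, hfD⟩

theorem exists_divisor_of_mult {φ : Additive (Gamma0 N) →+ ZMod n}
    (hφ : φ ∈ Period.H N (ZMod n) (ZMod n)) {f : ℍ → ℂ} (hf : IsMult N f (expChar φ)) :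
    ∃ D : Divisor.degZero (K := ℂ) (F := FC N), HasDivisor N f D ∧
      Pic0.mk D ∈ Pic0.torsion ℂ (FC N) n := by
  obtain ⟨D, hD, y, hy, hyD⟩ := exists_hasDivisor_of_isMult hf (NeZero.ne n)
    (expChar_pow_eq_one φ) (fun γ h => expChar_eq_one_of_mem_H hφ γ (Or.inl h))
    (fun γ h => expChar_eq_one_of_mem_H hφ γ (Or.inr h))
  have hdeg : D ∈ Divisor.degZero (K := ℂ) (F := FC N) := by
    rw [Divisor.mem_degZero]
    have h1 : n • D = FF.divisorOf y := Finsupp.ext fun v => by rw [hyD, FF.divisorOf_apply]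
    have h2 := congrArg Divisor.degree h1
    rw [map_nsmul, FF.degree_divisorOf, smul_eq_zero] at h2
    exact h2.resolve_left (NeZero.ne n)
  refine ⟨⟨D, hdeg⟩, hD, ?_⟩
  rw [Pic0.mem_torsion, natCast_zsmul]
  refine (QuotientAddGroup.eq_zero_iff _).mpr ?_
  rw [AddSubgroup.mem_addSubgroupOf]
  exact ⟨y, hy, by simpa using hyD⟩

theorem exists_mult_of_mem_H {φ : Additive (Gamma0 N) →+ ZMod n}
    (hφ : φ ∈ Period.H N (ZMod n) (ZMod n)) : ∃ f : ℍ → ℂ, IsMult N f (expChar φ) :=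
  exists_isMult_of_unitary (fun γ h => expChar_eq_one_of_mem_H hφ γ (Or.inl h)) (norm_expChar φ)

theorem mk_mem_torsion_of_mult {φ : Additive (Gamma0 N) →+ ZMod n} {f : ℍ → ℂ}
    (hf : IsMult N f (expChar φ)) {D : Divisor.degZero (K := ℂ) (F := FC N)}
    (hD : HasDivisor N f D) :
    Pic0.mk D ∈ Pic0.torsion ℂ (FC N) n ∧ φ ∈ Period.H N (ZMod n) (ZMod n) := by
  refine ⟨?_, mem_H_of_expChar (hD.multiplier_parabolic hf.smul) (hD.multiplier_finOrder hf.smul)⟩
  obtain ⟨y, hy, -, hyD⟩ := hD.exists_div_eq hf.smul (expChar_pow_eq_one φ)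
  rw [Pic0.mem_torsion, natCast_zsmul]
  refine (QuotientAddGroup.eq_zero_iff _).mpr ?_
  rw [AddSubgroup.mem_addSubgroupOf]
  exact ⟨y, hy, by simpa using hyD⟩

/-- Linearly equivalent divisors have the same multiplier. -/
theorem char_unique {D D' : Divisor.degZero (K := ℂ) (F := FC N)} (h : Pic0.mk D = Pic0.mk D')
    {f f' : ℍ → ℂ} {φ φ' : Additive (Gamma0 N) →+ ZMod n} (hf : IsMult N f (expChar φ))
    (hD : HasDivisor N f D) (hf' : IsMult N f' (expChar φ')) (hD' : HasDivisor N f' D') :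
    φ = φ' := by
  have h1 := QuotientAddGroup.eq.mp h
  rw [AddSubgroup.mem_addSubgroupOf] at h1
  obtain ⟨y, hy, hyD⟩ := h1
  have hg : HasDivisor N (ev (y : LaurentSeries ℂ))
      (((-D + D' : Divisor.degZero (K := ℂ) (F := FC N)) : Divisor ℂ (FC N))) :=
    hasDivisor_ev hy hyD
  have hraw : IsMeroRaw (f * ev (y : LaurentSeries ℂ)) := hD.mero.raw.mul hg.mero.raw
  have heq : EqOffDiscrete (nfH (f * ev (y : LaurentSeries ℂ))) (f * ev (y : LaurentSeries ℂ)) :=
    fun z => nfH_eventuallyEq hraw z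
  have hh := hD.mul hg (isMero_nfH hraw) heq
  rw [AddSubgroup.coe_add, AddSubgroup.coe_neg, add_neg_cancel_left] at hh
  have hsm : ∀ (γ : Gamma0 N) (z : ℍ), nfH (f * ev (y : LaurentSeries ℂ)) ((γ : SL(2, ℤ)) • z) =
      (expChar φ γ : ℂ) * nfH (f * ev (y : LaurentSeries ℂ)) z := by
    intro γ
    refine congrFun ((hh.mero.comp_sl _).eq_of_eventuallyEq
      (isMero_const_mul hh.mero (expChar φ γ).ne_zero) (z := UpperHalfPlane.I) ?_)
    have h2 := heq UpperHalfPlane.I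
    have h3 := eventually_smul_nhdsNE (γ : SL(2, ℤ)) UpperHalfPlane.I
      (heq ((γ : SL(2, ℤ)) • UpperHalfPlane.I))
    filter_upwards [h2, h3] with w hw hw'
    simp only [Function.comp_apply] at hw hw' ⊢
    rw [hw', hw, Pi.mul_apply, Pi.mul_apply, hf.smul, (isModFun_ev y).smul]
    ring
  have hmult : IsMult N (nfH (f * ev (y : LaurentSeries ℂ))) (expChar φ) :=
    ⟨hh.mero, hh.meroCusp, ⟨UpperHalfPlane.I, hh.order_ne_top _⟩, hsm⟩
  obtain ⟨a, ha, hfa⟩ := eq_const_mul_of_hasDivisor hD' hh hf' hmult (NeZero.ne n)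
    (expChar_pow_eq_one φ') (expChar_pow_eq_one φ)
  obtain ⟨z, hz⟩ := hD'.exists_ne_zero
  refine expChar_injective (MonoidHom.ext fun γ => Units.ext (mul_right_cancel₀ hz ?_))
  calc (expChar φ γ : ℂ) * f' z = f' ((γ : SL(2, ℤ)) • z) := by
        rw [hfa, hfa, hsm]; ring
    _ = (expChar φ' γ : ℂ) * f' z := hf'.smul γ z

/-- The character of a torsion class. -/
theorem exists_char_of_torsion (x : Pic0.torsion ℂ (FC N) n) :
    ∃ φ ∈ Period.H N (ZMod n) (ZMod n), ∃ D : Divisor.degZero (K := ℂ) (F := FC N),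
      Pic0.mk D = x ∧ ∃ f : ℍ → ℂ, IsMult N f (expChar φ) ∧ HasDivisor N f D := by
  obtain ⟨D, hD⟩ := Pic0.mk_surjective (x : Pic0 ℂ (FC N))
  have hx := Pic0.mem_torsion.mp x.2
  rw [← hD, natCast_zsmul] at hx
  have h1 := (QuotientAddGroup.eq_zero_iff _).mp
    (show ((n • D : Divisor.degZero (K := ℂ) (F := FC N)) : Pic0 ℂ (FC N)) = 0 from hx)
  rw [AddSubgroup.mem_addSubgroupOf] at h1
  obtain ⟨φ, hφ, f, hf, hfD⟩ := exists_mult_of_nsmul_principal (n := n)
    (D := (D : Divisor ℂ (FC N))) (by simpa using h1)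
  exact ⟨φ, hφ, D, hD, f, hf, hfD⟩

/-- The isomorphism sending a torsion class to the character of its multiplier function. -/
theorem exists_torsionEquiv (N : ℕ) [NeZero N] (n : ℕ) [NeZero n] :
    ∃ e : Pic0.torsion ℂ (FC N) n ≃+ Period.H N (ZMod n) (ZMod n),
      ∀ (D : Divisor.degZero (K := ℂ) (F := FC N)) (f : ℍ → ℂ)
        (φ : Additive (Gamma0 N) →+ ZMod n) (hx : Pic0.mk D ∈ Pic0.torsion ℂ (FC N) n),
        IsMult N f (expChar φ) → HasDivisor N f D →
          (e ⟨Pic0.mk D, hx⟩ : Additive (Gamma0 N) →+ ZMod n) = φ := by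
  choose φ hφ D hD f hf hfD using fun x : Pic0.torsion ℂ (FC N) n => exists_char_of_torsion x
  have spec : ∀ (x : Pic0.torsion ℂ (FC N) n) (E : Divisor.degZero (K := ℂ) (F := FC N))
      (g : ℍ → ℂ) (ψ : Additive (Gamma0 N) →+ ZMod n), Pic0.mk E = x →
      IsMult N g (expChar ψ) → HasDivisor N g E → φ x = ψ := fun x E g ψ hE hg hgE =>
    char_unique ((hD x).trans hE.symm) (hf x) (hfD x) hg hgE
  let F : Pic0.torsion ℂ (FC N) n →+ Period.H N (ZMod n) (ZMod n) :=
    AddMonoidHom.mk' (fun x => ⟨φ x, hφ x⟩) fun x y => by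
      refine Subtype.ext ?_
      show φ (x + y) = φ x + φ y
      have hraw : IsMeroRaw (f x * f y) := (hfD x).mero.raw.mul (hfD y).mero.raw
      have heq : EqOffDiscrete (nfH (f x * f y)) (f x * f y) :=
        fun z => nfH_eventuallyEq hraw z
      have hxy := (hfD x).mul (hfD y) (isMero_nfH hraw) heq
      refine spec (x + y) (D x + D y) _ _ ?_ (hxy.isMult fun γ z => ?_) hxy
      · rw [Pic0.mk_add, hD, hD]; rfl
      · have h3 := eventually_smul_nhdsNE (γ : SL(2, ℤ)) z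
          (heq ((γ : SL(2, ℤ)) • z))
        filter_upwards [heq z, h3] with w hw hw'
        simp only [Function.comp_apply] at hw hw' ⊢
        rw [hw', hw, Pi.mul_apply, Pi.mul_apply, (hf x).smul, (hf y).smul, expChar_add]
        ring
  refine ⟨AddEquiv.ofBijective F ⟨?_, ?_⟩, fun E g ψ hx hg hgE => spec ⟨_, hx⟩ E g ψ rfl hg hgE⟩
  · rw [injective_iff_map_eq_zero]
    intro x hx
    have hx0 : φ x = 0 := congrArg Subtype.val hx
    have hmod : IsModFun N (f x) :=
      ⟨(hf x).mero, (hf x).meroCusp, fun γ z => by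
        rw [(hf x).smul, hx0, coe_expChar, AddMonoidHom.zero_apply, AddChar.map_zero_eq_one,
          one_mul]⟩
    obtain ⟨y, hy⟩ := exists_eq_ev hmod
    obtain ⟨z, hz⟩ := (hfD x).exists_ne_zero
    have hy0 : y ≠ 0 := by
      rintro rfl
      rw [ZeroMemClass.coe_zero, ev_zero'] at hy
      exact hz (congrFun hy z).symm
    have h1 := hasDivisor_ev (D := FF.divisorOf y) hy0 fun v => FF.divisorOf_apply y v
    rw [hy] at h1
    refine Subtype.ext ?_
    rw [← hD x, ZeroMemClass.coe_zero]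
    refine (QuotientAddGroup.eq_zero_iff _).mpr ?_
    rw [AddSubgroup.mem_addSubgroupOf]
    exact ⟨y, hy0, fun v => by rw [(hfD x).unique h1, FF.divisorOf_apply]⟩
  · intro ψ
    obtain ⟨g, hg⟩ := exists_mult_of_mem_H ψ.2
    obtain ⟨E, hE, hEt⟩ := exists_divisor_of_mult ψ.2 hg
    exact ⟨⟨_, hEt⟩, Subtype.ext (spec ⟨_, hEt⟩ E g _ rfl hg hE)⟩

/-- `Pic⁰(X₀(N)_ℂ)[n]` as characters. -/
def torsionEquiv (N : ℕ) [NeZero N] (n : ℕ) [NeZero n] :
    Pic0.torsion ℂ (FC N) n ≃+ Period.H N (ZMod n) (ZMod n) :=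
  (exists_torsionEquiv N n).choose

/-- `torsionEquiv` computes the character of any multiplier function of the class. -/
theorem torsionEquiv_eq {D : Divisor.degZero (K := ℂ) (F := FC N)} {f : ℍ → ℂ}
    {φ : Additive (Gamma0 N) →+ ZMod n} (hx : Pic0.mk D ∈ Pic0.torsion ℂ (FC N) n)
    (hf : IsMult N f (expChar φ)) (hD : HasDivisor N f D) :
    (torsionEquiv N n ⟨Pic0.mk D, hx⟩ : Additive (Gamma0 N) →+ ZMod n) = φ :=
  (exists_torsionEquiv N n).choose_spec D f φ hx hf hD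

/-- A representative of a torsion class together with its multiplier function. -/
theorem exists_mult_rep (x : Pic0.torsion ℂ (FC N) n) :
    ∃ (D : Divisor.degZero (K := ℂ) (F := FC N)) (f : ℍ → ℂ), Pic0.mk D = x ∧
      IsMult N f (expChar (torsionEquiv N n x : Additive (Gamma0 N) →+ ZMod n)) ∧
        HasDivisor N f D := by
  obtain ⟨φ, -, D, hD, f, hf, hfD⟩ := exists_char_of_torsion x
  refine ⟨D, f, hD, ?_, hfD⟩
  have e : x = ⟨Pic0.mk D, hD ▸ x.2⟩ := Subtype.ext hD.symm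
  rw [e, torsionEquiv_eq _ hf hfD]
  exact hf

theorem finite_H (N : ℕ) [NeZero N] (n : ℕ) [NeZero n] :
    Finite (Period.H N (ZMod n) (ZMod n)) :=
  Finite.of_equiv _ (Period.evalEquiv N (ZMod n) (ZMod n)).toEquiv.symm

theorem finite_torsion_FC (N : ℕ) [NeZero N] (n : ℕ) [NeZero n] :
    Finite (Pic0.torsion ℂ (FC N) n) :=
  have := finite_H N n
  Finite.of_equiv _ (torsionEquiv N n).toEquiv.symm

theorem natCard_H (N : ℕ) [NeZero N] (n : ℕ) [NeZero n] :
    Nat.card (Period.H N (ZMod n) (ZMod n)) = n ^ Period.rankH N := by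
  rw [Nat.card_congr (Period.evalEquiv N (ZMod n) (ZMod n)).toEquiv, Nat.card_fun]
  simp

end Torsion

section ConstantExtension

variable (ι : Qb →+* ℂ)

theorem exists_picExt_eq_of_torsion {n : ℕ} [NeZero n] {x : Pic0 ℂ (FC N)}
    (hx : x ∈ Pic0.torsion ℂ (FC N) n) :
    ∃ y ∈ Pic0.torsion Qb (modularFunctionFieldBar N) n, picExt N ι y = x :=
  exists_picExt_eq_of_finite_torsion ι (finite_torsion_FC N n) hx

/-- The `n`-torsion is the same over `ℚ̄` and over `ℂ`. -/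
theorem picExtTorsion_bijective (n : ℕ) [NeZero n] :
    Function.Bijective (picExtTorsion (N := N) ι n) :=
  picExtTorsion_bijective_of_finite ι n (finite_torsion_FC N n)

/-- `J₀(N)(ℚ̄)[n]` as characters. -/
def jTorsionEquiv (N : ℕ) [NeZero N] (ι : Qb →+* ℂ) (n : ℕ) [NeZero n] :
    Pic0.torsion Qb (modularFunctionFieldBar N) n ≃+ Period.H N (ZMod n) (ZMod n) :=
  (AddEquiv.ofBijective (picExtTorsion ι n) (picExtTorsion_bijective ι n)).trans
    (torsionEquiv N n)

theorem jTorsionEquiv_apply {n : ℕ} [NeZero n]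
    (x : Pic0.torsion Qb (modularFunctionFieldBar N) n) :
    jTorsionEquiv N ι n x = torsionEquiv N n (picExtTorsion ι n x) := rfl

/-- The fixed auxiliary embedding used for counting. -/
theorem nonempty_embedding : Nonempty (Qb →+* ℂ) :=
  haveI : Algebra.IsAlgebraic ℚ Qb := AlgebraicClosure.isAlgebraic ℚ
  ⟨(IsAlgClosed.lift : Qb →ₐ[ℚ] ℂ).toRingHom⟩

theorem jTorsion_finite (n : ℕ) [NeZero n] :
    Finite (Pic0.torsion Qb (modularFunctionFieldBar N) n) :=
  have := finite_H N n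
  Finite.of_equiv _ (jTorsionEquiv N nonempty_embedding.some n).toEquiv.symm

/-- `J₀(N)(ℚ̄)[n]` has `n ^ (2g)` elements. -/
theorem natCard_jTorsion (n : ℕ) [NeZero n] (g : ℕ) (hg : (g : ℚ) = genusFormula N) :
    Nat.card (Pic0.torsion Qb (modularFunctionFieldBar N) n) = n ^ (2 * g) := by
  rw [Nat.card_congr (jTorsionEquiv N nonempty_embedding.some n).toEquiv, natCard_H]
  congr 1
  have h := Period.rankH_eq N
  rw [← hg] at h
  exact_mod_cast h

set_option maxHeartbeats 1600000 in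
/-- Compatibility in `n`: multiplication by `m` is reduction of characters. -/
theorem jTorsionEquiv_nsmul {m n : ℕ} [NeZero m] [NeZero n]
    (x : Pic0.torsion Qb (modularFunctionFieldBar N) (m * n))
    (hx : m • (x : JZero N) ∈ Pic0.torsion Qb (modularFunctionFieldBar N) n) :
    (jTorsionEquiv N ι n ⟨m • (x : JZero N), hx⟩ : Additive (Gamma0 N) →+ ZMod n) =
      ((ZMod.castHom (dvd_mul_left n m) (ZMod n)).toAddMonoidHom).comp
        (jTorsionEquiv N ι (m * n) x : Additive (Gamma0 N) →+ ZMod (m * n)) := by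
  have : NeZero (m * n) := ⟨mul_ne_zero (NeZero.ne m) (NeZero.ne n)⟩
  obtain ⟨D, f, hD, hf, hfD⟩ := exists_mult_rep (picExtTorsion ι (m * n) x)
  set φ := (jTorsionEquiv N ι (m * n) x : Additive (Gamma0 N) →+ ZMod (m * n))
  have hD' : Pic0.mk (m • D) = picExt N ι (m • (x : JZero N)) := by
    rw [map_nsmul, ← coe_picExtTorsion, ← hD]; rfl
  have hmD : Pic0.mk (m • D) ∈ Pic0.torsion ℂ (FC N) n := by
    rw [hD', ← coe_picExtTorsion ι ⟨_, hx⟩]; exact SetLike.coe_mem _
  have e : picExtTorsion ι n ⟨m • (x : JZero N), hx⟩ = ⟨Pic0.mk (m • D), hmD⟩ :=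
    Subtype.ext hD'.symm
  rw [jTorsionEquiv_apply, e]
  have hfm : HasDivisor N (f ^ m) ((m • D : Divisor.degZero (K := ℂ) (F := FC N)) : Divisor ℂ _) := by
    simpa using hfD.pow m
  refine torsionEquiv_eq hmD ⟨hfm.mero, hfm.meroCusp, ⟨UpperHalfPlane.I, hfm.order_ne_top _⟩,
    fun γ z => ?_⟩ hfm
  rw [Pi.pow_apply, Pi.pow_apply, hf.smul, mul_pow]
  congr 1
  rw [coe_expChar, coe_expChar, AddMonoidHom.comp_apply]
  set a : ZMod (m * n) := φ (Additive.ofMul γ)
  show ZMod.stdAddChar a ^ m = ZMod.stdAddChar (ZMod.castHom (dvd_mul_left n m) (ZMod n) a)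
  obtain ⟨j, hj⟩ := ZMod.intCast_surjective a
  rw [← hj, map_intCast (ZMod.castHom (dvd_mul_left n m) (ZMod n)), ZMod.stdAddChar_coe, ZMod.stdAddChar_coe,
    ← Complex.exp_nat_mul]
  congr 1
  have hn0 : (n : ℂ) ≠ 0 := Nat.cast_ne_zero.mpr (NeZero.ne n)
  have hm0 : (m : ℂ) ≠ 0 := Nat.cast_ne_zero.mpr (NeZero.ne m)
  push_cast
  field_simp

end ConstantExtension

end FLTAgent.Torsion
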