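import Fermat.Agent.Torsion.CharLift
import Fermat.Agent.Torsion.Equiv

/-!
# Divisibility of `Pic⁰` of `X₀(N)` over `ℂ` and over `ℚ̄`

`exists_nsmul_eq_FC`: a degree zero divisor is the divisor of a multiplier function
(`hasMultFun_of_degZero`), and an `n`-th root of its character is again a multiplier, so
multiplication by `n` is surjective over `ℂ`. A point `Y` with `n • Y` defined over `ℚ̄` has
finite orbit, hence is defined over `ℚ̄` (`exists_picExt_eq_of_nsmul`); this gives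
`exists_nsmul_eq_JZero`.
-/

set_option autoImplicit false
set_option linter.unusedSectionVars false

noncomputable section

open UpperHalfPlane CongruenceSubgroup AlgebraicCurve ModularCurve
open scoped MatrixGroups

namespace FLTAgent.Torsion

open FLTAgent.Modular

variable {N : ℕ} [NeZero N]

/-- A divisor of degree zero is `n` times another one up to a principal divisor. -/
theorem exists_nsmul_sub_eq_divisorOf {n : ℕ} (hn : n ≠ 0) {D : Divisor ℂ (FC N)}
    (hD : D ∈ Divisor.degZero (K := ℂ) (F := FC N)) :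
    ∃ E ∈ Divisor.degZero (K := ℂ) (F := FC N), ∃ y : FC N,
      y ≠ 0 ∧ ∀ v, (n • E - D) v = v.ord y := by
  obtain ⟨f, c, hf, hc⟩ := hasMultFun_of_degZero hD
  obtain ⟨d, hd, hdn⟩ := KillsEll.exists_root (c := c)
    ⟨hf.multiplier_parabolic hc, hf.multiplier_finOrder hc⟩ hn
  obtain ⟨h, E, hh, hhd⟩ := hd.hasMult
  have hpd : ∀ (γ : Gamma0 N) (z : ℍ), (h ^ n) ((γ : SL(2, ℤ)) • z) =
      ((d ^ n) γ : ℂ) * (h ^ n) z := fun γ z => by
    rw [Pi.pow_apply, Pi.pow_apply, hhd, mul_pow]; simp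
  have hfi : ∀ (γ : Gamma0 N) (z : ℍ), f⁻¹ ((γ : SL(2, ℤ)) • z) =
      (c⁻¹ γ : ℂ) * f⁻¹ z := fun γ z => by
    rw [Pi.inv_apply, Pi.inv_apply, hc, mul_inv, MonoidHom.inv_apply, Units.val_inv_eq_inv_val]
  obtain ⟨hg, hgm⟩ := hasDivisor_mul (hh.pow n) hf.inv hpd hfi
  rw [← sub_eq_add_neg] at hg
  have hmod : IsModFun N (nfH (h ^ n * f⁻¹)) :=
    ⟨hg.mero, hg.meroCusp, fun γ z => by
      rw [hgm, MonoidHom.mul_apply, MonoidHom.inv_apply]
      have : (d ^ n) γ = c γ := hdn γ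
      rw [this, mul_inv_cancel, Units.val_one, one_mul]⟩
  obtain ⟨y, hy⟩ := exists_eq_ev hmod
  obtain ⟨z, hz⟩ := hg.exists_ne_zero
  have hy0 : y ≠ 0 := by
    rintro rfl
    rw [ZeroMemClass.coe_zero, ev_zero'] at hy
    exact hz (congrFun hy z).symm
  have h1 := hasDivisor_ev (D := FF.divisorOf y) hy0 fun v => FF.divisorOf_apply y v
  rw [hy] at h1
  have heq := hg.unique h1
  refine ⟨E, ?_, y, hy0, fun v => by rw [heq, FF.divisorOf_apply]⟩
  have hdeg := congrArg Divisor.degree heq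
  rw [map_sub, map_nsmul, Divisor.mem_degZero.mp hD, sub_zero, FF.degree_divisorOf,
    smul_eq_zero_iff_right hn] at hdeg
  exact Divisor.mem_degZero.mpr hdeg

/-- Multiplication by `n` is surjective on `Pic⁰ (X₀(N)_ℂ)`. -/
theorem exists_nsmul_eq_FC (n : ℕ) [NeZero n] (x : Pic0 ℂ (FC N)) :
    ∃ y : Pic0 ℂ (FC N), n • y = x := by
  obtain ⟨D, rfl⟩ := Pic0.mk_surjective x
  obtain ⟨E, hE, y, hy, hdiv⟩ := exists_nsmul_sub_eq_divisorOf (NeZero.ne n) D.2
  refine ⟨Pic0.mk ⟨E, hE⟩, ?_⟩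
  refine (QuotientAddGroup.eq.mpr ?_ : ((n • ⟨E, hE⟩ : Divisor.degZero (K := ℂ) (F := FC N)) :
    Pic0 ℂ (FC N)) = Pic0.mk D)
  rw [AddSubgroup.mem_addSubgroupOf]
  refine ⟨y⁻¹, inv_ne_zero hy, fun v => ?_⟩
  rw [Place.ord_inv, ← hdiv]
  simp [sub_eq_add_neg, add_comm]

/-- A class over `ℂ` a multiple of which is defined over `ℚ̄` is defined over `ℚ̄`. -/
theorem exists_picExt_eq_of_nsmul (ι : Qb →+* ℂ) {n : ℕ} [NeZero n] {x : JZero N}
    {Y : Pic0 ℂ (FC N)} (hY : n • Y = picExt N ι x) : ∃ y : JZero N, picExt N ι y = Y := by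
  obtain ⟨D, rfl⟩ := Pic0.mk_surjective Y
  obtain ⟨D₁, rfl⟩ := Pic0.mk_surjective x
  have := finite_torsion_FC N n
  obtain ⟨D₀, hD₀⟩ := exists_sub_mapDomain_mem_principal (isConstExt_embFC ι)
    (hasAutExt_embFC ι) (D := (D : Divisor ℂ (FC N))) (by
      let j : Pic0 ℂ (FC N) → Pic ℂ (FC N) :=
        Quotient.lift (fun E : Divisor.degZero (K := ℂ) (F := FC N) =>
            (QuotientAddGroup.mk (E : Divisor ℂ (FC N)) : Pic ℂ (FC N))) (fun a b h =>
          QuotientAddGroup.eq.mpr (by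
            have := QuotientAddGroup.leftRel_apply.mp h
            simpa [AddSubgroup.mem_addSubgroupOf] using this))
      refine (Set.finite_range fun t : Pic0.torsion ℂ (FC N) n =>
        j ((t : Pic0 ℂ (FC N)) + Pic0.mk D)).subset ?_
      rintro _ ⟨g, rfl⟩
      have hX : (g : SemilinearAut ℂ (FC N)) • picExt N ι (Pic0.mk D₁) = picExt N ι (Pic0.mk D₁) := by
        rw [picExt_mk, SemilinearAut.pic0_smul_mk]
        exact congrArg Pic0.mk (Subtype.ext (smul_mapDomain_extP (isConstExt_embFC ι) g.2 _))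
      refine ⟨⟨(g : SemilinearAut ℂ (FC N)) • Pic0.mk D - Pic0.mk D, ?_⟩, ?_⟩
      · rw [Pic0.mem_torsion, natCast_zsmul, nsmul_sub, smul_comm, hY, hX, sub_self]
      · simp only [sub_add_cancel]
        rfl)
  have hD₀' : (D : Divisor ℂ (FC N)) - divExt ι D₀ ∈ Divisor.principal (K := ℂ) (F := FC N) :=
    hD₀
  have hdeg : D₀ ∈ Divisor.degZero (K := Qb) (F := modularFunctionFieldBar N) := by
    rw [Divisor.mem_degZero, ← degree_divExt ι]
    obtain ⟨f, hf, hdiv⟩ := hD₀'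
    have h1 : (D : Divisor ℂ (FC N)) - divExt ι D₀ = FF.divisorOf f :=
      Finsupp.ext fun v => by rw [hdiv, FF.divisorOf_apply]
    have h2 := congrArg Divisor.degree h1
    rw [map_sub, Divisor.mem_degZero.mp D.2, FF.degree_divisorOf, zero_sub, neg_eq_zero] at h2
    exact h2
  refine ⟨Pic0.mk ⟨D₀, hdeg⟩, ?_⟩
  rw [picExt_mk]
  refine QuotientAddGroup.eq.mpr ?_
  rw [AddSubgroup.mem_addSubgroupOf]
  simpa [neg_add_eq_sub] using hD₀'

/-- Multiplication by `n` is surjective on `J₀(N)(ℚ̄)`. -/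
theorem exists_nsmul_eq_JZero (n : ℕ) [NeZero n] (x : JZero N) :
    ∃ y : JZero N, n • y = x := by
  obtain ⟨ι⟩ := nonempty_embedding
  obtain ⟨Y, hY⟩ := exists_nsmul_eq_FC n (picExt N ι x)
  obtain ⟨y, hy⟩ := exists_picExt_eq_of_nsmul ι hY
  exact ⟨y, picExt_injective ι (by rw [map_nsmul, hy, hY])⟩

end FLTAgent.Torsion
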