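import Fermat.Agent.Torsion.Equiv

/-!
# Pullback to a higher level is restriction of characters

For `N ∣ M` the places of points and cusps of level `M` restrict to those of level `N` with the
expected ramification indices, so a function keeps its divisor pulled back
(`HasDivisor.pullback`). Hence `jTorsionEquiv_pullback`: pullback on torsion is restriction of
characters, and `picPullback_torsion_injective`.
-/

set_option autoImplicit false
set_option linter.unusedSectionVars false

noncomputable section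

open UpperHalfPlane CongruenceSubgroup Filter Topology AlgebraicCurve ModularCurve
open scoped MatrixGroups

namespace FLTAgent.Torsion

open FLTAgent.Modular

variable {N : ℕ} [NeZero N] {M : ℕ} [NeZero M]

section widths

theorem cuspWidth_dvd_of_dvd (h : N ∣ M) (γ : SL(2, ℤ)) : cuspWidth N γ ∣ cuspWidth M γ := by
  rw [ModularPlaces.cuspWidth_eq_minimalPeriod γ]
  refine Function.IsPeriodicPt.minimalPeriod_dvd ?_
  have hm := Period.gamma0_le_gamma0_of_dvd h (ModularPlaces.cuspWidth_spec (N := M) γ).2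
  rw [ModularPlaces.conj_mem_iff_smul, zpow_natCast] at hm
  rw [Function.IsPeriodicPt, Function.IsFixedPt, smul_iterate]
  exact hm

theorem qPow_dilate {w : ℝ} (hw : w ≠ 0) {r : ℕ} (hr : r ≠ 0) (k : ℤ) (z : ℍ) :
    qPow (w * r) (k * r) z = qPow w k z := by
  have h1 : (w : ℂ) ≠ 0 := by exact_mod_cast hw
  have h2 : (r : ℂ) ≠ 0 := by exact_mod_cast hr
  rw [qPow, qPow]
  congr 1
  push_cast
  field_simp

/-- Orders at cusps at a higher level. -/
theorem hasCuspOrder_of_dvd (h : N ∣ M) {γ : SL(2, ℤ)} {f : ℍ → ℂ} {k : ℤ}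
    (hk : ModularPlaces.HasCuspOrder N γ f k) :
    ModularPlaces.HasCuspOrder M γ f (k * ((cuspWidth M γ / cuspWidth N γ : ℕ) : ℤ)) := by
  obtain ⟨c, hc, hlim⟩ := hk
  have hd := cuspWidth_dvd_of_dvd h γ
  have hN := (ModularPlaces.cuspWidth_spec (N := N) γ).1
  have hM := (ModularPlaces.cuspWidth_spec (N := M) γ).1
  refine ⟨c, hc, hlim.congr fun z => ?_⟩
  congr 1
  set r := cuspWidth M γ / cuspWidth N γ with hr
  have hw : cuspWidth M γ = cuspWidth N γ * r := (Nat.mul_div_cancel' hd).symm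
  have hr0 : r ≠ 0 := fun h0 => by rw [h0, mul_zero] at hw; omega
  rw [hw, Nat.cast_mul, ← neg_mul, qPow_dilate (cuspWidth_cast_pos γ).ne' hr0]

end widths

section general

variable (φ : FC N →ₐ[ℂ] FC M) (hint : φ.toRingHom.IsIntegral)

theorem place_eq_and_mul_eq {v : Place ℂ (FC N)} {w : Place ℂ (FC N)} {a b : ℤ} (ha : 0 < a)
    (hb : 0 < b) (h : ∀ y : FC N, y ≠ 0 → a * v.ord y = b * w.ord y) : v = w ∧ a = b := by
  have hvw : v = w := by
    refine Place.ext (SetLike.ext fun y => ?_)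
    rw [FF.mem_iff, FF.mem_iff]
    rcases eq_or_ne y 0 with rfl | hy
    · simp
    · refine or_congr_right ⟨fun h1 => ?_, fun h1 => ?_⟩
      · exact nonneg_of_mul_nonneg_right ((h y hy) ▸ mul_nonneg ha.le h1) hb
      · exact nonneg_of_mul_nonneg_right ((h y hy).symm ▸ mul_nonneg hb.le h1) ha
  obtain ⟨y, hy, hy1⟩ := FF.exists_ord_eq v 1
  refine ⟨hvw, ?_⟩
  have := h y hy
  rwa [← hvw, hy1, mul_one, mul_one] at this

variable (hcoe : ∀ y, (φ y : LaurentSeries ℂ) = (y : LaurentSeries ℂ))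

include hcoe

theorem restrictAlong_placeOf (z : ℍ) :
    (placeOf z : Place ℂ (FC M)).restrictAlong φ hint = placeOf z ∧
      (ellOrder M z : ℤ) * (placeOf z : Place ℂ (FC M)).ramificationIndexAlong φ =
        ellOrder N z := by
  have hint' : 0 < (placeOf z : Place ℂ (FC M)).ramificationIndexAlong φ :=
    FF.ramificationIndexAlong_pos φ hint _
  refine place_eq_and_mul_eq (mul_pos (by exact_mod_cast ModularPlaces.ellOrder_pos M z)
    (by exact_mod_cast hint')) (by exact_mod_cast ModularPlaces.ellOrder_pos N z) fun y hy => ?_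
  rw [mul_assoc, ← Place.ord_restrictAlong φ hint, ord_placeOf z ((map_ne_zero φ).mpr hy),
    ord_placeOf z hy, hcoe]

theorem restrictAlong_cuspPlace (h : N ∣ M) (γ : SL(2, ℤ)) :
    (cuspPlace γ : Place ℂ (FC M)).restrictAlong φ hint = cuspPlace γ ∧
      ((cuspPlace γ : Place ℂ (FC M)).ramificationIndexAlong φ : ℤ) =
        ((cuspWidth M γ / cuspWidth N γ : ℕ) : ℤ) := by
  have hint' : 0 < (cuspPlace γ : Place ℂ (FC M)).ramificationIndexAlong φ :=
    FF.ramificationIndexAlong_pos φ hint _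
  have hr : 0 < cuspWidth M γ / cuspWidth N γ :=
    Nat.div_pos (Nat.le_of_dvd (ModularPlaces.cuspWidth_spec (N := M) γ).1
      (cuspWidth_dvd_of_dvd h γ)) (ModularPlaces.cuspWidth_spec (N := N) γ).1
  refine place_eq_and_mul_eq (by exact_mod_cast hint') (by exact_mod_cast hr) fun y hy => ?_
  have h1 := hasCuspOrder_of_dvd h
    (ord_cuspPlace γ hy : ModularPlaces.HasCuspOrder N γ (ev (y : LaurentSeries ℂ)) _)
  rw [← hcoe y] at h1
  have h2 : ModularPlaces.HasCuspOrder M γ (ev ((φ y : FC M) : LaurentSeries ℂ))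
      ((cuspPlace γ : Place ℂ (FC M)).ord (φ y)) := ord_cuspPlace γ ((map_ne_zero φ).mpr hy)
  rw [← Place.ord_restrictAlong φ hint, h2.unique h1]
  ring

end general

theorem HasDivisor.pullback (h : N ∣ M) [HasPrincipalDivisors ℂ (FC M)]
    (φ : FC N →ₐ[ℂ] FC M) (hcoe : ∀ y, (φ y : LaurentSeries ℂ) = (y : LaurentSeries ℂ))
    (hint : φ.toRingHom.IsIntegral) {f : ℍ → ℂ}
    {D : Divisor ℂ (FC N)} (hD : HasDivisor N f D) :
    HasDivisor M f (Divisor.pullbackAlong φ hint D) where
  mero := hD.mero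
  order z := by
    obtain ⟨h1, h2⟩ := restrictAlong_placeOf φ hint hcoe z
    rw [hD.order z, Divisor.pullbackAlong_apply, h1, ← mul_assoc, h2]
  cusp γ := by
    obtain ⟨h1, h2⟩ := restrictAlong_cuspPlace φ hint hcoe h γ
    rw [Divisor.pullbackAlong_apply, h1, h2, mul_comm]
    exact hasCuspOrder_of_dvd h (hD.cusp γ :
      ModularPlaces.HasCuspOrder N γ f (D (cuspPlace γ)))


section jacobian

theorem restrictChar_mem_H (h : N ∣ M) {n : ℕ} {φ : Additive (Gamma0 N) →+ ZMod n}
    (hφ : φ ∈ Period.H N (ZMod n) (ZMod n)) :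
    restrictChar h φ ∈ Period.H M (ZMod n) (ZMod n) :=
  (Period.restrictH (R := ZMod n) h ⟨φ, hφ⟩).2

theorem restrictChar_eq (h : N ∣ M) {n : ℕ} (φ : Period.H N (ZMod n) (ZMod n)) :
    restrictChar h (φ : Additive (Gamma0 N) →+ ZMod n) =
      (Period.restrictH (R := ZMod n) h φ : Additive (Gamma0 M) →+ ZMod n) := rfl

set_option maxHeartbeats 1600000 in
/-- Under `jTorsionEquiv` pullback to a higher level is restriction of characters. -/
theorem jTorsionEquiv_pullback (ι : Qb →+* ℂ) (h : N ∣ M)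
    [HasPrincipalDivisors Qb (modularFunctionFieldBar M)]
    (φ : modularFunctionFieldBar N →ₐ[Qb] modularFunctionFieldBar M)
    (hcoe : ∀ y, (φ y : LaurentSeries Qb) = (y : LaurentSeries Qb))
    (hint : φ.toRingHom.IsIntegral) (hFI : FundamentalIdentityAlong Qb φ hint)
    {n : ℕ} [NeZero n] (x : Pic0.torsion Qb (modularFunctionFieldBar N) n)
    (hx : picPullback φ hint hFI (x : JZero N) ∈
      Pic0.torsion Qb (modularFunctionFieldBar M) n) :
    (jTorsionEquiv M ι n ⟨picPullback φ hint hFI (x : JZero N), hx⟩ :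
        Additive (Gamma0 M) →+ ZMod n) =
      restrictChar h (jTorsionEquiv N ι n x : Additive (Gamma0 N) →+ ZMod n) := by
  obtain ⟨D, hD⟩ := Pic0.mk_surjective (x : JZero N)
  -- the divisor `n • D` is the divisor of a function `y`
  have hxn := Pic0.mem_torsion.mp x.2
  rw [← hD, natCast_zsmul] at hxn
  have h1 := (QuotientAddGroup.eq_zero_iff _).mp
    (show ((n • D : Divisor.degZero (K := Qb) (F := modularFunctionFieldBar N)) : JZero N) = 0
      from hxn)
  rw [AddSubgroup.mem_addSubgroupOf] at h1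
  obtain ⟨y, hy, hyD⟩ := h1
  have hDy : n • (D : Divisor Qb (modularFunctionFieldBar N)) = FF.divisorOf y :=
    Finsupp.ext fun v => by rw [FF.divisorOf_apply, ← hyD v]; simp
  -- its multiplier function
  have hyC : n • divExt ι (D : Divisor Qb (modularFunctionFieldBar N)) ∈
      Divisor.principal (K := ℂ) (F := FC N) := by
    rw [← map_nsmul, hDy, divExt_mem_principal_iff]
    exact ⟨y, hy, fun v => FF.divisorOf_apply y v⟩
  obtain ⟨ψ, hψ, f, hf, hfD⟩ := exists_mult_of_nsmul_principal hyC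
  have hxe : (picExtTorsion ι n x : Pic0 ℂ (FC N)) = Pic0.mk (degZeroExt ι D) := by
    rw [coe_picExtTorsion, ← hD, picExt_mk]
  have hxD : picExtTorsion ι n x = ⟨Pic0.mk (degZeroExt ι D), hxe ▸ SetLike.coe_mem _⟩ :=
    Subtype.ext hxe
  have hφx : (jTorsionEquiv N ι n x : Additive (Gamma0 N) →+ ZMod n) = ψ := by
    rw [jTorsionEquiv_apply, hxD]
    exact torsionEquiv_eq _ hf hfD
  rw [hφx]
  -- the same function at level `M`
  set c := expChar (restrictChar h ψ)
  have hc : ∀ (γ : Gamma0 M) (z : ℍ), f ((γ : SL(2, ℤ)) • z) = (c γ : ℂ) * f z := fun γ z =>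
    hf.smul (⟨γ, Period.gamma0_le_gamma0_of_dvd h γ.2⟩ : Gamma0 N) z
  have hfM : IsMult M f c :=
    { mero := hf.mero
      meroCusp := fun γ => by
        obtain ⟨k, hk⟩ := hf.meroCusp γ
        obtain ⟨C, A, hCA⟩ := isBoundedAtImInfty_iff.mp hk
        obtain ⟨r, hr⟩ := h
        have hr0 : r ≠ 0 := fun h0 => NeZero.ne M (by rw [hr, h0, mul_zero])
        refine ⟨k * r, isBoundedAtImInfty_iff.mpr ⟨C, A, fun z hz => le_of_eq_of_le ?_ (hCA z hz)⟩⟩
        congr 2
        rw [hr, Nat.cast_mul, Nat.cast_mul]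
        exact qPow_dilate (by exact_mod_cast NeZero.ne N) hr0 _ z
      nonzero := hf.nonzero
      smul := hc }
  have hcH := restrictChar_mem_H h hψ
  obtain ⟨A, hA, hAt⟩ := exists_divisor_of_mult hcH hfM
  -- identify its divisor
  obtain ⟨yN, hyN, hevN, hdivN⟩ := hfD.exists_div_eq hf.smul (expChar_pow_eq_one ψ)
  obtain ⟨yM, hyM, hevM, hdivM⟩ := hA.exists_div_eq hc (expChar_pow_eq_one (restrictChar h ψ))
  have hser : (yM : LaurentSeries ℂ) = (yN : LaurentSeries ℂ) :=
    (hasQExp_ev yM).unique one_pos (by rw [hevM, ← hevN]; exact hasQExp_ev yN)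
  have hyι : embFC N ι y ≠ 0 := (map_ne_zero _).mpr hy
  obtain ⟨a, ha⟩ := FF.mem_range_of_forall_ord_nonneg (K := ℂ) (f := yN / embFC N ι y) fun v => by
    rw [FF.ord_div v hyN hyι, ← hdivN, ← map_nsmul, hDy]
    refine le_of_eq (sub_eq_zero.mpr ?_).symm
    by_cases hv : ∃ u, v = placeExt ι u
    · obtain ⟨u, rfl⟩ := hv
      rw [divExt_apply_placeExt, FF.divisorOf_apply, ord_placeExt]
    · rw [divExt_apply, Finsupp.mapDomain_of_notMem_range]
      · by_contra hne
        exact hv (eq_placeExt_of_ord_ne_zero ι (Ne.symm hne))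
      · rintro ⟨u, hu⟩; exact hv ⟨u, hu.symm⟩
  have hyy : yM = algebraMap ℂ (FC M) a * embFC M ι (φ y) := by
    refine Subtype.ext ?_
    have e : yN = algebraMap ℂ (FC N) a * embFC N ι y := by rw [ha, div_mul_cancel₀ _ hyι]
    rw [hser, e, MulMemClass.coe_mul, MulMemClass.coe_mul, coe_embFC, coe_embFC, hcoe]
    rfl
  have hφy : φ y ≠ 0 := (map_ne_zero φ).mpr hy
  have ha0 : algebraMap ℂ (FC M) a ≠ 0 := by
    intro h0
    exact hyM (by rw [hyy, h0, zero_mul])
  set E : Divisor.degZero (K := Qb) (F := modularFunctionFieldBar M) :=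
    ⟨Divisor.pullbackAlong φ hint D, Divisor.pullbackAlong_mem_degZero φ hint hFI D.2⟩
  have hAE : (A : Divisor ℂ (FC M)) = divExt ι (E : Divisor Qb (modularFunctionFieldBar M)) := by
    have h2 : n • (E : Divisor Qb (modularFunctionFieldBar M)) = FF.divisorOf (φ y) := by
      show n • Divisor.pullbackAlong φ hint _ = _
      rw [← map_nsmul, hDy, FF.pullbackAlong_divisorOf]
    refine Finsupp.ext fun v => mul_left_cancel₀ (Int.natCast_ne_zero.mpr (NeZero.ne n)) ?_
    have h3 : (n : ℤ) * (A : Divisor ℂ (FC M)) v = v.ord (embFC M ι (φ y)) := by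
      rw [← nsmul_eq_mul, ← Finsupp.smul_apply, hdivM, hyy,
        v.ord_mul ha0 ((map_ne_zero _).mpr hφy), FF.ord_algebraMap, zero_add]
    rw [h3, ← nsmul_eq_mul, ← Finsupp.smul_apply, ← map_nsmul, h2]
    by_cases hv : ∃ u, v = placeExt ι u
    · obtain ⟨u, rfl⟩ := hv
      rw [divExt_apply_placeExt, FF.divisorOf_apply, ord_placeExt]
    · rw [divExt_apply, Finsupp.mapDomain_of_notMem_range]
      · by_contra hne
        exact hv (eq_placeExt_of_ord_ne_zero ι hne)
      · rintro ⟨u, hu⟩; exact hv ⟨u, hu.symm⟩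
  have hAE' : A = degZeroExt ι E := Subtype.ext hAE
  have hmk : picExt M ι (picPullback φ hint hFI (x : JZero N)) = Pic0.mk A := by
    rw [← hD, picPullback_mk, picExt_mk, hAE']
  have e : picExtTorsion ι n ⟨picPullback φ hint hFI (x : JZero N), hx⟩ = ⟨Pic0.mk A, hAt⟩ :=
    Subtype.ext hmk
  rw [jTorsionEquiv_apply, e]
  exact torsionEquiv_eq hAt hfM hA

/-- Pullback of torsion classes to a higher level is injective. -/
theorem picPullback_torsion_injective (h : N ∣ M)
    [HasPrincipalDivisors Qb (modularFunctionFieldBar M)]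
    (φ : modularFunctionFieldBar N →ₐ[Qb] modularFunctionFieldBar M)
    (hcoe : ∀ y, (φ y : LaurentSeries Qb) = (y : LaurentSeries Qb))
    (hint : φ.toRingHom.IsIntegral) (hFI : FundamentalIdentityAlong Qb φ hint)
    {n : ℕ} [NeZero n] {x : JZero N}
    (hx : x ∈ Pic0.torsion Qb (modularFunctionFieldBar N) n)
    (h0 : picPullback φ hint hFI x = 0) : x = 0 := by
  obtain ⟨ι⟩ := nonempty_embedding
  have hx' : picPullback φ hint hFI x ∈ Pic0.torsion Qb (modularFunctionFieldBar M) n := by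
    rw [h0]; exact zero_mem _
  have h1 := jTorsionEquiv_pullback ι h φ hcoe hint hFI ⟨x, hx⟩ hx'
  have h2 : (⟨picPullback φ hint hFI x, hx'⟩ :
      Pic0.torsion Qb (modularFunctionFieldBar M) n) = 0 := Subtype.ext h0
  rw [h2, map_zero, ZeroMemClass.coe_zero, restrictChar_eq] at h1
  have h3 : Period.restrictH (R := ZMod n) h (jTorsionEquiv N ι n ⟨x, hx⟩) = 0 :=
    Subtype.ext h1.symm
  rw [← map_zero (Period.restrictH (R := ZMod n) (A := ZMod n) (N := N) h)] at h3
  have h4 := Period.restrictH_injective h h3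
  rw [← map_zero (jTorsionEquiv N ι n)] at h4
  exact congrArg Subtype.val ((jTorsionEquiv N ι n).injective h4)

end jacobian

end FLTAgent.Torsion
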