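import Fermat.Agent.Torsion.Conj
import Fermat.Agent.Torsion.Pullback

/-!
# Torsion of the Jacobian of `X₀(N)` as characters of `Γ₀(N)`

Umbrella import of the torsion library (no declarations of its own). Convention:
`expChar φ γ = exp (2πi φ(γ) / n)`, and a class killed by `n` corresponds to `φ` when it is the
class of the divisor of a meromorphic function on `ℍ` with multiplier `expChar φ`.
Main results: `jTorsionEquiv` and `natCard_jTorsion` (`Torsion.Equiv`), `jTorsionEquiv_pullback`
and `picPullback_torsion_injective` (`Torsion.Pullback`), `exists_complexConj` and
`jTorsionEquiv_conj` (`Torsion.Conj`).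
-/
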