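import Fermat.Agent.Torsion.Root
import Fermat.Agent.Modular.API
import Fermat.Agent.ModularPlaces.CuspOrders
import Fermat.Agent.ModularDiff.Asymp
import Fermat.Agent.Period.SL2
import Fermat.Agent.FF.PlacesMain
import Fermat.Agent.ModularPlaces.Fields

/-!
# Functions on `ℍ` with a divisor on `X₀(N)` and their multipliers

Algebra of `HasDivisor` (products, inverses, powers, uniqueness). A multiplier of such a function
is trivial on parabolic and finite order elements (`HasDivisor.multiplier_parabolic`,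
`HasDivisor.multiplier_finOrder`); two with finite order multipliers and the same divisor are
proportional (`eq_const_mul_of_hasDivisor`); conversely a multiplier function of finite order
trivial on these elements has a divisor `D` with `n • D` principal
(`exists_hasDivisor_of_isMult`).
-/

set_option autoImplicit false
set_option linter.unusedSectionVars false

noncomputable section

open UpperHalfPlane CongruenceSubgroup Filter Topology AlgebraicCurve ModularCurve Set
open scoped MatrixGroups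

namespace FLTAgent.Torsion

open FLTAgent.Modular

variable {N : ℕ} [NeZero N] {f g h : ℍ → ℂ} {D E : Divisor ℂ (FC N)}

theorem cuspWidth_cast_pos (γ : SL(2, ℤ)) : (0 : ℝ) < (cuspWidth N γ : ℝ) := by
  exact_mod_cast (ModularPlaces.cuspWidth_spec γ).1

theorem qPow_natCast_mul (h : ℝ) (k : ℤ) (m : ℕ) (z : ℍ) :
    qPow h ((m : ℤ) * k) z = qPow h k z ^ m := by
  rw [qPow, qPow, ← Complex.exp_nat_mul]
  congr 1
  push_cast
  ring

theorem HasDivisor.order_ne_top (hf : HasDivisor N f D) (z : ℍ) :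
    meromorphicOrderAt (f ∘ ofComplex) (z : ℂ) ≠ ⊤ := by
  rw [hf.order z]; exact WithTop.coe_ne_top

theorem analyticAt_smul_of_comp (hf : IsMero f) (γ : SL(2, ℤ)) {z : ℍ}
    (h : AnalyticAt ℂ ((fun w : ℍ => f (γ • w)) ∘ ofComplex) (z : ℂ)) :
    AnalyticAt ℂ (f ∘ ofComplex) ((γ • z : ℍ) : ℂ) := by
  rw [← (hf (γ • z)).meromorphicOrderAt_nonneg_iff_analyticAt,
    ← ModularPlaces.meromorphicOrderAt_smul f γ z]
  exact h.meromorphicOrderAt_nonneg

theorem HasDivisor.eventually_analyticAt (hf : HasDivisor N f D) (γ : SL(2, ℤ)) :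
    ∀ᶠ z : ℍ in atImInfty, AnalyticAt ℂ (f ∘ ofComplex) ((γ • z : ℍ) : ℂ) := by
  obtain ⟨c, -, hc⟩ := hf.cusp γ
  filter_upwards [ModularDiff.eventually_analyticAt_of_tendsto (hf.mero.comp_sl γ) hc] with z hz
  exact analyticAt_smul_of_comp hf.mero γ hz

theorem eq_of_eqOffDiscrete_of_analyticAt {F : ℍ → ℂ} (hh : IsMero h) (heq : EqOffDiscrete h F)
    {z : ℍ} (hF : AnalyticAt ℂ (F ∘ ofComplex) (z : ℂ)) : h z = F z := by
  simpa [ofComplex_apply] using
    (((hh z).eventuallyEq_nhdsNE_iff_eventuallyEq_nhds hF.meromorphicNFAt).mp (heq z)).eq_of_nhds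

theorem HasDivisor.mul (hf : HasDivisor N f D) (hg : HasDivisor N g E) (hh : IsMero h)
    (heq : EqOffDiscrete h (f * g)) : HasDivisor N h (D + E) where
  mero := hh
  order z := by
    rw [meromorphicOrderAt_congr (heq z), show (f * g) ∘ ofComplex = (f ∘ ofComplex) * (g ∘ ofComplex)
        from rfl, meromorphicOrderAt_mul (hf.mero.meromorphicAt z) (hg.mero.meromorphicAt z),
      hf.order, hg.order, ← WithTop.coe_add, WithTop.coe_inj, Finsupp.add_apply, mul_add]
  cusp γ := by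
    obtain ⟨a, ha, hfa⟩ := hf.cusp γ
    obtain ⟨b, hb, hgb⟩ := hg.cusp γ
    refine ⟨a * b, mul_ne_zero ha hb, (hfa.mul hgb).congr' ?_⟩
    filter_upwards [hf.eventually_analyticAt γ, hg.eventually_analyticAt γ] with z hz hz'
    rw [eq_of_eqOffDiscrete_of_analyticAt hh heq (hz.mul hz'), Pi.mul_apply, Finsupp.add_apply,
      neg_add, qPow_add]
    ring

theorem HasDivisor.inv (hf : HasDivisor N f D) : HasDivisor N f⁻¹ (-D) where
  mero := hf.mero.inv
  order z := by
    rw [show f⁻¹ ∘ ofComplex = (f ∘ ofComplex)⁻¹ from rfl, meromorphicOrderAt_inv, hf.order,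
      ← WithTop.LinearOrderedAddCommGroup.coe_neg, WithTop.coe_inj, Finsupp.neg_apply, mul_neg]
  cusp γ := by
    obtain ⟨a, ha, hfa⟩ := hf.cusp γ
    refine ⟨a⁻¹, inv_ne_zero ha, (hfa.inv₀ ha).congr fun z => ?_⟩
    rw [Finsupp.neg_apply, neg_neg, Pi.inv_apply, mul_inv, qPow_neg, inv_inv]

theorem hasDivisor_const {a : ℂ} (ha : a ≠ 0) :
    HasDivisor N (fun _ => a) (0 : Divisor ℂ (FC N)) where
  mero := isMero_const a
  order z := by
    rw [Finsupp.zero_apply, mul_zero, show (fun _ : ℍ => a) ∘ ofComplex = fun _ : ℂ => a from rfl,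
      meromorphicOrderAt_const]
    simp [ha]
  cusp γ := ⟨a, ha, tendsto_const_nhds.congr fun z => by simp [qPow_zero]⟩

theorem HasDivisor.const_mul (hf : HasDivisor N f D) {a : ℂ} (ha : a ≠ 0) :
    HasDivisor N (fun z => a * f z) D := by
  have h2 := (hasDivisor_const (N := N) ha).mul hf (isMero_const_mul hf.mero ha)
    (fun _ => EventuallyEq.refl _ _)
  rwa [zero_add] at h2

theorem isMero_pow (hf : IsMero f) (k : ℕ) : IsMero (f ^ k) := fun z => by
  have h := (hf z).zpow (n := (k : ℤ))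
  rwa [zpow_natCast] at h

theorem HasDivisor.pow (hf : HasDivisor N f D) (k : ℕ) : HasDivisor N (f ^ k) (k • D) := by
  induction k with
  | zero =>
    rw [pow_zero, zero_nsmul]
    exact hasDivisor_const (N := N) one_ne_zero
  | succ k ih =>
    rw [succ_nsmul]
    exact ih.mul hf (isMero_pow hf.mero _) (fun z => by rw [pow_succ])

theorem HasDivisor.meroCusp (hf : HasDivisor N f D) : IsMeroAtCusps N f := by
  intro γ
  set d := D (cuspPlace γ)
  have hw := cuspWidth_cast_pos (N := N) γ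
  obtain ⟨c, -, hc⟩ := hf.cusp γ
  refine ⟨N * d.natAbs, ?_⟩
  have hev := hc.norm.eventually_le_const (lt_add_one ‖c‖)
  rw [Filter.Eventually, atImInfty_mem] at hev
  obtain ⟨A, hA⟩ := hev
  refine isBoundedAtImInfty_iff.mpr ⟨‖c‖ + 1, max A 0, fun z hz => ?_⟩
  have h1 : ‖f (γ • z) * qPow (cuspWidth N γ : ℝ) (-d) z‖ ≤ ‖c‖ + 1 :=
    hA z (le_trans (le_max_left _ _) hz)
  refine le_trans ?_ h1
  rw [norm_mul, norm_mul, mul_comm ‖f (γ • z)‖]
  refine mul_le_mul_of_nonneg_right ?_ (norm_nonneg _)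
  rw [ModularDiff.norm_qPow', ModularDiff.norm_qPow', Real.exp_le_exp, neg_le_neg_iff]
  refine mul_le_mul_of_nonneg_right ?_ z.im_pos.le
  have hN : (0 : ℝ) < N := by exact_mod_cast NeZero.pos N
  rw [show ((N * d.natAbs : ℕ) : ℤ) = (N : ℤ) * |d| by push_cast; rfl]
  push_cast
  rw [show 2 * Real.pi * ((N : ℝ) * |(d : ℝ)|) / N = 2 * Real.pi * |(d : ℝ)| by field_simp,
    mul_div_assoc]
  refine mul_le_mul_of_nonneg_left ?_ (by positivity)
  rw [div_le_iff₀ hw]
  have h2 : (1 : ℝ) ≤ (cuspWidth N γ : ℝ) := by exact_mod_cast (ModularPlaces.cuspWidth_spec γ).1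
  calc -(d : ℝ) ≤ |(d : ℝ)| := neg_le_abs _
    _ ≤ |(d : ℝ)| * (cuspWidth N γ : ℝ) := le_mul_of_one_le_right (abs_nonneg _) h2

theorem HasDivisor.isMult (hf : HasDivisor N f D) {c : Gamma0 N →* ℂˣ}
    (hc : ∀ γ : Gamma0 N, EqOffDiscrete (fun z => f ((γ : SL(2, ℤ)) • z))
      (fun z => (c γ : ℂ) * f z)) : IsMult N f c where
  mero := hf.mero
  meroCusp := hf.meroCusp
  nonzero := ⟨UpperHalfPlane.I, hf.order_ne_top _⟩
  smul γ z := congrFun ((hf.mero.comp_sl _).eq_of_eventuallyEq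
    (isMero_const_mul hf.mero (c γ).ne_zero) (hc γ z)) z

theorem hasDivisor_ev {y : FC N} (hy : y ≠ 0) (hD : ∀ v, D v = v.ord y) :
    HasDivisor N (ev (y : LaurentSeries ℂ)) D where
  mero := isMero_ev y
  order z := by
    rw [hD, ord_placeOf z hy, ordH, WithTop.coe_untop₀_of_ne_top (meromorphicOrderAt_ev_ne_top hy z)]
  cusp γ := by
    rw [hD]; exact ord_cuspPlace γ hy

theorem HasDivisor.unique (hf : HasDivisor N f D) (hf' : HasDivisor N f E) : D = E := by
  ext v
  rcases place_exhaustive v with ⟨z, rfl⟩ | ⟨γ, rfl⟩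
  · have h1 := hf.order z
    rw [hf'.order z, WithTop.coe_inj] at h1
    exact (mul_left_cancel₀ (by exact_mod_cast (ModularPlaces.ellOrder_pos N z).ne') h1).symm
  · exact ModularPlaces.HasCuspOrder.unique (hf.cusp γ) (hf'.cusp γ)

section Multipliers

theorem eq_one_of_eq_mul (hf : HasDivisor N f D) {a : ℂ} (h : ∀ z, f z = a * f z) : a = 1 := by
  by_contra ha
  refine hf.order_ne_top UpperHalfPlane.I (meromorphicOrderAt_eq_top_iff.mpr
    (Eventually.of_forall fun w => ?_))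
  have := h (ofComplex w)
  have h2 : (a - 1) * f (ofComplex w) = 0 := by linear_combination -this
  simpa [sub_eq_zero, ha] using h2

theorem shift_smul (δ : SL(2, ℤ)) (m : ℤ) (z : ℍ) :
    δ • ((m : ℝ) +ᵥ z) = (δ * ModularGroup.T ^ m * δ⁻¹) • (δ • z) := by
  rw [← modular_T_zpow_smul, ← mul_smul, ← mul_smul]
  congr 1
  group

theorem qPow_shift {w : ℝ} (hw : w ≠ 0) (k : ℤ) (z : ℍ) : qPow w k (w +ᵥ z) = qPow w k z := by
  have hw' : (w : ℂ) ≠ 0 := by exact_mod_cast hw
  rw [qPow, qPow, coe_vadd]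
  conv_rhs => rw [← Complex.exp_periodic.int_mul k]
  congr 1
  field_simp
  ring

theorem tendsto_vadd_atImInfty (t : ℝ) :
    Tendsto (fun z : ℍ => t +ᵥ z) atImInfty atImInfty := by
  rw [atImInfty, tendsto_comap_iff, show UpperHalfPlane.im ∘ (fun z : ℍ => t +ᵥ z) =
    UpperHalfPlane.im from funext fun z => UpperHalfPlane.vadd_im t z]
  exact tendsto_comap

/-- A branch of an `n`-th root of a function tending to a nonzero limit has a limit. -/
theorem eq_one_and_tendsto_of_pow_tendsto {v : ℍ → ℂ} {n : ℕ} (hn : n ≠ 0) {L ζ : ℂ} {t : ℝ}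
    (hcont : ∀ᶠ z : ℍ in atImInfty, ContinuousAt (v ∘ ofComplex) (z : ℂ)) (hL : L ≠ 0)
    (hlim : Tendsto (fun z => v z ^ n) atImInfty (𝓝 L))
    (hshift : ∀ z, v (t +ᵥ z) = ζ * v z) :
    ζ = 1 ∧ ∃ L', L' ≠ 0 ∧ Tendsto v atImInfty (𝓝 L') := by
  obtain ⟨L₀, hL₀⟩ := IsAlgClosed.exists_pow_nat_eq L (Nat.pos_of_ne_zero hn)
  have hL₀0 : L₀ ≠ 0 := fun h => hL (by rw [← hL₀, h, zero_pow hn])
  let r : ℍ → ℂ := fun z => v z / L₀
  have hr : Tendsto (fun z => r z ^ n) atImInfty (𝓝 1) := by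
    simpa [r, div_pow, hL₀, div_self hL] using hlim.div_const L
  let q : ℍ → ℂ := fun z => Complex.exp (Complex.log (r z ^ n) / n)
  have hq : Tendsto q atImInfty (𝓝 1) := by
    have h1 : ContinuousAt (fun x : ℂ => Complex.exp (Complex.log x / n)) 1 :=
      ((continuousAt_clog Complex.one_mem_slitPlane).div_const _).cexp
    simpa [q, Function.comp_def] using h1.tendsto.comp hr
  have hev : ∀ᶠ z : ℍ in atImInfty, ContinuousAt (v ∘ ofComplex) (z : ℂ) ∧
      r z ^ n ∈ Metric.ball (1 : ℂ) 1 :=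
    hcont.and (hr.eventually (Metric.ball_mem_nhds _ one_pos))
  rw [Filter.Eventually, atImInfty_mem] at hev
  obtain ⟨A, hA⟩ := hev
  set S : Set ℂ := {w : ℂ | max A 0 < w.im}
  have hSpos : ∀ w ∈ S, 0 < w.im := fun w hw => lt_of_le_of_lt (le_max_right _ _) hw
  have hS : ∀ w, ∀ hw : w ∈ S, ContinuousAt (v ∘ ofComplex) w ∧
      r (ofComplex w) ^ n ∈ Metric.ball (1 : ℂ) 1 := by
    intro w hw
    have h1 := hA ⟨w, hSpos w hw⟩ (le_trans (le_max_left _ _) (le_of_lt hw))
    rw [ofComplex_apply_of_im_pos (hSpos w hw)]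
    exact h1
  let ξ : ℂ → ℂ := fun w => r (ofComplex w) / q (ofComplex w)
  have hξn : ∀ w ∈ S, ξ w ^ n = 1 := by
    intro w hw
    have h0 : r (ofComplex w) ^ n ≠ 0 := fun h => by
      have := (hS w hw).2
      rw [h, Metric.mem_ball, dist_eq_norm, zero_sub, norm_neg, norm_one] at this
      exact lt_irrefl _ this
    simp only [ξ, q, div_pow, ← Complex.exp_nat_mul,
      mul_div_cancel₀ _ (Nat.cast_ne_zero.mpr hn : (n : ℂ) ≠ 0), Complex.exp_log h0, div_self h0]
  have hξc : ContinuousOn ξ S := by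
    intro w hw
    have hrc : ContinuousAt (fun x => r (ofComplex x)) w := (hS w hw).1.div_const _
    refine ContinuousAt.continuousWithinAt ?_
    have hlog : ContinuousAt (fun x => Complex.log (r (ofComplex x) ^ n)) w := by
      refine ContinuousAt.clog (hrc.pow n) ?_
      exact Complex.mem_slitPlane_iff.mpr (Or.inl (by
        have := (hS w hw).2
        rw [Metric.mem_ball, dist_eq_norm] at this
        have := (Complex.abs_re_le_norm _).trans_lt this
        rw [Complex.sub_re, Complex.one_re, abs_lt] at this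
        linarith [this.1]))
    exact hrc.div ((hlog.div_const (n : ℂ)).cexp) (Complex.exp_ne_zero _)
  have hfin : {x : ℂ | x ^ n = 1}.Finite := by
    refine (Polynomial.nthRoots n (1 : ℂ)).toFinset.finite_toSet.subset fun x hx => ?_
    simpa [Polynomial.mem_nthRoots (Nat.pos_of_ne_zero hn)] using hx
  have hw₀ : Complex.I * ((max A 0 + 1 : ℝ) : ℂ) ∈ S := by
    show max A 0 < (Complex.I * ((max A 0 + 1 : ℝ) : ℂ)).im
    rw [Complex.mul_im]
    simp only [Complex.I_re, Complex.I_im, Complex.ofReal_re, Complex.ofReal_im]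
    linarith
  set ξ₀ := ξ (Complex.I * ((max A 0 + 1 : ℝ) : ℂ))
  have hv : v =ᶠ[atImInfty] fun z => L₀ * ξ₀ * q z := by
    rw [Filter.EventuallyEq, Filter.Eventually, atImInfty_mem]
    refine ⟨max A 0 + 1, fun z hz => ?_⟩
    have hzS : (z : ℂ) ∈ S := by show max A 0 < z.im; linarith
    have h1 : ξ (z : ℂ) = ξ₀ := (convex_halfSpace_im_gt _).isPreconnected.constant_of_mapsTo
      hfin.isDiscrete hξc hξn hzS hw₀
    show v z = L₀ * ξ₀ * q z
    rw [← h1]
    simp only [ξ, r, ofComplex_apply]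
    field_simp [hL₀0, Complex.exp_ne_zero, q]
  have hξ₀ : ξ₀ ≠ 0 := fun h => by
    have := hξn _ hw₀
    rw [show ξ (Complex.I * ((max A 0 + 1 : ℝ) : ℂ)) = ξ₀ from rfl, h, zero_pow hn] at this
    exact zero_ne_one this
  have hlim' : Tendsto v atImInfty (𝓝 (L₀ * ξ₀)) :=
    Tendsto.congr' (EventuallyEq.symm hv) (by simpa using hq.const_mul (L₀ * ξ₀))
  refine ⟨?_, L₀ * ξ₀, mul_ne_zero hL₀0 hξ₀, hlim'⟩
  have h1 : Tendsto (fun z : ℍ => ζ * v z) atImInfty (𝓝 (L₀ * ξ₀)) :=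
    (hlim'.comp (tendsto_vadd_atImInfty t)).congr hshift
  exact (mul_eq_right₀ (mul_ne_zero hL₀0 hξ₀)).mp
    (tendsto_nhds_unique (hlim'.const_mul ζ) h1)

/-- The multiplier of a parabolic element is trivial. -/
theorem HasDivisor.multiplier_parabolic (hf : HasDivisor N f D) {c : Gamma0 N →* ℂˣ}
    (hc : ∀ (γ : Gamma0 N) (z : ℍ), f ((γ : SL(2, ℤ)) • z) = (c γ : ℂ) * f z) (γ : Gamma0 N)
    (hγ : ((γ : SL(2, ℤ)) : Matrix (Fin 2) (Fin 2) ℤ).trace ^ 2 = 4) : c γ = 1 := by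
  obtain ⟨δ, m, hδ⟩ := Period.exists_conj_T_zpow_of_trace hγ
  set w := cuspWidth N δ
  have hw := ModularPlaces.cuspWidth_spec (N := N) δ
  let P : Gamma0 N := ⟨δ * ModularGroup.T ^ (w : ℤ) * δ⁻¹, hw.2⟩
  have hP : c P = 1 := by
    obtain ⟨L, hL, hlim⟩ := hf.cusp δ
    have h1 : Tendsto (fun z : ℍ => (c P : ℂ) * (f (δ • z) * qPow (w : ℝ) (-(D (cuspPlace δ))) z))
        atImInfty (𝓝 L) := by
      refine (hlim.comp (tendsto_vadd_atImInfty (w : ℝ))).congr fun z => ?_
      rw [Function.comp_apply, qPow_shift (cuspWidth_cast_pos δ).ne', ← mul_assoc, ← hc P]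
      congr 2
      show δ • ((w : ℝ) +ᵥ z) = (δ * ModularGroup.T ^ (w : ℤ) * δ⁻¹) • (δ • z)
      exact_mod_cast shift_smul δ (w : ℤ) z
    exact Units.ext ((mul_eq_right₀ hL).mp (tendsto_nhds_unique (hlim.const_mul _) h1))
  have hmem : δ * ModularGroup.T ^ m * δ⁻¹ ∈ Gamma0 N := by
    rcases hδ with h | h
    · exact h ▸ γ.2
    · have h2 : -(γ : SL(2, ℤ)) ∈ Gamma0 N := by
        have := γ.2; rw [Gamma0_mem] at this ⊢; simp [this]
      rwa [h, neg_neg] at h2
  have hdvd : (w : ℤ) ∣ m := by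
    rw [Int.dvd_iff_emod_eq_zero]
    by_contra hne
    have hr0 : 0 ≤ m % (w : ℤ) := Int.emod_nonneg _ (by exact_mod_cast hw.1.ne')
    have hr1 : m % (w : ℤ) < w := Int.emod_lt_of_pos _ (by exact_mod_cast hw.1)
    have hr : δ * ModularGroup.T ^ (m % (w : ℤ)) * δ⁻¹ ∈ Gamma0 N := by
      have := mul_mem hmem (zpow_mem hw.2 (-(m / (w : ℤ))))
      rw [conj_zpow, ← zpow_mul] at this
      convert this using 1
      rw [Int.emod_def, show m - (w : ℤ) * (m / w) = m + (w : ℤ) * -(m / w) by ring, zpow_add]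
      simp only [w]
      group
    have hle : w ≤ (m % (w : ℤ)).toNat := Nat.sInf_le ⟨by omega, by
      rwa [Int.toNat_of_nonneg hr0]⟩
    omega
  obtain ⟨j, rfl⟩ := hdvd
  have hγP : ∀ z, f ((γ : SL(2, ℤ)) • z) = f (((P ^ j : Gamma0 N) : SL(2, ℤ)) • z) := fun z => by
    have e : ((P ^ j : Gamma0 N) : SL(2, ℤ)) = δ * ModularGroup.T ^ ((w : ℤ) * j) * δ⁻¹ := by
      rw [SubgroupClass.coe_zpow, show (P : SL(2, ℤ)) = δ * ModularGroup.T ^ (w : ℤ) * δ⁻¹ from rfl,
        conj_zpow, ← zpow_mul]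
    rcases hδ with h | h
    · rw [e, ← h]
    · rw [e, h, ModularGroup.SL_neg_smul]
  refine Units.ext (eq_one_of_eq_mul hf fun z => ?_)
  rw [← hc γ, hγP, hc, map_zpow, hP, one_zpow, Units.val_one, one_mul]

/-- The leading term at a fixed point. -/
theorem den_zpow_eq_inv {γ : SL(2, ℤ)} {z : ℍ} {a : ℂ} (hf : ∀ w : ℍ, f (γ • w) = a * f w)
    (hz : γ • z = z) (hmero : MeromorphicAt (f ∘ ofComplex) (z : ℂ)) {n : ℤ}
    (hn : meromorphicOrderAt (f ∘ ofComplex) (z : ℂ) = n) :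
    a * ModularPlaces.den γ (z : ℂ) ^ (2 * n) = 1 := by
  obtain ⟨u, hu, hu0, hfu⟩ := (meromorphicOrderAt_eq_int_iff hmero).mp hn
  have hd := ModularPlaces.den_ne_zero γ z.im_pos
  have hfix : ModularPlaces.mob γ z = z := by rw [← ModularPlaces.coe_smul_eq_mob, hz]
  have hm : Tendsto (ModularPlaces.mob γ) (𝓝[≠] (z : ℂ)) (𝓝[≠] (z : ℂ)) := by
    refine tendsto_nhdsWithin_iff.mpr ⟨?_, ?_⟩
    · have := (ModularPlaces.analyticAt_mob γ hd).continuousAt.tendsto
      rw [hfix] at this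
      exact this.mono_left nhdsWithin_le_nhds
    · filter_upwards [self_mem_nhdsWithin, nhdsWithin_le_nhds
        ((isOpen_lt continuous_const Complex.continuous_im).mem_nhds z.im_pos)] with w hw hwi h
      have h2 := ModularPlaces.mob_sub_mob γ (ModularPlaces.den_ne_zero γ hwi) hd
      rw [hfix, (h : ModularPlaces.mob γ w = z), sub_self] at h2
      exact hw (sub_eq_zero.mp ((div_eq_zero_iff.mp h2.symm).resolve_right
        (mul_ne_zero (ModularPlaces.den_ne_zero γ hwi) hd)))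
  have key : ∀ᶠ w in 𝓝[≠] (z : ℂ),
      a * (u w * (ModularPlaces.den γ w * ModularPlaces.den γ z) ^ n)
        = u (ModularPlaces.mob γ w) := by
    filter_upwards [hfu, hm.eventually hfu, self_mem_nhdsWithin, nhdsWithin_le_nhds
        ((isOpen_lt continuous_const Complex.continuous_im).mem_nhds z.im_pos),
      nhdsWithin_le_nhds (ModularPlaces.eventuallyEq_smul_comp_ofComplex f γ z)]
      with w h1 h2 hw hwi h3
    simp only [Function.comp_apply, hf] at h1 h2 h3
    have hden := mul_ne_zero (ModularPlaces.den_ne_zero γ hwi) hd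
    have h5 := ModularPlaces.mob_sub_mob γ (ModularPlaces.den_ne_zero γ hwi) hd
    rw [hfix] at h5
    rw [smul_eq_mul] at h1 h2
    rw [h2, h1, h5, div_zpow] at h3
    have hwz : (w - z) ^ n ≠ 0 := zpow_ne_zero n (sub_ne_zero.mpr hw)
    have hdn : (ModularPlaces.den γ w * ModularPlaces.den γ z) ^ n ≠ 0 := zpow_ne_zero n hden
    field_simp at h3
    linear_combination h3
  have hc1 : Tendsto (fun w => a * (u w * (ModularPlaces.den γ w * ModularPlaces.den γ z) ^ n))
      (𝓝[≠] (z : ℂ)) (𝓝 (a * (u z * (ModularPlaces.den γ z * ModularPlaces.den γ z) ^ n))) :=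
    (((hu.continuousAt.mul (((ModularPlaces.analyticAt_den γ z).continuousAt.mul
      continuousAt_const).zpow₀ n (Or.inl (mul_ne_zero hd hd)))).tendsto).const_mul a).mono_left
      nhdsWithin_le_nhds
  have hc2 : Tendsto (fun w => u (ModularPlaces.mob γ w)) (𝓝[≠] (z : ℂ)) (𝓝 (u z)) :=
    hu.continuousAt.tendsto.comp (hm.mono_right nhdsWithin_le_nhds)
  have h := tendsto_nhds_unique (hc1.congr' key) hc2
  rw [zpow_mul, zpow_two]
  refine mul_left_cancel₀ hu0 ?_
  linear_combination h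

/-- The stabiliser character on `Γ₀(N)`. -/
def stabDen (z : ℍ) : MulAction.stabilizer (Gamma0 N) z →* ℂ :=
  (ModularPlaces.denHom z).comp
    { toFun := fun γ => ⟨((γ : Gamma0 N) : SL(2, ℤ)), γ.2⟩
      map_one' := rfl
      map_mul' := fun _ _ => rfl }

theorem stabDen_injective (z : ℍ) : Function.Injective (stabDen (N := N) z) := fun _ _ h =>
  Subtype.ext (Subtype.ext (congrArg (fun x : MulAction.stabilizer SL(2, ℤ) z => (x : SL(2, ℤ)))
    (ModularPlaces.denHom_injective z h)))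

theorem finite_stab (z : ℍ) : Finite (MulAction.stabilizer (Gamma0 N) z) :=
  have := ModularPlaces.finite_stabilizer z
  Finite.of_injective
    (fun γ : MulAction.stabilizer (Gamma0 N) z =>
      (⟨((γ : Gamma0 N) : SL(2, ℤ)), γ.2⟩ : MulAction.stabilizer SL(2, ℤ) z))
    fun _ _ h => Subtype.ext (Subtype.ext
      (congrArg (fun x : MulAction.stabilizer SL(2, ℤ) z => (x : SL(2, ℤ))) h))

theorem den_pow_eq_one (z : ℍ) {γ : Gamma0 N} (hγ : (γ : SL(2, ℤ)) • z = z) :
    ModularPlaces.den (γ : SL(2, ℤ)) (z : ℂ) ^ (2 * ellOrder N z) = 1 := by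
  have := finite_stab (N := N) z
  let g : MulAction.stabilizer (Gamma0 N) z := ⟨γ, hγ⟩
  have h1 : g ^ Nat.card (MulAction.stabilizer (Gamma0 N) z) = 1 := pow_card_eq_one'
  have h3 : Nat.card (MulAction.stabilizer (Gamma0 N) z) = 2 * ellOrder N z :=
    ModularPlaces.card_fixed_eq N z
  rw [← h3]
  have h2 := congrArg (stabDen z) h1
  rwa [map_pow, map_one] at h2

theorem exists_fixed_of_isOfFinOrder {γ : SL(2, ℤ)} (h : IsOfFinOrder γ) :
    ∃ z : ℍ, γ • z = z := by
  have hS : ModularGroup.S • UpperHalfPlane.I = UpperHalfPlane.I := by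
    apply UpperHalfPlane.ext
    rw [ModularPlaces.coe_smul_eq_mob]
    simp [ModularPlaces.mob, ModularGroup.coe_S]
  obtain ⟨ρ, hρ⟩ : ∃ ρ : ℍ, Period.genU • ρ = ρ := by
    refine ⟨⟨1 / 2 + Complex.I * (Real.sqrt 3 / 2 : ℝ), by simp⟩, ?_⟩
    apply UpperHalfPlane.ext
    rw [ModularPlaces.coe_smul_eq_mob]
    have h3 : ((Real.sqrt 3 : ℝ) : ℂ) ^ 2 = 3 := by
      rw [← Complex.ofReal_pow, Real.sq_sqrt (by norm_num)]; norm_num
    set ρ : ℂ := 1 / 2 + Complex.I * ((Real.sqrt 3 / 2 : ℝ) : ℂ) with hρ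
    have hq : ρ * ρ = ρ - 1 := by
      rw [hρ]; push_cast; linear_combination (Complex.I ^ 2 / 4) * h3 + (3 / 4 : ℂ) * Complex.I_sq
    have hne : ρ ≠ 0 := fun h0 => by rw [h0] at hq; norm_num at hq
    show ModularPlaces.mob Period.genU ρ = ρ
    simp only [ModularPlaces.mob, Period.coe_genU]
    simp
    field_simp
    linear_combination -hq
  obtain ⟨δ, g, hg, he⟩ := Period.exists_conj_of_isOfFinOrder h
  obtain ⟨z, hz⟩ : ∃ z : ℍ, g • z = z := by
    rcases hg with rfl | rfl | rfl | rfl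
    · exact ⟨UpperHalfPlane.I, one_smul _ _⟩
    · exact ⟨_, hS⟩
    · exact ⟨ρ, hρ⟩
    · exact ⟨ρ, by rw [pow_two, mul_smul, hρ, hρ]⟩
  refine ⟨δ • z, ?_⟩
  rcases he with rfl | rfl <;>
    simp [mul_smul, inv_smul_smul, hz]

/-- The multiplier of an element of finite order is trivial. -/
theorem HasDivisor.multiplier_finOrder (hf : HasDivisor N f D) {c : Gamma0 N →* ℂˣ}
    (hc : ∀ (γ : Gamma0 N) (z : ℍ), f ((γ : SL(2, ℤ)) • z) = (c γ : ℂ) * f z) (γ : Gamma0 N)
    (hγ : IsOfFinOrder γ) : c γ = 1 := by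
  obtain ⟨z, hz⟩ := exists_fixed_of_isOfFinOrder ((Gamma0 N).subtype.isOfFinOrder hγ)
  have h1 := den_zpow_eq_inv (hc γ) hz (hf.mero.meromorphicAt z) (hf.order z)
  rw [← mul_assoc, zpow_mul, show (2 : ℤ) * (ellOrder N z : ℤ) = ((2 * ellOrder N z : ℕ) : ℤ) by
    push_cast; rfl, zpow_natCast] at h1
  have h2 : ModularPlaces.den (γ : SL(2, ℤ)) (z : ℂ) ^ (2 * ellOrder N z) = 1 :=
    den_pow_eq_one z hz
  erw [h2] at h1
  rw [one_zpow, mul_one] at h1
  exact Units.ext h1

theorem isModFun_pow (hf : HasDivisor N f D) {c : Gamma0 N →* ℂˣ}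
    (hc : ∀ (γ : Gamma0 N) (z : ℍ), f ((γ : SL(2, ℤ)) • z) = (c γ : ℂ) * f z) {n : ℕ}
    (hcn : ∀ γ, c γ ^ n = 1) : IsModFun N (f ^ n) where
  mero := (hf.pow n).mero
  meroCusp := (hf.pow n).meroCusp
  smul γ z := by
    rw [Pi.pow_apply, Pi.pow_apply, hc, mul_pow, ← Units.val_pow_eq_pow_val, hcn, Units.val_one,
      one_mul]

/-- Same divisor implies proportional. -/
theorem eq_const_mul_of_hasDivisor {f' : ℍ → ℂ} (hf : HasDivisor N f D) (hf' : HasDivisor N f' D)
    {c c' : Gamma0 N →* ℂˣ} (hc : IsMult N f c) (hc' : IsMult N f' c') {n : ℕ} (hn : n ≠ 0)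
    (hcn : ∀ γ, c γ ^ n = 1) (hcn' : ∀ γ, c' γ ^ n = 1) :
    ∃ a : ℂ, a ≠ 0 ∧ ∀ z, f z = a * f' z := by
  obtain ⟨y, hy⟩ := exists_eq_ev (isModFun_pow hf hc.smul hcn)
  obtain ⟨y', hy'⟩ := exists_eq_ev (isModFun_pow hf' hc'.smul hcn')
  have hne : ∀ (g : ℍ → ℂ) (x : FC N), HasDivisor N g D → ev (x : LaurentSeries ℂ) = g ^ n →
      x ≠ 0 ∧ ∀ v, (n • D) v = v.ord x := by
    intro g x hg hx
    have hx0 : x ≠ 0 := by
      rintro rfl
      rw [ZeroMemClass.coe_zero, ev_zero'] at hx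
      refine (hg.pow n).order_ne_top UpperHalfPlane.I ?_
      rw [← hx]
      exact meromorphicOrderAt_eq_top_iff.mpr (Eventually.of_forall fun _ => rfl)
    refine ⟨hx0, fun v => ?_⟩
    have h1 := hasDivisor_ev (D := FF.divisorOf x) hx0 fun v => FF.divisorOf_apply x v
    rw [hx] at h1
    rw [(hg.pow n).unique h1, FF.divisorOf_apply]
  obtain ⟨hy0, hyd⟩ := hne f y hf hy
  obtain ⟨hy0', hyd'⟩ := hne f' y' hf' hy'
  obtain ⟨a, ha⟩ := FF.mem_range_of_forall_ord_nonneg (K := ℂ) (f := y / y') fun v => by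
    rw [FF.ord_div v hy0 hy0', ← hyd, ← hyd', sub_self]
  have ha0 : a ≠ 0 := by
    rintro rfl; rw [map_zero] at ha; exact div_ne_zero hy0 hy0' ha.symm
  obtain ⟨a₀, ha₀⟩ := IsAlgClosed.exists_pow_nat_eq a (Nat.pos_of_ne_zero hn)
  have ha₀0 : a₀ ≠ 0 := fun h => ha0 (by rw [← ha₀, h, zero_pow hn])
  have heq : EqOffDiscrete (f ^ n) ((fun z => a₀ * f' z) ^ n) := by
    intro z
    have hyy : y = algebraMap ℂ (FC N) a * y' := by rw [ha, div_mul_cancel₀ _ hy0']
    have h1 := ev_mul_eventuallyEq (algebraMap ℂ (FC N) a) y' z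
    rw [← hyy, hy, hy', ev_algebraMap_apply] at h1
    refine h1.trans (Eventually.of_forall fun w => ?_)
    simp [mul_pow, ha₀]
  obtain ⟨ζ, hζ, h⟩ := exists_eq_const_mul_of_pow_eq hf.mero (isMero_const_mul hf'.mero ha₀0)
    (hf'.const_mul ha₀0).order_ne_top hn heq
  exact ⟨ζ * a₀, mul_ne_zero (fun h => by simp [h, zero_pow hn] at hζ) ha₀0,
    fun z => by rw [h z, mul_assoc]⟩

/-- A multiplier function whose finite order multiplier kills parabolic and finite order elements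
has a divisor. -/
theorem exists_hasDivisor_of_isMult {c : Gamma0 N →* ℂˣ} (hf : IsMult N f c) {n : ℕ} (hn : n ≠ 0)
    (hcn : ∀ γ, c γ ^ n = 1)
    (hpar : ∀ γ : Gamma0 N, ((γ : SL(2, ℤ)) : Matrix (Fin 2) (Fin 2) ℤ).trace ^ 2 = 4 → c γ = 1)
    (hfin : ∀ γ : Gamma0 N, IsOfFinOrder γ → c γ = 1) :
    ∃ D : Divisor ℂ (FC N), HasDivisor N f D ∧
      ∃ y : FC N, y ≠ 0 ∧ ∀ v, (n • D) v = v.ord y := by
  have hmod : IsModFun N (f ^ n) :=
    { mero := isMero_pow hf.mero n
      meroCusp := fun γ => by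
        obtain ⟨m, hm⟩ := hf.meroCusp γ
        obtain ⟨M, A, hMA⟩ := isBoundedAtImInfty_iff.mp hm
        refine ⟨n * m, isBoundedAtImInfty_iff.mpr ⟨M ^ n, A, fun z hz => ?_⟩⟩
        rw [Nat.cast_mul, qPow_natCast_mul, Pi.pow_apply, ← mul_pow, norm_pow]
        exact pow_le_pow_left₀ (norm_nonneg _) (hMA z hz) n
      smul := fun γ z => by
        rw [Pi.pow_apply, Pi.pow_apply, hf.smul, mul_pow, ← Units.val_pow_eq_pow_val, hcn,
          Units.val_one, one_mul] }
  obtain ⟨y, hy⟩ := exists_eq_ev hmod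
  obtain ⟨z₀, hz₀⟩ := hf.nonzero
  have hne : ∀ z : ℍ, meromorphicOrderAt (f ∘ ofComplex) (z : ℂ) ≠ ⊤ :=
    fun z => hf.mero.raw.order_ne_top hz₀ z
  have hpow : ∀ z : ℍ, meromorphicOrderAt ((f ^ n) ∘ ofComplex) (z : ℂ) =
      n * meromorphicOrderAt (f ∘ ofComplex) (z : ℂ) := fun z =>
    meromorphicOrderAt_pow (f := f ∘ ofComplex) (hf.mero.meromorphicAt z)
  have hy0 : y ≠ 0 := by
    rintro rfl
    rw [ZeroMemClass.coe_zero, ev_zero'] at hy
    obtain ⟨k, hk⟩ := WithTop.ne_top_iff_exists.mp hz₀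
    have h1 := hpow z₀
    have htop : meromorphicOrderAt ((fun _ : ℍ => (0 : ℂ)) ∘ ofComplex) (z₀ : ℂ) = ⊤ :=
      meromorphicOrderAt_eq_top_iff.mpr (Eventually.of_forall fun _ => rfl)
    rw [← hy, ← hk, htop, ← WithTop.coe_natCast, ← WithTop.coe_mul] at h1
    exact WithTop.top_ne_coe h1
  have hDy := hasDivisor_ev (D := FF.divisorOf y) hy0 fun v => FF.divisorOf_apply y v
  rw [hy] at hDy
  have hellip : ∀ z : ℍ, ∃ k : ℤ, meromorphicOrderAt (f ∘ ofComplex) (z : ℂ) =
      (((ellOrder N z : ℤ) * k : ℤ) : WithTop ℤ) ∧ (placeOf z).ord y = n * k := by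
    intro z
    obtain ⟨m, hm⟩ := WithTop.ne_top_iff_exists.mp (hne z)
    have := finite_stab (N := N) z
    have : IsCyclic (MulAction.stabilizer (Gamma0 N) z) :=
      isCyclic_of_injective_ringHom (stabDen z) (stabDen_injective z)
    obtain ⟨g, hg⟩ := IsCyclic.exists_ofOrder_eq_natCard
      (α := MulAction.stabilizer (Gamma0 N) z)
    have hg1 : c (g : Gamma0 N) = 1 := hfin _ (by
      have := isOfFinOrder_of_finite g
      exact (MulAction.stabilizer (Gamma0 N) z).subtype.isOfFinOrder this)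
    have h1 := den_zpow_eq_inv (hf.smul (g : Gamma0 N)) g.2 (hf.mero.meromorphicAt z) hm.symm
    rw [hg1, Units.val_one, one_mul] at h1
    have hu : (Units.map (stabDen z) (toUnits g) : ℂˣ) ^ (2 * m) = 1 := Units.ext (by
      rw [Units.val_zpow_eq_zpow_val]; exact h1)
    have h2 := orderOf_dvd_iff_zpow_eq_one.mpr hu
    rw [← orderOf_units, Units.coe_map, val_toUnits_apply,
      orderOf_injective _ (stabDen_injective z), hg] at h2
    erw [ModularPlaces.card_fixed_eq N z] at h2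
    rw [Nat.cast_mul, Nat.cast_ofNat] at h2
    obtain ⟨k, hk⟩ := (mul_dvd_mul_iff_left (by norm_num : (2 : ℤ) ≠ 0)).mp h2
    refine ⟨k, by rw [← hm, hk], ?_⟩
    have h3 := hDy.order z
    rw [hpow, ← hm, FF.divisorOf_apply, hk, ← WithTop.coe_natCast, ← WithTop.coe_mul,
      WithTop.coe_inj] at h3
    refine mul_left_cancel₀ (b := (placeOf z).ord y) (a := (ellOrder N z : ℤ))
      (by exact_mod_cast (ModularPlaces.ellOrder_pos N z).ne') ?_
    linear_combination -h3
  have hcusp : ∀ γ : SL(2, ℤ), ∃ k : ℤ, (cuspPlace γ).ord y = n * k ∧ ∃ L : ℂ, L ≠ 0 ∧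
      Tendsto (fun z : ℍ => f (γ • z) * qPow (cuspWidth N γ : ℝ) (-k) z) atImInfty (𝓝 L) := by
    intro γ
    set w : ℝ := (cuspWidth N γ : ℝ)
    have hw : w ≠ 0 := (cuspWidth_cast_pos γ).ne'
    set k := (cuspPlace γ).ord y
    obtain ⟨L, hL, hlim⟩ := ord_cuspPlace γ hy0
    have hlim' : Tendsto (fun z : ℍ => (f ^ n) (γ • z) * qPow w (-k) z) atImInfty (𝓝 L) := by
      rw [← hy]; exact hlim
    let E : ℂ → ℂ := fun x => Complex.exp (-(2 * Real.pi * Complex.I * k * x) / (n * w))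
    let v : ℍ → ℂ := fun z => f (γ • z) * E (z : ℂ)
    have han : ∀ᶠ z : ℍ in atImInfty,
        ContinuousAt (v ∘ ofComplex) (z : ℂ) := by
      filter_upwards [ModularDiff.eventually_analyticAt_of_tendsto
        (T := fun z => (f ^ n) (γ • z)) ((isMero_pow hf.mero n).comp_sl γ) hlim'] with z hz
      have h1 : AnalyticAt ℂ ((fun z => f (γ • z)) ∘ ofComplex) (z : ℂ) := by
        rw [← (hf.mero.comp_sl γ z).meromorphicOrderAt_nonneg_iff_analyticAt,
          ModularPlaces.meromorphicOrderAt_smul f γ z]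
        have h2 := hz.meromorphicOrderAt_nonneg
        rw [ModularPlaces.meromorphicOrderAt_smul (f ^ n) γ z, hpow] at h2
        obtain ⟨j, hj⟩ := WithTop.ne_top_iff_exists.mp (hne (γ • z))
        rw [← hj, ← WithTop.coe_natCast, ← WithTop.coe_mul, ← WithTop.coe_zero, WithTop.coe_le_coe]
          at h2
        rw [← hj, ← WithTop.coe_zero, WithTop.coe_le_coe]
        by_contra hlt
        have : (n : ℤ) * j < 0 :=
          mul_neg_of_pos_of_neg (by exact_mod_cast Nat.pos_of_ne_zero hn) (not_le.mp hlt)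
        omega
      refine (h1.continuousAt.mul (g := E) (by fun_prop)).congr ?_
      filter_upwards [isOpen_upperHalfPlaneSet.mem_nhds z.im_pos] with x hx
      simp [v, ofComplex_apply_of_im_pos hx]
    have hvn : ∀ z, v z ^ n = (f ^ n) (γ • z) * qPow w (-k) z := by
      intro z
      have hwC : (w : ℂ) ≠ 0 := by exact_mod_cast hw
      simp only [v, E, mul_pow, Pi.pow_apply, qPow, ← Complex.exp_nat_mul]
      congr 2
      push_cast
      field_simp
    have hshift : ∀ z, v (w +ᵥ z) =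
        Complex.exp (-(2 * Real.pi * Complex.I * k) / n) * v z := by
      intro z
      have hwC : (w : ℂ) ≠ 0 := by exact_mod_cast hw
      have hs := ModularPlaces.cuspWidth_spec (N := N) γ
      have h1 : f (γ • (w +ᵥ z)) = f (γ • z) := by
        rw [show w = (((cuspWidth N γ : ℕ) : ℤ) : ℝ) by simp [w], shift_smul,
          hf.smul ⟨_, hs.2⟩]
        have : c ⟨_, hs.2⟩ = 1 := hpar _ (by
          show ((γ * ModularGroup.T ^ (cuspWidth N γ : ℤ) * γ⁻¹ : SL(2, ℤ)) :
            Matrix (Fin 2) (Fin 2) ℤ).trace ^ 2 = 4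
          rw [Matrix.SpecialLinearGroup.coe_mul, Matrix.SpecialLinearGroup.coe_mul,
            Matrix.trace_mul_cycle, ← Matrix.SpecialLinearGroup.coe_mul, inv_mul_cancel,
            Matrix.SpecialLinearGroup.coe_one, one_mul, ModularGroup.coe_T_zpow]
          simp [Matrix.trace_fin_two])
        rw [this, Units.val_one, one_mul]
      simp only [v, E, h1, coe_vadd]
      rw [mul_left_comm, ← Complex.exp_add]
      congr 2
      field_simp
      ring
    obtain ⟨hζ, L', hL', hvlim⟩ := eq_one_and_tendsto_of_pow_tendsto hn han hL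
      (hlim'.congr fun z => (hvn z).symm) hshift
    obtain ⟨j, hj⟩ := Complex.exp_eq_one_iff.mp hζ
    have hk : k = n * (-j) := by
      have hnC : (n : ℂ) ≠ 0 := Nat.cast_ne_zero.mpr hn
      rw [div_eq_iff hnC] at hj
      have h2 : (2 * Real.pi * Complex.I) * ((k : ℂ) + n * j) = 0 := by linear_combination -hj
      have h3 : (k : ℂ) = ((n * -j : ℤ) : ℂ) := by
        push_cast
        linear_combination (mul_eq_zero.mp h2).resolve_left Complex.two_pi_I_ne_zero
      exact_mod_cast h3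
    refine ⟨-j, hk, L', hL', hvlim.congr fun z => ?_⟩
    have hwC : (w : ℂ) ≠ 0 := by exact_mod_cast hw
    have hnC : (n : ℂ) ≠ 0 := Nat.cast_ne_zero.mpr hn
    simp only [v, E, qPow, hk]
    congr 2
    push_cast
    field_simp
  have hdvd : ∀ v : Place ℂ (FC N), (n : ℤ) ∣ v.ord y := by
    intro v
    rcases place_exhaustive v with ⟨z, rfl⟩ | ⟨γ, rfl⟩
    · exact ⟨_, (hellip z).choose_spec.2⟩
    · exact ⟨_, (hcusp γ).choose_spec.1⟩
  let D : Divisor ℂ (FC N) := (FF.divisorOf y).mapRange (fun m => m / n) (by simp)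
  have hD : ∀ v, D v = v.ord y / n := fun v => by simp [D]
  have hn' : (n : ℤ) ≠ 0 := by exact_mod_cast hn
  refine ⟨D, ⟨hf.mero, fun z => ?_, fun γ => ?_⟩, y, hy0, fun v => ?_⟩
  · obtain ⟨k, hk1, hk2⟩ := hellip z
    rw [hk1, hD, hk2, Int.mul_ediv_cancel_left _ hn']
  · obtain ⟨k, hk, L, hL, hlim⟩ := hcusp γ
    rw [hD, hk, Int.mul_ediv_cancel_left _ hn']
    exact ⟨L, hL, hlim⟩
  · rw [Finsupp.smul_apply, hD, nsmul_eq_mul, Int.mul_ediv_cancel' (hdvd v)]

end Multipliers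

end FLTAgent.Torsion
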