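import Fermat.Agent.Torsion.Equiv

/-!
# Complex conjugation on the torsion of `J₀(N)`

The reflection `z ↦ -conj z` of `ℍ` (`mirror`, `mirrorFun`) realises complex conjugation on the
function field (`conjGal`), on the points and cusps, and on divisors of functions on `ℍ`
(`HasDivisor.mirrorFun`). `exists_complexConj` restricts conjugation to `ℚ̄` along an embedding,
and `jTorsionEquiv_conj` shows that it acts on `J₀(N)[n]` as minus `charInvolution`.
-/

set_option autoImplicit false
set_option linter.unusedSectionVars false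
set_option linter.style.haveILetI false

noncomputable section

open UpperHalfPlane CongruenceSubgroup Filter Topology AlgebraicCurve ModularCurve
open ModularCurve.Period
open scoped MatrixGroups ComplexConjugate

namespace FLTAgent.Torsion

open FLTAgent.Modular

variable {N : ℕ} [NeZero N]

/-- `z ↦ -conj z` on `ℍ`. -/
def mirror (z : ℍ) : ℍ := ⟨-conj (z : ℂ), by simpa using z.im_pos⟩

@[simp]
theorem coe_mirror (z : ℍ) : (mirror z : ℂ) = -conj (z : ℂ) := rfl

theorem mirror_mirror (z : ℍ) : mirror (mirror z) = z := by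
  apply UpperHalfPlane.ext
  simp

theorem mirror_smul (γ : SL(2, ℤ)) (z : ℍ) : mirror (γ • z) = jConjSL γ • mirror z := by
  apply UpperHalfPlane.ext
  rw [coe_mirror, ModularPlaces.coe_smul_eq_mob, ModularPlaces.coe_smul_eq_mob]
  simp [ModularPlaces.mob, jConjSL_coe, map_div₀]
  rw [← neg_div]
  congr 1
  ring

theorem im_mirror (z : ℍ) : (mirror z).im = z.im := by
  show (-conj (z : ℂ)).im = (z : ℂ).im
  simp

theorem tendsto_mirror : Tendsto mirror atImInfty atImInfty := by
  rw [atImInfty, tendsto_comap_iff]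
  exact tendsto_comap.congr fun w => (im_mirror w).symm

/-- `z ↦ conj (f (-conj z))`. -/
def mirrorFun (f : ℍ → ℂ) : ℍ → ℂ := fun z => conj (f (mirror z))

theorem mirrorFun_mirrorFun (f : ℍ → ℂ) : mirrorFun (mirrorFun f) = f := by
  funext z
  simp [mirrorFun, mirror_mirror]

section local_behaviour

theorem tendsto_negConj (a : ℂ) :
    Tendsto (fun w : ℂ => -conj w) (𝓝 (-conj a)) (𝓝 a) := by
  have h : ContinuousAt (fun w : ℂ => -conj w) (-conj a) :=
    (Complex.continuous_conj.neg).continuousAt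
  simpa using h.tendsto

theorem tendsto_negConj_ne (a : ℂ) :
    Tendsto (fun w : ℂ => -conj w) (𝓝[≠] (-conj a)) (𝓝[≠] a) := by
  refine tendsto_nhdsWithin_iff.mpr ⟨(tendsto_negConj a).mono_left nhdsWithin_le_nhds, ?_⟩
  filter_upwards [self_mem_nhdsWithin] with w hw h
  exact hw (by rw [← (h : -conj w = a)]; simp)

theorem analyticAt_conj_negConj {g : ℂ → ℂ} {a : ℂ} (hg : AnalyticAt ℂ g a) :
    AnalyticAt ℂ (fun w => conj (g (-conj w))) (-conj a) := by
  rw [Complex.analyticAt_iff_eventually_differentiableAt]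
  have hev := (tendsto_negConj a).eventually hg.eventually_analyticAt
  filter_upwards [hev] with w hw
  have h1 : DifferentiableAt ℂ (fun x => g (-x)) (conj w) :=
    hw.differentiableAt.comp (conj w) differentiableAt_id.neg
  have h2 := h1.conj_conj
  rw [Complex.conj_conj] at h2
  exact h2

theorem mirrorFun_comp_ofComplex (f : ℍ → ℂ) (z : ℍ) :
    mirrorFun f ∘ ofComplex =ᶠ[𝓝 (z : ℂ)] fun w => conj ((f ∘ ofComplex) (-conj w)) := by
  filter_upwards [isOpen_upperHalfPlaneSet.mem_nhds z.im_pos] with w hw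
  have hw' : 0 < (-conj w).im := by simpa using hw
  simp only [Function.comp_apply, mirrorFun, ofComplex_apply_of_im_pos hw,
    ofComplex_apply_of_im_pos hw']
  rfl

/-- A local expansion transported along `z ↦ -conj z`. -/
theorem conj_negConj_expansion (n : ℤ) (a w x : ℂ) (hb : a = -conj w) :
    conj (((-conj x) - w) ^ n * (1 : ℂ)) = (-1) ^ n * (x - a) ^ n := by
  rw [hb, mul_one, map_zpow₀, map_sub, map_neg, Complex.conj_conj, ← mul_zpow]
  congr 1
  ring

theorem isMero_mirrorFun {f : ℍ → ℂ} (hf : IsMero f) : IsMero (mirrorFun f) := by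
  intro z
  rw [meromorphicNFAt_congr (mirrorFun_comp_ofComplex f z)]
  have hz : (z : ℂ) = -conj (mirror z : ℂ) := by simp
  have ht : Tendsto (fun w : ℂ => -conj w) (𝓝 (z : ℂ)) (𝓝 (mirror z : ℂ)) := by
    rw [hz]; exact tendsto_negConj _
  rcases hf (mirror z) with h | ⟨n, g, hg, hg0, h⟩
  · refine Or.inl ?_
    filter_upwards [ht.eventually h] with w hw
    simp only [Pi.zero_apply] at hw ⊢
    rw [hw, map_zero]
  · refine Or.inr ⟨n, fun w => (-1) ^ n * conj (g (-conj w)),
      analyticAt_const.mul (by rw [hz]; exact analyticAt_conj_negConj hg), ?_, ?_⟩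
    · rw [hz]
      simpa [zpow_ne_zero] using hg0
    · filter_upwards [ht.eventually h] with w hw
      simp only [Pi.smul_apply', smul_eq_mul, Pi.pow_apply] at hw ⊢
      rw [hw, map_mul, ← mul_one ((-conj w - (mirror z : ℂ)) ^ n),
        conj_negConj_expansion n (z : ℂ) (mirror z : ℂ) w hz]
      ring

theorem meromorphicOrderAt_mirrorFun {f : ℍ → ℂ} (hf : IsMero f) (z : ℍ) :
    meromorphicOrderAt (mirrorFun f ∘ ofComplex) (z : ℂ) =
      meromorphicOrderAt (f ∘ ofComplex) (mirror z : ℂ) := by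
  rw [meromorphicOrderAt_congr ((mirrorFun_comp_ofComplex f z).filter_mono nhdsWithin_le_nhds)]
  have hz : (z : ℂ) = -conj (mirror z : ℂ) := by simp
  have ht : Tendsto (fun w : ℂ => -conj w) (𝓝[≠] (z : ℂ)) (𝓝[≠] (mirror z : ℂ)) := by
    rw [hz]; exact tendsto_negConj_ne _
  cases hn : meromorphicOrderAt (f ∘ ofComplex) (mirror z : ℂ) with
  | top =>
    rw [meromorphicOrderAt_eq_top_iff] at hn ⊢
    filter_upwards [ht.eventually hn] with w hw
    rw [hw, map_zero]
  | coe n =>
    obtain ⟨g, hg, hg0, h⟩ := (meromorphicOrderAt_eq_int_iff (hf.meromorphicAt _)).mp hn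
    have hmero : MeromorphicAt (fun w => conj ((f ∘ ofComplex) (-conj w))) (z : ℂ) :=
      MeromorphicAt.congr ((isMero_mirrorFun hf).meromorphicAt z)
        ((mirrorFun_comp_ofComplex f z).filter_mono nhdsWithin_le_nhds)
    rw [meromorphicOrderAt_eq_int_iff hmero]
    refine ⟨fun w => (-1) ^ n * conj (g (-conj w)),
      analyticAt_const.mul (by rw [hz]; exact analyticAt_conj_negConj hg), ?_, ?_⟩
    · rw [hz]
      simpa [zpow_ne_zero] using hg0
    · filter_upwards [ht.eventually h] with w hw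
      simp only [smul_eq_mul] at hw ⊢
      rw [hw, map_mul, ← mul_one ((-conj w - (mirror z : ℂ)) ^ n),
        conj_negConj_expansion n (z : ℂ) (mirror z : ℂ) w hz]
      ring

end local_behaviour

section cusps

theorem qPow_mirror (w : ℝ) (k : ℤ) (z : ℍ) : qPow w k (mirror z) = conj (qPow w k z) := by
  rw [qPow, qPow, ← Complex.exp_conj, coe_mirror]
  congr 1
  simp [map_div₀, map_mul, map_intCast, Complex.conj_ofReal, map_ofNat]

theorem jConjSL_mem_Gamma0_iff (A : SL(2, ℤ)) : jConjSL A ∈ Gamma0 N ↔ A ∈ Gamma0 N :=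
  ⟨fun h => by simpa [jConjSL_jConjSL] using jConjSL_mem_Gamma0 h, jConjSL_mem_Gamma0⟩

theorem jConjSL_T : jConjSL ModularGroup.T = ModularGroup.T⁻¹ := by
  ext i j
  fin_cases i <;> fin_cases j <;>
    simp [jConjSL_coe, jConjMat, ModularGroup.coe_T, Matrix.adjugate_fin_two]

theorem cuspWidth_jConjSL (γ : SL(2, ℤ)) : cuspWidth N (jConjSL γ) = cuspWidth N γ := by
  unfold cuspWidth
  congr 1
  ext w
  refine and_congr_right fun _ => ?_
  have h : jConjSL (γ * ModularGroup.T ^ (w : ℤ) * γ⁻¹) =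
      (jConjSL γ * ModularGroup.T ^ (w : ℤ) * (jConjSL γ)⁻¹)⁻¹ := by
    rw [map_mul, map_mul, map_inv, map_zpow, jConjSL_T]
    group
  rw [← inv_mem_iff, ← h, jConjSL_mem_Gamma0_iff]

theorem hasCuspOrder_mirrorFun {f : ℍ → ℂ} {γ : SL(2, ℤ)} {k : ℤ}
    (h : ModularPlaces.HasCuspOrder N γ f k) :
    ModularPlaces.HasCuspOrder N (jConjSL γ) (mirrorFun f) k := by
  obtain ⟨c, hc, hlim⟩ := h
  refine ⟨conj c, by simpa using hc, ?_⟩
  refine ((Complex.continuous_conj.tendsto c).comp (hlim.comp tendsto_mirror)).congr fun z => ?_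
  rw [cuspWidth_jConjSL, Function.comp_apply, Function.comp_apply, map_mul, qPow_mirror,
    Complex.conj_conj, mirrorFun, mirror_smul, jConjSL_jConjSL]

theorem ellOrder_mirror (z : ℍ) : ellOrder N (mirror z) = ellOrder N z := by
  unfold ellOrder
  congr 1
  refine Nat.card_congr
    { toFun := fun g => ⟨jConjGamma0 N g.1, ?_⟩
      invFun := fun g => ⟨jConjGamma0 N g.1, ?_⟩
      left_inv := fun g => Subtype.ext (jConjGamma0_jConjGamma0 N g.1)
      right_inv := fun g => Subtype.ext (jConjGamma0_jConjGamma0 N g.1) }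
  · have h := congrArg mirror g.2
    rw [mirror_smul, mirror_mirror] at h
    rwa [jConjGamma0_coe]
  · rw [jConjGamma0_coe, ← mirror_smul, g.2]

end cusps

section galois

/-- Complex conjugation as a `ℚ`-automorphism of `ℂ`. -/
def conjQ : ℂ ≃ₐ[ℚ] ℂ := Complex.conjAe.restrictScalars ℚ

/-- Complex conjugation as a semilinear automorphism of the function field. -/
def conjGal (N : ℕ) : SemilinearAut ℂ (FC N) :=
  arithmeticGalois (modularFunctionFieldFull N) conjQ

theorem hasQExp_mirrorFun {f : ℍ → ℂ} {y : LaurentSeries ℂ} (h : HasQExp 1 f y) :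
    HasQExp 1 (mirrorFun f) (coeffMap (conjQ : ℂ →+* ℂ) y) := by
  obtain ⟨C, hC⟩ := h
  refine ⟨C, fun z hz => ?_⟩
  have h1 : HasSum (fun k : ℤ => conj (y.coeff k * qPow 1 k (mirror z))) (conj (f (mirror z))) :=
    (hC (mirror z) (by rwa [im_mirror])).map (starRingEnd ℂ) Complex.continuous_conj
  refine h1.congr_fun fun k => ?_
  rw [map_mul, qPow_mirror, Complex.conj_conj]
  rfl

theorem ev_conjGal (y : FC N) :
    ev ((conjGal N • y : FC N) : LaurentSeries ℂ) = mirrorFun (ev (y : LaurentSeries ℂ)) :=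
  ev_eq_of_isMero (isMero_mirrorFun (isMero_ev y)) (hasQExp_mirrorFun (hasQExp_ev y))

theorem place_eq_of_ord {v w : Place ℂ (FC N)}
    (h : ∀ y : FC N, y ≠ 0 → v.ord y = w.ord y) : v = w := by
  refine Place.ext (SetLike.ext fun y => ?_)
  rw [FF.mem_iff, FF.mem_iff]
  rcases eq_or_ne y 0 with rfl | hy
  · simp
  · rw [h y hy]

theorem conjGal_smul_placeOf (z : ℍ) :
    conjGal N • (placeOf z : Place ℂ (FC N)) = placeOf (mirror z) := by
  refine place_eq_of_ord fun y hy => ?_
  obtain ⟨y₀, rfl⟩ : ∃ y₀, conjGal N • y₀ = y := ⟨(conjGal N)⁻¹ • y, smul_inv_smul _ _⟩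
  have hy₀ : y₀ ≠ 0 := fun h => hy (by rw [h, smul_zero])
  rw [SemilinearAut.ord_smul]
  refine mul_left_cancel₀ (a := (ellOrder N z : ℤ))
    (by exact_mod_cast (ModularPlaces.ellOrder_pos N z).ne') ?_
  conv_rhs => rw [← ellOrder_mirror z]
  rw [ord_placeOf z hy₀, ord_placeOf (mirror z) hy, ev_conjGal, ordH, ordH,
    meromorphicOrderAt_mirrorFun (isMero_ev y₀), mirror_mirror]

theorem conjGal_smul_cuspPlace (γ : SL(2, ℤ)) :
    conjGal N • (cuspPlace γ : Place ℂ (FC N)) = cuspPlace (jConjSL γ) := by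
  refine place_eq_of_ord fun y hy => ?_
  obtain ⟨y₀, rfl⟩ : ∃ y₀, conjGal N • y₀ = y := ⟨(conjGal N)⁻¹ • y, smul_inv_smul _ _⟩
  have hy₀ : y₀ ≠ 0 := fun h => hy (by rw [h, smul_zero])
  rw [SemilinearAut.ord_smul]
  have h1 := hasCuspOrder_mirrorFun
    (ord_cuspPlace γ hy₀ : ModularPlaces.HasCuspOrder N γ (ev (y₀ : LaurentSeries ℂ)) _)
  rw [← ev_conjGal] at h1
  exact ModularPlaces.HasCuspOrder.unique h1 (ord_cuspPlace (jConjSL γ) hy)

/-- The mirrored function has the conjugated divisor. -/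
theorem HasDivisor.mirrorFun {f : ℍ → ℂ} {D : Divisor ℂ (FC N)} (hf : HasDivisor N f D) :
    HasDivisor N (mirrorFun f) (conjGal N • D) where
  mero := isMero_mirrorFun hf.mero
  order z := by
    rw [meromorphicOrderAt_mirrorFun hf.mero, hf.order, ellOrder_mirror,
      ← SemilinearAut.divisor_smul_apply_smul (conjGal N) D (placeOf (mirror z)),
      conjGal_smul_placeOf, mirror_mirror]
  cusp γ := by
    have h := hasCuspOrder_mirrorFun (hf.cusp (jConjSL γ) :
      ModularPlaces.HasCuspOrder N (jConjSL γ) f (D (cuspPlace (jConjSL γ))))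
    rw [jConjSL_jConjSL, ← SemilinearAut.divisor_smul_apply_smul (conjGal N) D
      (cuspPlace (jConjSL γ)), conjGal_smul_cuspPlace, jConjSL_jConjSL] at h
    exact h

/-- Complex conjugation restricted to `ℚ̄` along an embedding. -/
theorem exists_complexConj (ι : Qb →+* ℂ) :
    ∃ σ : Qb ≃ₐ[ℚ] Qb, σ * σ = 1 ∧ ∀ a, ι (σ a) = starRingEnd ℂ (ι a) := by
  letI := ι.toAlgebra
  haveI : IsScalarTower ℚ Qb ℂ := IsScalarTower.of_algebraMap_eq fun q => (map_ratCast ι q).symm
  haveI : IsAlgClosure ℚ Qb := ⟨inferInstance, AlgebraicClosure.isAlgebraic ℚ⟩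
  haveI : Normal ℚ Qb := IsAlgClosure.normal ℚ Qb
  refine ⟨AlgEquiv.restrictNormal conjQ Qb, AlgEquiv.ext fun a => ι.injective ?_,
    fun a => AlgEquiv.restrictNormal_commutes conjQ Qb a⟩
  have h := AlgEquiv.restrictNormal_commutes conjQ Qb
  show algebraMap Qb ℂ _ = algebraMap Qb ℂ a
  rw [AlgEquiv.mul_apply, h, h]
  exact Complex.conj_conj _

set_option maxHeartbeats 1600000 in
/-- Complex conjugation is minus the involution `charInvolution`. -/
theorem jTorsionEquiv_conj (ι : Qb →+* ℂ) {n : ℕ} [NeZero n] (σ : Qb ≃ₐ[ℚ] Qb)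
    (hσ : ∀ a, ι (σ a) = starRingEnd ℂ (ι a))
    (x : Pic0.torsion Qb (modularFunctionFieldBar N) n) :
    (jTorsionEquiv N ι n (JZero.torsionGaloisRep N n σ x) : Additive (Gamma0 N) →+ ZMod n) =
      - ModularCurve.Period.charInvolution N (ZMod n) (ZMod n)
        (jTorsionEquiv N ι n x : Additive (Gamma0 N) →+ ZMod n) := by
  obtain ⟨D, f, hD, hf, hfD⟩ := exists_mult_rep (picExtTorsion ι n x)
  set φ := (jTorsionEquiv N ι n x : Additive (Gamma0 N) →+ ZMod n)
  set E : Divisor.degZero (K := ℂ) (F := FC N) := SemilinearAut.degZeroSMulHom (conjGal N) D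
  have hE : Pic0.mk E = picExt N ι (σ • (x : JZero N)) := by
    rw [picExt_smul ι σ conjQ (fun a => (hσ a).symm), galois_smul_pic0_def,
      ← coe_picExtTorsion ι x, ← hD, SemilinearAut.pic0_smul_mk]
    rfl
  have hEt : Pic0.mk E ∈ Pic0.torsion ℂ (FC N) n := by
    rw [hE, ← JZero.coe_torsionGaloisRep_apply, ← coe_picExtTorsion ι]; exact SetLike.coe_mem _
  have e : picExtTorsion ι n (JZero.torsionGaloisRep N n σ x) = ⟨Pic0.mk E, hEt⟩ :=
    Subtype.ext hE.symm
  rw [jTorsionEquiv_apply, e]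
  have hfE : HasDivisor N (mirrorFun f) (E : Divisor ℂ (FC N)) := hfD.mirrorFun
  refine torsionEquiv_eq hEt ⟨hfE.mero, hfE.meroCusp, ⟨UpperHalfPlane.I, hfE.order_ne_top _⟩,
    fun γ z => ?_⟩ hfE
  have h1 := hf.smul (jConjGamma0 N γ) (mirror z)
  rw [jConjGamma0_coe, ← mirror_smul] at h1
  simp only [mirrorFun]
  rw [h1, map_mul]
  congr 1
  rw [coe_expChar, coe_expChar, AddMonoidHom.neg_apply, charInvolution_apply, toMul_ofMul,
    AddChar.map_neg_eq_inv, Complex.inv_eq_conj]
  · rfl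
  · exact norm_expChar φ (jConjGamma0 N γ)

end galois

end FLTAgent.Torsion
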