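import Fermat.Agent.Torsion.EisDivisor
import Fermat.Agent.Period.Periods
import Fermat.Agent.ModularDiff.Genus

/-!
# Characters of `Γ₀(N)` as multipliers

For characters into `ℂˣ` trivial on parabolic and finite order elements (`KillsEll`):
* `KillsEll.exists_root`: `n`-th roots exist, as the group of such characters is `(ℂˣ)^rankH`;
* `KillsEll.hasMult`: each is the multiplier of a function with a divisor. Its absolute value is
  that of `exp` of the periods of a cusp form (`exists_re_periodMap_eq`, `exists_exp_primitive`),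
  and the unitary rest is handled by `exists_hasMult_of_unitary`.
-/

set_option autoImplicit false
set_option linter.unusedSectionVars false

noncomputable section

open UpperHalfPlane CongruenceSubgroup Filter Topology AlgebraicCurve ModularCurve
open scoped MatrixGroups

namespace FLTAgent.Torsion

open FLTAgent.Modular

variable {N : ℕ} [NeZero N]

/-- The character is trivial on parabolic elements and on elements of finite order. -/
def KillsEll (c : Gamma0 N →* ℂˣ) : Prop :=
  (∀ γ : Gamma0 N, ((γ : SL(2, ℤ)) : Matrix (Fin 2) (Fin 2) ℤ).trace ^ 2 = 4 → c γ = 1) ∧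
    ∀ γ : Gamma0 N, IsOfFinOrder γ → c γ = 1

/-- Such a character has an `n`-th root which is again one. -/
theorem KillsEll.exists_root {c : Gamma0 N →* ℂˣ} (hc : KillsEll c) {n : ℕ} (hn : n ≠ 0) :
    ∃ d : Gamma0 N →* ℂˣ, KillsEll d ∧ ∀ γ, d γ ^ n = c γ := by
  let φ : Period.H N ℤ (Additive ℂˣ) :=
    ⟨MonoidHom.toAdditive c, fun γ h => congrArg Additive.ofMul (hc.1 γ h),
      fun γ h => congrArg Additive.ofMul (hc.2 γ h)⟩
  have hroot : ∀ i : Fin (Period.rankH N), ∃ u : Additive ℂˣ,
      n • u = Period.evalEquiv N ℤ (Additive ℂˣ) φ i := by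
    intro i
    set a : ℂˣ := (Period.evalEquiv N ℤ (Additive ℂˣ) φ i).toMul
    obtain ⟨b, hb⟩ := IsAlgClosed.exists_pow_nat_eq (a : ℂ) (Nat.pos_of_ne_zero hn)
    have hb0 : b ≠ 0 := fun h => a.ne_zero (by rw [← hb, h, zero_pow hn])
    exact ⟨Additive.ofMul (Units.mk0 b hb0), congrArg Additive.ofMul
      (Units.ext (by simpa using hb) : Units.mk0 b hb0 ^ n = a)⟩
  choose u hu using hroot
  set ψ : Period.H N ℤ (Additive ℂˣ) := (Period.evalEquiv N ℤ (Additive ℂˣ)).symm u with hψ
  have he : n • ψ = φ := (Period.evalEquiv N ℤ (Additive ℂˣ)).injective (by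
    funext i
    rw [map_nsmul, hψ, LinearEquiv.apply_symm_apply]
    exact hu i)
  refine ⟨MonoidHom.toAdditive.symm (ψ : Additive (Gamma0 N) →+ Additive ℂˣ),
    ⟨fun γ h => ?_, fun γ h => ?_⟩, fun γ => ?_⟩
  · exact congrArg Additive.toMul (Period.H_parabolic ψ h)
  · exact congrArg Additive.toMul (Period.H_finOrder ψ h)
  · exact congrArg Additive.toMul (DFunLike.congr_fun (congrArg Subtype.val he) (Additive.ofMul γ))

/-- Every real character in `H` is the real part of a period map. -/
theorem exists_re_periodMap_eq (φ : Period.H N ℝ ℝ) :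
    ∃ P : CuspForm (Gamma0 N) 2, ∀ γ : Additive (Gamma0 N),
      (periodMap N P γ).re = (φ : Additive (Gamma0 N) →+ ℝ) γ := by
  have := Period.finiteDimensional_cuspForm_two (N := N)
  set g := Module.finrank ℂ (CuspForm (Gamma0 N) 2)
  let b := Module.finBasis ℂ (CuspForm (Gamma0 N) 2)
  let L : (Fin g → ℂ) →ₗ[ℝ] (Fin (Period.rankH N) → ℝ) :=
    { toFun := fun a i =>
        (Period.periodLinear N (b.equivFun.symm a) (Additive.ofMul (Period.gen N i))).re
      map_add' := fun x y => by
        funext i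
        simp only [map_add, AddMonoidHom.add_apply, Complex.add_re, Pi.add_apply]
      map_smul' := fun r x => by
        funext i
        rw [show r • x = (r : ℂ) • x from funext fun j => Complex.real_smul, map_smul, map_smul]
        simp }
  have hre : ∀ P : CuspForm (Gamma0 N) 2, ∃ ψ : Period.H N ℝ ℝ, ∀ γ,
      (ψ : Additive (Gamma0 N) →+ ℝ) γ = (periodMap N P γ).re := fun P =>
    ⟨⟨Complex.reAddGroupHom.comp (periodMap N P),
      fun γ h => by simp [(Period.periodMap_mem_H P).1 γ h],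
      fun γ h => by simp [(Period.periodMap_mem_H P).2 γ h]⟩, fun γ => rfl⟩
  have hinj : Function.Injective L := by
    rw [injective_iff_map_eq_zero]
    intro a ha
    obtain ⟨ψ, hψ⟩ := hre (b.equivFun.symm a)
    have h0 : ψ = 0 := (Period.evalEquiv N ℝ ℝ).injective (by
      funext i
      rw [map_zero, Period.evalEquiv_apply, hψ]
      exact congrFun ha i)
    have h1 := Period.eq_zero_of_re_periodMap_eq_zero (f := b.equivFun.symm a)
      fun γ => by rw [← hψ, h0]; rfl
    exact b.equivFun.symm.injective (h1.trans (map_zero _).symm)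
  have hdim : Module.finrank ℝ (Fin g → ℂ) = Module.finrank ℝ (Fin (Period.rankH N) → ℝ) := by
    rw [Module.finrank_pi_fintype, Module.finrank_fintype_fun_eq_card, Fintype.card_fin]
    simp only [Complex.finrank_real_complex, Finset.sum_const, Finset.card_univ, Fintype.card_fin,
      smul_eq_mul]
    have h1 := ModularDiff.finrank_cuspForm_eq_genusFormula N
    have h2 := Period.rankH_eq (N := N)
    have h3 : ((g * 2 : ℕ) : ℚ) = (Period.rankH N : ℚ) := by push_cast; rw [h2, ← h1]; ring
    exact_mod_cast h3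
  obtain ⟨a, ha⟩ := (LinearMap.injective_iff_surjective_of_finrank_eq_finrank hdim).1 hinj
    (Period.evalEquiv N ℝ ℝ φ)
  obtain ⟨ψ, hψ⟩ := hre (b.equivFun.symm a)
  have he : ψ = φ := (Period.evalEquiv N ℝ ℝ).injective (by
    funext i
    rw [Period.evalEquiv_apply, hψ]
    exact congrFun ha i)
  exact ⟨b.equivFun.symm a, fun γ => by rw [← hψ, he]⟩

/-- The exponential of a primitive of a cusp form. -/
theorem exists_exp_primitive (P : CuspForm (Gamma0 N) 2) :
    ∃ (u : ℍ → ℂ) (e : Gamma0 N →* ℂˣ), HasDivisor N u (0 : Divisor ℂ (FC N)) ∧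
      (∀ (γ : Gamma0 N) (z : ℍ), u ((γ : SL(2, ℤ)) • z) = (e γ : ℂ) * u z) ∧
      (∀ γ : Gamma0 N, (e γ : ℂ) = Complex.exp (periodMap N P (Additive.ofMul γ))) ∧ KillsEll e := by
  obtain ⟨F, hF⟩ := Period.exists_hasEquivariantPrimitive P
  let e : Gamma0 N →* ℂˣ := MonoidHom.toHomUnits
    { toFun := fun γ => Complex.exp (periodMap N P (Additive.ofMul γ))
      map_one' := by simp
      map_mul' := fun x y => by rw [ofMul_mul, map_add, Complex.exp_add] }
  have hFan : ∀ z : ℍ, AnalyticAt ℂ (F ∘ ofComplex) (z : ℂ) := fun z =>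
    DifferentiableOn.analyticAt (fun x hx => (hF.1 ⟨x, hx⟩).differentiableAt.differentiableWithinAt)
      (isOpen_upperHalfPlaneSet.mem_nhds z.im_pos)
  have hu : ∀ z : ℍ, AnalyticAt ℂ ((fun w => Complex.exp (F w)) ∘ ofComplex) (z : ℂ) :=
    fun z => (hFan z).cexp
  refine ⟨fun w => Complex.exp (F w), e, ⟨fun z => (hu z).meromorphicNFAt, fun z => ?_,
    fun δ => ?_⟩, fun γ z => ?_, fun γ => rfl, fun γ h => Units.ext ?_, fun γ h => Units.ext ?_⟩
  · rw [Finsupp.zero_apply, mul_zero, WithTop.coe_zero,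
      (hu z).meromorphicNFAt.meromorphicOrderAt_eq_zero_iff]
    exact Complex.exp_ne_zero _
  · obtain ⟨L, hL⟩ := hF.2.2.2 δ
    exact ⟨Complex.exp L, Complex.exp_ne_zero _, hL.cexp.congr fun z => by simp [qPow_zero]⟩
  · show Complex.exp _ = Complex.exp _ * Complex.exp _
    rw [← Complex.exp_add, Period.periodMap_eq_sub P hF.1 γ z, sub_add_cancel]
  · show Complex.exp _ = 1
    rw [(Period.periodMap_mem_H P).1 γ h, Complex.exp_zero]
  · show Complex.exp _ = 1
    rw [(Period.periodMap_mem_H P).2 γ h, Complex.exp_zero]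

/-- Every character killing parabolic and finite order elements is the multiplier of a function
with a divisor. -/
theorem KillsEll.hasMult {d : Gamma0 N →* ℂˣ} (hd : KillsEll d) :
    ∃ (h : ℍ → ℂ) (E : Divisor ℂ (FC N)), HasDivisor N h E ∧
      ∀ (γ : Gamma0 N) (z : ℍ), h ((γ : SL(2, ℤ)) • z) = (d γ : ℂ) * h z := by
  let φ : Period.H N ℝ ℝ :=
    ⟨{ toFun := fun x => Real.log ‖((d x.toMul : ℂˣ) : ℂ)‖
       map_zero' := by simp
       map_add' := fun x y => by
        rw [toMul_add, map_mul, Units.val_mul, norm_mul,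
          Real.log_mul (norm_ne_zero_iff.2 (d _).ne_zero) (norm_ne_zero_iff.2 (d _).ne_zero)] },
      fun γ h => by simp [hd.1 γ h], fun γ h => by simp [hd.2 γ h]⟩
  obtain ⟨P, hP⟩ := exists_re_periodMap_eq φ
  obtain ⟨u, e, hu, hue, he, hek⟩ := exists_exp_primitive P
  have hn : ∀ γ : Gamma0 N, ‖((d * e⁻¹) γ : ℂ)‖ = 1 := fun γ => by
    rw [MonoidHom.mul_apply, MonoidHom.inv_apply, Units.val_mul, Units.val_inv_eq_inv_val,
      norm_mul, norm_inv, he, Complex.norm_exp, hP]
    show ‖(d γ : ℂ)‖ * (Real.exp (Real.log ‖(d γ : ℂ)‖))⁻¹ = 1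
    have h0 : (0 : ℝ) < ‖(d γ : ℂ)‖ := norm_pos_iff.2 (d γ).ne_zero
    rw [Real.exp_log h0, mul_inv_cancel₀ h0.ne']
  obtain ⟨h₀, E₀, hh₀, hh₀d⟩ := exists_hasMult_of_unitary hn
    (fun γ h => by rw [MonoidHom.mul_apply, MonoidHom.inv_apply, hd.1 γ h, hek.1 γ h]; simp)
    (fun γ h => by rw [MonoidHom.mul_apply, MonoidHom.inv_apply, hd.2 γ h, hek.2 γ h]; simp)
  obtain ⟨hh, hhd⟩ := hasDivisor_mul hh₀ hu hh₀d hue
  rw [add_zero] at hh
  refine ⟨_, E₀, hh, fun γ z => ?_⟩
  rw [hhd γ z]
  simp [MonoidHom.mul_apply]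

end FLTAgent.Torsion
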