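import Fermat.Agent.Torsion.ConstExtVal

/-!
# Extension of constants of a function field: the extended place

For a place `v` of `F / K` with residue field `K` and an extension of constants `e : F →+* F'`,
`extPlace` is the place of `F' / L` whose order is the difference of the levels of numerator and
denominator (`ordExt`, see `ConstExtVal`). It extends `v` (`ord_extPlace`), has residue field `L`
(`hasResidue_extPlace`) and is the only place above `v` (`eq_extPlace`); a place of `F'` nontrivial
on `F` lies above one of `F` (`exists_place_below`).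
-/

set_option autoImplicit false

noncomputable section

open WithZero IsDedekindDomain AlgebraicCurve Submodule

namespace FLTAgent.Torsion

variable {K L F F' : Type*} [Field K] [Field L] [Field F] [Field F'] [Algebra K F] [Algebra L F']
variable {ι : K →+* L} {e : F →+* F'}

/-- `h` is of exact level `n`. -/
def IsLevel (L : Type*) {K F F' : Type*} [Field K] [Field L] [Field F] [Field F'] [Algebra K F]
    [Algebra L F'] (e : F →+* F') (v : Place K F) (h : F') (n : ℤ) : Prop :=
  h ∈ level L e v n ∧ h ∉ level L e v (n + 1)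

variable {v : Place K F}

theorem IsLevel.ne_zero {h : F'} {n : ℤ} (hh : IsLevel L e v h n) : h ≠ 0 := by
  rintro rfl
  exact hh.2 (zero_mem _)

theorem isLevel_map (he : IsConstExt ι e) {f : F} (hf : f ≠ 0) :
    IsLevel L e v (e f) (v.ord f) := by
  refine ⟨map_mem_level le_rfl, fun h => ?_⟩
  rcases he.mem_of_map_mem_span h with h | h
  · exact hf h
  · omega

theorem IsLevel.le_of_mem {h : F'} {m n : ℤ} (hn : IsLevel L e v h n)
    (hm : h ∈ level L e v m) : m ≤ n := by
  by_contra hlt
  exact hn.2 (level_anti (show n + 1 ≤ m by omega) hm)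

theorem exists_rep (he : IsConstExt ι e) (v : Place K F) {x : F'} (hx : x ≠ 0) :
    ∃ (a b : F') (m n : ℤ), IsLevel L e v a m ∧ IsLevel L e v b n ∧ x = a / b := by
  obtain ⟨a, ha, b, hb, hb0, rfl⟩ := he.generates x
  have ha0 : a ≠ 0 := left_ne_zero_of_mul (a := a) (b := b⁻¹) (by rwa [← div_eq_mul_inv])
  obtain ⟨m, hm⟩ := exists_level_eq (v := v) he ha ha0
  obtain ⟨n, hn⟩ := exists_level_eq (v := v) he hb hb0
  exact ⟨a, b, m, n, hm, hn, rfl⟩

theorem exists_ord_value (he : IsConstExt ι e) (v : Place K F) {x : F'} (hx : x ≠ 0) :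
    ∃ k : ℤ, ∃ (a b : F') (m n : ℤ),
      IsLevel L e v a m ∧ IsLevel L e v b n ∧ x = a / b ∧ k = m - n := by
  obtain ⟨a, b, m, n, ha, hb, h⟩ := exists_rep he v hx
  exact ⟨m - n, a, b, m, n, ha, hb, h, rfl⟩

open Classical in
/-- The order at the extended place. -/
def ordExt (he : IsConstExt ι e) (v : Place K F) (x : F') : ℤ :=
  if hx : x ≠ 0 then (exists_ord_value he v hx).choose else 0

theorem ordExt_eq (he : IsConstExt ι e) (hres : HasResidue v) {x a b : F'} {m n : ℤ}
    (ha : IsLevel L e v a m) (hb : IsLevel L e v b n) (hx : x = a / b) :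
    ordExt he v x = m - n := by
  have hx0 : x ≠ 0 := by rw [hx]; exact div_ne_zero ha.ne_zero hb.ne_zero
  rw [ordExt, dif_pos hx0]
  obtain ⟨c, d, p, q, hc, hd, hxe, hk⟩ := (exists_ord_value he v hx0).choose_spec
  have heq : a * d = c * b := by
    rw [hx] at hxe
    exact (div_eq_div_iff hb.ne_zero hd.ne_zero).mp hxe
  have e1 : IsLevel L e v (a * d) (m + q) := level_mul_exact he hres ha hd
  have e2 : IsLevel L e v (c * b) (p + n) := level_mul_exact he hres hc hb
  rw [heq] at e1
  have := level_unique e1 e2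
  linarith

theorem ordExt_mul (he : IsConstExt ι e) (hres : HasResidue v) {x y : F'} (hx : x ≠ 0)
    (hy : y ≠ 0) : ordExt he v (x * y) = ordExt he v x + ordExt he v y := by
  obtain ⟨a, b, m, n, ha, hb, rfl⟩ := exists_rep he v hx
  obtain ⟨c, d, p, q, hc, hd, rfl⟩ := exists_rep he v hy
  rw [ordExt_eq he hres ha hb rfl, ordExt_eq he hres hc hd rfl,
    ordExt_eq he hres (level_mul_exact he hres ha hc) (level_mul_exact he hres hb hd)
      (div_mul_div_comm a b c d)]
  ring

theorem ordExt_add (he : IsConstExt ι e) (hres : HasResidue v) {x y : F'} (hx : x ≠ 0)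
    (hy : y ≠ 0) (hxy : x + y ≠ 0) :
    min (ordExt he v x) (ordExt he v y) ≤ ordExt he v (x + y) := by
  obtain ⟨a, b, m, n, ha, hb, rfl⟩ := exists_rep he v hx
  obtain ⟨c, d, p, q, hc, hd, rfl⟩ := exists_rep he v hy
  have hsum : a / b + c / d = (a * d + b * c) / (b * d) :=
    div_add_div a c hb.ne_zero hd.ne_zero
  have hne : a * d + b * c ≠ 0 := by
    intro h; apply hxy; rw [hsum, h, zero_div]
  obtain ⟨r, hr⟩ := exists_level_eq (v := v) he
    (add_mem (level_le_span _ (mul_mem_level ha.1 hd.1))
      (level_le_span _ (mul_mem_level hb.1 hc.1))) hne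
  have hle : min (m + q) (n + p) ≤ r := IsLevel.le_of_mem hr
    (add_mem (level_anti (min_le_left _ _) (mul_mem_level ha.1 hd.1))
      (level_anti (min_le_right _ _) (mul_mem_level hb.1 hc.1)))
  rw [hsum, ordExt_eq he hres ha hb rfl, ordExt_eq he hres hc hd rfl,
    ordExt_eq he hres hr (level_mul_exact he hres hb hd) rfl]
  omega

theorem ordExt_map (he : IsConstExt ι e) (hres : HasResidue v) (f : F) :
    ordExt he v (e f) = v.ord f := by
  rcases eq_or_ne f 0 with rfl | hf
  · simp [ordExt]
  rw [ordExt_eq he hres (isLevel_map he hf) (isLevel_map he one_ne_zero) (by simp)]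
  simp

theorem ordExt_algebraMap (he : IsConstExt ι e) (hres : HasResidue v) (a : L) :
    ordExt he v (algebraMap L F' a) = 0 := by
  rcases eq_or_ne a 0 with rfl | ha
  · simp [ordExt]
  have h1 : IsLevel L e v (1 : F') 0 := by
    have h := isLevel_map (v := v) he (one_ne_zero (α := F))
    rwa [map_one, Place.ord_one] at h
  have h2 : IsLevel L e v (algebraMap L F' a) 0 := by
    refine ⟨?_, fun h => h1.2 ?_⟩
    · rw [Algebra.algebraMap_eq_smul_one]; exact smul_mem _ _ h1.1
    · have := smul_mem _ a⁻¹ h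
      rwa [Algebra.algebraMap_eq_smul_one, smul_smul, inv_mul_cancel₀ ha, one_smul] at this
  rw [ordExt_eq he hres h2 h1 (div_one _).symm, sub_zero]

open Classical in
/-- The valuation of the extended place. -/
def valExt (he : IsConstExt ι e) (hres : HasResidue v) : Valuation F' ℤᵐ⁰ where
  toFun x := if x = 0 then 0 else exp (-ordExt he v x)
  map_zero' := if_pos rfl
  map_one' := by
    have : ordExt he v (1 : F') = 0 := by simpa using ordExt_map he hres (1 : F)
    simp [this]
  map_mul' x y := by
    rcases eq_or_ne x 0 with rfl | hx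
    · simp
    rcases eq_or_ne y 0 with rfl | hy
    · simp
    rw [if_neg (mul_ne_zero hx hy), if_neg hx, if_neg hy, ← exp_add, ordExt_mul he hres hx hy,
      neg_add]
  map_add_le_max' x y := by
    rcases eq_or_ne x 0 with rfl | hx
    · simp
    rcases eq_or_ne y 0 with rfl | hy
    · simp
    rcases eq_or_ne (x + y) 0 with h | h
    · simp [h]
    rw [if_neg h, if_neg hx, if_neg hy, le_max_iff, exp_le_exp, exp_le_exp]
    have := ordExt_add he hres hx hy h
    omega

theorem valExt_apply (he : IsConstExt ι e) (hres : HasResidue v) {x : F'} (hx : x ≠ 0) :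
    valExt he hres x = exp (-ordExt he v x) := if_neg hx

/-- The extension of a place. -/
def extPlace (he : IsConstExt ι e) (hres : HasResidue v) : Place L F' :=
  placeOfVal (valExt he hres)
    (fun a => by
      rcases eq_or_ne a 0 with rfl | ha
      · simp
      · rw [valExt_apply he hres (by simpa using ha), ordExt_algebraMap he hres, neg_zero,
          exp_zero])
    (by
      obtain ⟨π, hπ, hπ1⟩ := FF.exists_ord_eq v 1
      have h0 : e π ≠ 0 := by simpa using hπ
      exact ⟨e π, h0, by simp [valExt_apply he hres h0, ordExt_map he hres, hπ1]⟩)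

theorem ord_extPlace_eq (he : IsConstExt ι e) (hres : HasResidue v) (x : F') :
    (extPlace he hres).ord x = ordExt he v x := by
  obtain ⟨π, hπ, hπ1⟩ := FF.exists_ord_eq v 1
  have h0 : e π ≠ 0 := by simpa using hπ
  rw [extPlace, ord_placeOfVal (π := e π) (by rw [valExt_apply he hres h0, ordExt_map he hres, hπ1])]
  rcases eq_or_ne x 0 with rfl | hx
  · simp [ordExt]
  · rw [valExt_apply he hres hx, log_exp, neg_neg]

theorem ord_extPlace (he : IsConstExt ι e) (hres : HasResidue v) (f : F) :
    (extPlace he hres).ord (e f) = v.ord f := by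
  rw [ord_extPlace_eq, ordExt_map he hres]

theorem hasResidue_extPlace (he : IsConstExt ι e) (hres : HasResidue v) :
    HasResidue (extPlace he hres) := by
  intro x hx
  rw [ord_extPlace_eq] at hx
  rcases eq_or_ne x 0 with rfl | hx0
  · exact ⟨0, Or.inl (map_zero _).symm⟩
  obtain ⟨a, b, m, n, ha, hb, rfl⟩ := exists_rep he v hx0
  rw [ordExt_eq he hres ha hb rfl] at hx
  obtain ⟨π, hπ, hπ1⟩ := FF.exists_ord_eq v 1
  obtain ⟨β, hβ⟩ := exists_sub_smul_mem_level he hres hπ hπ1 hb.1
  obtain ⟨α, hα⟩ := exists_sub_smul_mem_level he hres hπ hπ1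
    (level_anti (show n ≤ m by omega) ha.1)
  have hβ0 : β ≠ 0 := by rintro rfl; exact hb.2 (by simpa using hβ)
  refine ⟨α / β, ?_⟩
  rcases eq_or_ne (a / b - algebraMap L F' (α / β)) 0 with h | h
  · exact Or.inl (sub_eq_zero.mp h)
  refine Or.inr ?_
  rw [ord_extPlace_eq]
  have hcb : a / b - algebraMap L F' (α / β) = (a - (α / β) • b) / b := by
    rw [sub_div, Algebra.smul_def, mul_div_assoc, div_self hb.ne_zero, mul_one]
  have hmem : a - (α / β) • b ∈ level L e v (n + 1) := by
    have := sub_mem hα (smul_mem _ (α / β) hβ)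
    rwa [smul_sub, smul_smul, div_mul_cancel₀ _ hβ0, sub_sub_sub_cancel_right] at this
  have hne : a - (α / β) • b ≠ 0 := by
    intro h0; apply h; rw [hcb, h0, zero_div]
  obtain ⟨r, hr⟩ := exists_level_eq (v := v) he (level_le_span _ hmem) hne
  rw [hcb, ordExt_eq he hres hr hb rfl]
  have := IsLevel.le_of_mem hr hmem
  omega

theorem deg_eq_one_of_hasResidue {v : Place K F} (hv : HasResidue v) : v.deg = 1 := by
  have hbij : Function.Bijective (algebraMap K v.ResidueField) := by
    refine ⟨RingHom.injective _, fun r => ?_⟩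
    obtain ⟨⟨f, hf⟩, rfl⟩ := IsLocalRing.residue_surjective r
    obtain ⟨c, hc⟩ := hv f (FF.ord_nonneg_of_mem_placeRing v hf)
    refine ⟨c, ?_⟩
    rw [IsScalarTower.algebraMap_apply K v.toValuationSubring v.ResidueField]
    rcases hc with hc | hc
    · exact congrArg _ (Subtype.ext (by rw [Place.coe_algebraMap]; exact hc.symm))
    · symm
      refine Ideal.Quotient.eq.mpr ?_
      rw [IsLocalRing.mem_maximalIdeal, mem_nonunits_iff]
      intro hu
      have h0 := v.ord_coe_unit hu.unit
      rw [IsUnit.unit_spec, show ((⟨f, hf⟩ - algebraMap K v.toValuationSubring c :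
        v.toValuationSubring) : F) = f - algebraMap K F c from rfl] at h0
      omega
  rw [Place.deg]
  exact ((LinearEquiv.ofBijective (Algebra.linearMap K v.ResidueField) hbij).finrank_eq).symm.trans
    (Module.finrank_self K)

/-- A place of `F'` which is nontrivial on `F` lies above a place of `F`. -/
theorem exists_place_below (he : IsConstExt ι e) {w : Place L F'} {y : F}
    (hy : w.ord (e y) ≠ 0) :
    ∃ v : Place K F, ∀ f : F, 0 ≤ v.ord f ↔ 0 ≤ w.ord (e f) := by
  have hy0 : y ≠ 0 := by rintro rfl; simp at hy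
  have h0 : e y ≠ 0 := by simpa using hy0
  refine ⟨placeOfVal (w.adicValuation.comap e) (fun a => ?_) ⟨y, hy0, ?_⟩, fun f => ?_⟩
  · rw [Valuation.comap_apply, he.map_algebraMap]
    exact (FF.mem_iff_val_le_one w _).mp (w.algebraMap_mem' _)
  · rw [Valuation.comap_apply, FF.val_eq_exp w h0]
    simpa using hy
  rcases eq_or_ne f 0 with rfl | hf
  · simp
  rw [← FF.mem_iff_ord_nonneg _ hf, mem_placeOfVal, Valuation.comap_apply,
    FF.val_eq_exp w (by simpa using hf), ← exp_zero, exp_le_exp]
  omega

/-- The place above a place is unique. -/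
theorem eq_extPlace (he : IsConstExt ι e) (hres : HasResidue v) {w : Place L F'}
    (hsign : ∀ f : F, 0 ≤ v.ord f ↔ 0 ≤ w.ord (e f)) : w = extPlace he hres := by
  obtain ⟨π, hπ, hπ1⟩ := FF.exists_ord_eq v 1
  set e₀ : ℤ := w.ord (e π) with he₀
  have hz : ∀ f : F, v.ord f = 0 → w.ord (e f) = 0 := by
    intro f hf
    have h1 := (hsign f).mp (by omega)
    have h2 := (hsign f⁻¹).mp (by rw [v.ord_inv]; omega)
    rw [map_inv₀, w.ord_inv] at h2
    omega
  have hpos : 0 < e₀ := by
    have h1 := (hsign π).mp (by omega)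
    have h2 : ¬ 0 ≤ w.ord (e π⁻¹) := fun h => by
      have := (hsign π⁻¹).mpr h
      rw [v.ord_inv] at this
      omega
    rw [map_inv₀, w.ord_inv] at h2
    omega
  have hord : ∀ f : F, f ≠ 0 → w.ord (e f) = v.ord f * e₀ := by
    intro f hf
    have hn : π ^ (-v.ord f) ≠ 0 := zpow_ne_zero _ hπ
    have h := hz (f * π ^ (-v.ord f)) (by rw [v.ord_mul hf hn, v.ord_zpow, hπ1]; ring)
    rw [map_mul, map_zpow₀, w.ord_mul (by simpa using hf) (zpow_ne_zero _ (by simpa using hπ)),
      w.ord_zpow, ← he₀] at h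
    linarith
  have hge : ∀ n : ℤ, level L e v n ≤ levelK w (n * e₀) := by
    intro n
    refine span_le.mpr ?_
    rintro _ ⟨f, hf, rfl⟩
    rcases eq_or_ne f 0 with rfl | hf0
    · simp
    refine Or.inr ?_
    rw [hord f hf0]
    exact mul_le_mul_of_nonneg_right (hf.resolve_left hf0) hpos.le
  have hexact : ∀ (h : F') (n : ℤ), IsLevel L e v h n → w.ord h = n * e₀ := by
    intro h n hh
    obtain ⟨a, ha⟩ := exists_sub_smul_mem_level he hres hπ hπ1 hh.1
    have ha0 : a ≠ 0 := by rintro rfl; exact hh.2 (by simpa using ha)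
    have ht : a • e (π ^ n) ≠ 0 := by
      rw [Algebra.smul_def]
      exact mul_ne_zero (by simpa using ha0) ((map_ne_zero e).mpr (zpow_ne_zero n hπ))
    have hto : w.ord (a • e (π ^ n)) = n * e₀ := by
      rw [Algebra.smul_def, w.ord_mul (by simpa using ha0) ((map_ne_zero e).mpr (zpow_ne_zero n hπ)),
        FF.ord_algebraMap, zero_add, hord _ (zpow_ne_zero n hπ), v.ord_zpow, hπ1, mul_one]
    have h1 := (mem_levelK.mp (hge (n + 1) ha)).imp_right
      (fun h' => show w.ord (a • e (π ^ n)) < _ from lt_of_lt_of_le (by rw [hto]; nlinarith) h')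
    rw [← add_sub_cancel (a • e (π ^ n)) h, (FF.ord_add_of_lt w ht h1).2, hto]
  have hall : ∀ x : F', x ≠ 0 → w.ord x = ordExt he v x * e₀ := by
    intro x hx
    obtain ⟨a, b, m, n, ha, hb, rfl⟩ := exists_rep he v hx
    rw [FF.ord_div w ha.ne_zero hb.ne_zero, hexact a m ha, hexact b n hb,
      ordExt_eq he hres ha hb rfl]
    ring
  obtain ⟨x, hx, hx1⟩ := FF.exists_ord_eq w 1
  have he1 : e₀ = 1 := by
    rcases Int.eq_one_or_neg_one_of_mul_eq_one
      (show e₀ * ordExt he v x = 1 by rw [mul_comm, ← hall x hx, hx1]) with h | h <;> omega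
  refine FF.place_eq_of_ord_nonneg fun f hf => ?_
  rcases eq_or_ne f 0 with rfl | hf0
  · simp
  rw [ord_extPlace_eq]
  rwa [hall f hf0, he1, mul_one] at hf

end FLTAgent.Torsion
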