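import Fermat.Agent.Torsion.Equiv

/-!
# The group of divisors of multiplier functions

`HasMultFun N D`: `D` is the divisor of a function on `ℍ` with some multiplier. These divisors
form a group containing the principal ones, which is saturated: `exists_root_of_hasDivisor` takes
`n`-th roots, so `HasMultFun.of_zsmul` removes nonzero integer factors.
-/

set_option autoImplicit false
set_option linter.unusedSectionVars false

noncomputable section

open UpperHalfPlane CongruenceSubgroup Filter Topology AlgebraicCurve ModularCurve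
open scoped MatrixGroups

namespace FLTAgent.Torsion

open FLTAgent.Modular

variable {N : ℕ} [NeZero N]

/-- `D` is the divisor of a meromorphic function on `ℍ` with some multiplier. -/
def HasMultFun (N : ℕ) [NeZero N] (D : Divisor ℂ (FC N)) : Prop :=
  ∃ (f : ℍ → ℂ) (c : Gamma0 N →* ℂˣ), HasDivisor N f D ∧
    ∀ (γ : Gamma0 N) (z : ℍ), f ((γ : SL(2, ℤ)) • z) = (c γ : ℂ) * f z

theorem hasDivisor_mul {f g : ℍ → ℂ} {D E : Divisor ℂ (FC N)} (hf : HasDivisor N f D)
    (hg : HasDivisor N g E) {c d : Gamma0 N →* ℂˣ}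
    (hc : ∀ (γ : Gamma0 N) (z : ℍ), f ((γ : SL(2, ℤ)) • z) = (c γ : ℂ) * f z)
    (hd : ∀ (γ : Gamma0 N) (z : ℍ), g ((γ : SL(2, ℤ)) • z) = (d γ : ℂ) * g z) :
    HasDivisor N (nfH (f * g)) (D + E) ∧ ∀ (γ : Gamma0 N) (z : ℍ),
      nfH (f * g) ((γ : SL(2, ℤ)) • z) = ((c * d) γ : ℂ) * nfH (f * g) z := by
  have hraw : IsMeroRaw (f * g) := hf.mero.raw.mul hg.mero.raw
  have heq : EqOffDiscrete (nfH (f * g)) (f * g) := fun z => nfH_eventuallyEq hraw z
  have h := hf.mul hg (isMero_nfH hraw) heq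
  refine ⟨h, fun γ => congrFun ((h.mero.comp_sl _).eq_of_eventuallyEq
    (isMero_const_mul h.mero ((c * d) γ).ne_zero) (z := UpperHalfPlane.I) ?_)⟩
  filter_upwards [heq UpperHalfPlane.I, eventually_smul_nhdsNE (γ : SL(2, ℤ)) UpperHalfPlane.I
    (heq ((γ : SL(2, ℤ)) • UpperHalfPlane.I))] with w hw hw'
  simp only [Function.comp_apply] at hw hw' ⊢
  rw [hw', hw, Pi.mul_apply, Pi.mul_apply, hc, hd, MonoidHom.mul_apply, Units.val_mul]
  ring

theorem HasMultFun.add {D E : Divisor ℂ (FC N)} (hD : HasMultFun N D) (hE : HasMultFun N E) :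
    HasMultFun N (D + E) := by
  obtain ⟨f, c, hf, hc⟩ := hD
  obtain ⟨g, d, hg, hd⟩ := hE
  exact ⟨_, c * d, hasDivisor_mul hf hg hc hd⟩

theorem HasMultFun.neg {D : Divisor ℂ (FC N)} (hD : HasMultFun N D) : HasMultFun N (-D) := by
  obtain ⟨f, c, hf, hc⟩ := hD
  refine ⟨f⁻¹, c⁻¹, hf.inv, fun γ z => ?_⟩
  rw [Pi.inv_apply, Pi.inv_apply, hc, mul_inv, MonoidHom.inv_apply, Units.val_inv_eq_inv_val]

theorem HasMultFun.sub {D E : Divisor ℂ (FC N)} (hD : HasMultFun N D) (hE : HasMultFun N E) :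
    HasMultFun N (D - E) := by
  rw [sub_eq_add_neg]; exact hD.add hE.neg

theorem hasMultFun_divisorOf {y : FC N} (hy : y ≠ 0) : HasMultFun N (FF.divisorOf y) :=
  ⟨_, 1, hasDivisor_ev hy fun v => FF.divisorOf_apply y v, fun γ z => by
    rw [(isModFun_ev y).smul, MonoidHom.one_apply, Units.val_one, one_mul]⟩

theorem hasMultFun_zero : HasMultFun N (0 : Divisor ℂ (FC N)) :=
  ⟨fun _ => 1, 1, hasDivisor_const one_ne_zero, fun γ z => by simp⟩

theorem HasMultFun.sum {ι : Type*} (s : Finset ι) {D : ι → Divisor ℂ (FC N)}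
    (h : ∀ i ∈ s, HasMultFun N (D i)) : HasMultFun N (∑ i ∈ s, D i) := by
  classical
  induction s using Finset.induction with
  | empty => simpa using hasMultFun_zero
  | insert i s hi ih =>
    rw [Finset.sum_insert hi]
    exact (h i (Finset.mem_insert_self i s)).add (ih fun j hj => h j (Finset.mem_insert_of_mem hj))

theorem HasMultFun.zsmul {D : Divisor ℂ (FC N)} (hD : HasMultFun N D) (m : ℤ) :
    HasMultFun N (m • D) := by
  induction m using Int.induction_on with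
  | zero => simpa using hasMultFun_zero
  | succ m ih => rw [add_smul, one_smul]; exact ih.add hD
  | pred m ih => rw [sub_smul, one_smul]; exact ih.sub hD

/-- An `n`-th root of a multiplier function whose divisor is divisible by `n`. -/
theorem exists_root_of_hasDivisor {g : ℍ → ℂ} {D : Divisor ℂ (FC N)} {n : ℕ} (hn : n ≠ 0)
    (hg : HasDivisor N g (n • D)) {c₀ : Gamma0 N →* ℂˣ}
    (hc₀ : ∀ (γ : Gamma0 N) (z : ℍ), g ((γ : SL(2, ℤ)) • z) = (c₀ γ : ℂ) * g z) :
    ∃ (f : ℍ → ℂ) (c : Gamma0 N →* ℂˣ), HasDivisor N f D ∧ f ^ n = g ∧ (∀ γ, c γ ^ n = c₀ γ) ∧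
      ∀ (γ : Gamma0 N) (z : ℍ), f ((γ : SL(2, ℤ)) • z) = (c γ : ℂ) * f z := by
  have hnD : ∀ v, (n • D) v = (n : ℤ) * D v := fun v => by rw [Finsupp.smul_apply, nsmul_eq_mul]
  have hordg : ∀ z : ℍ, ordH g z = (ellOrder N z : ℤ) * ((n : ℤ) * D (placeOf z)) := fun z => by
    rw [ordH, hg.order z, hnD, WithTop.untop₀_coe]
  obtain ⟨f, hf, hfg⟩ := exists_root hg.mero hg.order_ne_top hn fun z =>
    ⟨(ellOrder N z : ℤ) * D (placeOf z), by rw [hordg]; ring⟩
  have hpow : f ^ n = g := (isMero_pow hf n).eq_of_eventuallyEq hg.mero (hfg UpperHalfPlane.I)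
  have hord : ∀ z : ℍ, meromorphicOrderAt (f ∘ ofComplex) (z : ℂ) =
      (((ellOrder N z : ℤ) * D (placeOf z) : ℤ) : WithTop ℤ) := by
    intro z
    have h1 : meromorphicOrderAt ((f ^ n) ∘ ofComplex) (z : ℂ) =
        n * meromorphicOrderAt (f ∘ ofComplex) (z : ℂ) :=
      meromorphicOrderAt_pow (f := f ∘ ofComplex) (hf.meromorphicAt z)
    rw [hpow, hg.order z, hnD] at h1
    cases hl : meromorphicOrderAt (f ∘ ofComplex) (z : ℂ) with
    | top =>
      rw [hl, WithTop.mul_top (by exact_mod_cast hn)] at h1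
      exact absurd h1 WithTop.coe_ne_top
    | coe m =>
      rw [hl, ← WithTop.coe_natCast, ← WithTop.coe_mul, WithTop.coe_inj] at h1
      rw [WithTop.coe_inj]
      refine mul_left_cancel₀ (Int.natCast_ne_zero.mpr hn) ?_
      linear_combination -h1
  have hne : ∀ z : ℍ, meromorphicOrderAt (f ∘ ofComplex) (z : ℂ) ≠ ⊤ := fun z => by
    rw [hord]; exact WithTop.coe_ne_top
  have hroot : ∀ γ : Gamma0 N, ∃ ζ : ℂ, ζ ^ n = (c₀ γ : ℂ) ∧
      ∀ z, f ((γ : SL(2, ℤ)) • z) = ζ * f z := by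
    intro γ
    obtain ⟨a, ha⟩ := IsAlgClosed.exists_pow_nat_eq (c₀ γ : ℂ) (Nat.pos_of_ne_zero hn)
    have ha0 : a ≠ 0 := fun h => (c₀ γ).ne_zero (by rw [← ha, h, zero_pow hn])
    obtain ⟨ζ, hζ, h⟩ := exists_eq_const_mul_of_pow_eq (hf.comp_sl (γ : SL(2, ℤ)))
      (isMero_const_mul hf ha0) (fun z => by
        rw [show (fun w => a * f w) ∘ ofComplex = (fun _ => a) * (f ∘ ofComplex) from rfl,
          meromorphicOrderAt_mul (analyticAt_const (v := a)).meromorphicAt (hf.meromorphicAt z),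
          meromorphicOrderAt_const, if_neg ha0, zero_add]
        exact hne z) hn fun z => Eventually.of_forall fun w => by
      have h2 := congrFun hpow ((γ : SL(2, ℤ)) • ofComplex w)
      have h3 := congrFun hpow (ofComplex w)
      simp only [Pi.pow_apply] at h2 h3
      simp only [Function.comp_apply, Pi.pow_apply]
      rw [h2, mul_pow, h3, ha, hc₀]
    exact ⟨ζ * a, by rw [mul_pow, hζ, one_mul, ha], fun z => by rw [h z, mul_assoc]⟩
  choose ζ hζn hζf using hroot
  obtain ⟨z₀, hz₀⟩ : ∃ z : ℍ, f z ≠ 0 := by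
    by_contra h
    push Not at h
    exact hne UpperHalfPlane.I (meromorphicOrderAt_eq_top_iff.mpr
      (Eventually.of_forall fun w => h (ofComplex w)))
  let c : Gamma0 N →* ℂˣ := MonoidHom.toHomUnits
    { toFun := ζ
      map_one' := mul_right_cancel₀ hz₀ (by rw [← hζf, one_mul]; simp)
      map_mul' := fun γ δ => mul_right_cancel₀ hz₀ (by
        rw [← hζf, Subgroup.coe_mul, mul_smul, hζf, hζf, mul_assoc]) }
  have hc : ∀ (γ : Gamma0 N) (z : ℍ), f ((γ : SL(2, ℤ)) • z) = (c γ : ℂ) * f z := hζf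
  refine ⟨f, c, ⟨hf, hord, fun γ => ?_⟩, hpow, fun γ => Units.ext (hζn γ), hc⟩
  obtain ⟨L, hL, hlim⟩ := hg.cusp γ
  set w := cuspWidth N γ
  let P : Gamma0 N :=
    ⟨γ * ModularGroup.T ^ (w : ℤ) * γ⁻¹, (ModularPlaces.cuspWidth_spec (N := N) γ).2⟩
  set v : ℍ → ℂ := fun z => f (γ • z) * qPow (w : ℝ) (-(D (cuspPlace γ))) z with hv
  refine (eq_one_and_tendsto_of_pow_tendsto (v := v) (ζ := (c P : ℂ))
    (t := (w : ℝ)) hn ?_ hL ?_ ?_).2
  · filter_upwards [hg.eventually_analyticAt γ] with z hz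
    have h1 : AnalyticAt ℂ (f ∘ ofComplex) ((γ • z : ℍ) : ℂ) := by
      rw [← (hf (γ • z)).meromorphicOrderAt_nonneg_iff_analyticAt, hord,
        ← WithTop.coe_zero, WithTop.coe_le_coe]
      have h2 := hz.meromorphicOrderAt_nonneg
      rw [hg.order, hnD, ← WithTop.coe_zero, WithTop.coe_le_coe, mul_left_comm] at h2
      exact nonneg_of_mul_nonneg_right h2 (by exact_mod_cast Nat.pos_of_ne_zero hn)
    have h3 : ContinuousAt (fun x : ℂ => f (γ • ofComplex x)) (z : ℂ) := by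
      have := (((hf.comp_sl γ) z).meromorphicOrderAt_nonneg_iff_analyticAt.1 (by
        rw [ModularPlaces.meromorphicOrderAt_smul f γ z]
        exact h1.meromorphicOrderAt_nonneg)).continuousAt
      exact this
    have h4 : ContinuousAt (fun x : ℂ => qPow (w : ℝ) (-(D (cuspPlace γ))) (ofComplex x))
        (z : ℂ) := by
      have : (fun x : ℂ => qPow (w : ℝ) (-(D (cuspPlace γ))) (ofComplex x)) =ᶠ[𝓝 (z : ℂ)]
          fun x : ℂ => Complex.exp (2 * Real.pi * Complex.I * ((-(D (cuspPlace γ)) : ℤ) : ℂ) *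
            x / ((w : ℝ) : ℂ)) := by
        filter_upwards [isOpen_upperHalfPlaneSet.mem_nhds z.im_pos] with x hx
        simp [qPow, ofComplex_apply_of_im_pos hx]
      exact (ContinuousAt.cexp (by fun_prop)).congr this.symm
    exact h3.mul h4
  · refine hlim.congr fun z => ?_
    rw [← hpow, Pi.pow_apply, mul_pow, hnD, ← qPow_natCast_mul]
    congr 2
    ring
  · intro z
    simp only [hv]
    rw [qPow_shift (cuspWidth_cast_pos γ).ne', ← mul_assoc, ← hc P]
    congr 2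
    show γ • ((w : ℝ) +ᵥ z) = (γ * ModularGroup.T ^ (w : ℤ) * γ⁻¹) • (γ • z)
    exact_mod_cast shift_smul γ (w : ℤ) z

theorem HasMultFun.of_zsmul {D : Divisor ℂ (FC N)} {m : ℤ} (hm : m ≠ 0)
    (h : HasMultFun N (m • D)) : HasMultFun N D := by
  have h' : HasMultFun N (m.natAbs • D) := by
    rcases Int.natAbs_eq m with e | e
    · rw [← natCast_zsmul, ← e]; exact h
    · rw [← natCast_zsmul, show (m.natAbs : ℤ) = -m by omega, _root_.neg_smul]; exact h.neg
  obtain ⟨g, c₀, hg, hc₀⟩ := h'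
  obtain ⟨f, c, hf, -, -, hc⟩ := exists_root_of_hasDivisor (Int.natAbs_ne_zero.2 hm) hg hc₀
  exact ⟨f, c, hf, hc⟩

end FLTAgent.Torsion
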