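import Fermat.Agent.Torsion.ThirdKind
import Fermat.Agent.Torsion.Pullback

/-!
# Every divisor of degree zero is the divisor of a multiplier function

`hasMultFun_of_degZero`. For places with `j ≠ 0, 1728, ∞` the divisor `(v) - (∞)` is handled by
`hasMultFun_placeOf_sub`; for each of the finitely many other places a function with a pole there
and value one at the rest reduces to those, and saturation removes the multiplicity
(`hasMultFun_baseDiv`).
-/

set_option autoImplicit false
set_option linter.unusedSectionVars false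

noncomputable section

open UpperHalfPlane CongruenceSubgroup Filter Topology AlgebraicCurve ModularCurve
open scoped MatrixGroups

namespace FLTAgent.Torsion

open FLTAgent.Modular

variable {N : ℕ} [NeZero N]

/-- The orders of `j` at the cusps. -/
theorem ord_jC_cuspPlace (γ : SL(2, ℤ)) :
    (cuspPlace γ : Place ℂ (FC N)).ord (ModularPlaces.jC N) = -(cuspWidth N γ : ℤ) := by
  refine ModularPlaces.HasCuspOrder.unique
    (ord_cuspPlace γ ModularPlaces.jC_ne_zero) ⟨1, one_ne_zero, ?_⟩
  refine ModularPlaces.tendsto_jFun_mul_qPow.congr fun z => ?_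
  rw [ModularPlaces.ev_jC, jFun_smul, neg_neg]
  congr 1
  have h := qPow_dilate (w := (1 : ℝ)) one_ne_zero
    (r := cuspWidth N γ) (ModularPlaces.cuspWidth_spec (N := N) γ).1.ne' 1 z
  rw [one_mul, one_mul] at h
  exact h.symm

/-- Away from the zeros and poles of `j` and `j - 1728`, places are generic points. -/
theorem exists_generic {v : Place ℂ (FC N)} (h0 : v.ord (ModularPlaces.jC N) = 0)
    (h1 : v.ord (ModularPlaces.jC N - algebraMap ℂ (FC N) 1728) = 0) :
    ∃ z : ℍ, v = placeOf z ∧ ModularPlaces.jE z ≠ 0 ∧ ModularPlaces.jE z ≠ 1728 := by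
  rcases place_exhaustive v with ⟨z, rfl⟩ | ⟨γ, rfl⟩
  swap
  · rw [ord_jC_cuspPlace] at h0
    have := (ModularPlaces.cuspWidth_spec (N := N) γ).1
    omega
  refine ⟨z, rfl, fun hz => ?_, fun hz => ?_⟩ <;>
  · have h := ModularPlaces.ordH_jC_sub (N := N) z
    rw [hz] at h
    rw [← ord_placeOf z (ModularPlaces.jC_sub_ne_zero _)] at h
    have := ModularPlaces.ellOrder_pos 1 z
    simp [h0, h1] at h
    omega

/-- `(v) - (∞)`. -/
def baseDiv (v : Place ℂ (FC N)) : Divisor ℂ (FC N) :=
  Finsupp.single v 1 - Finsupp.single (cuspPlace 1) 1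

theorem eq_sum_baseDiv {D : Divisor ℂ (FC N)}
    (hD : D ∈ Divisor.degZero (K := ℂ) (F := FC N)) : D = D.sum fun v m => m • baseDiv v := by
  have h1 : D.sum (fun v m => m • baseDiv v) =
      D.sum (fun v m => Finsupp.single v m) - D.sum fun _ m => Finsupp.single (cuspPlace 1) m := by
    rw [← Finsupp.sum_sub]
    refine Finsupp.sum_congr fun v _ => ?_
    rw [baseDiv, smul_sub, Finsupp.smul_single, Finsupp.smul_single, smul_eq_mul, mul_one]
  have h2 : D.sum (fun _ m => Finsupp.single (cuspPlace 1 : Place ℂ (FC N)) m) =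
      Finsupp.single (cuspPlace 1) (D.sum fun _ m => m) := by
    simp only [Finsupp.sum]
    exact (map_sum (Finsupp.singleAddHom (cuspPlace 1 : Place ℂ (FC N))) _ _).symm
  rw [h1, h2, Finsupp.sum_single, ← FF.degree_eq_sum, Divisor.mem_degZero.mp hD,
    Finsupp.single_zero, sub_zero]

theorem hasMultFun_baseDiv (v : Place ℂ (FC N)) : HasMultFun N (baseDiv v) := by
  classical
  set Q : Place ℂ (FC N) := cuspPlace 1
  set j := ModularPlaces.jC N
  set B : Finset (Place ℂ (FC N)) :=
    (FF.divisorOf j : Divisor ℂ (FC N)).support ∪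
      (FF.divisorOf (j - algebraMap ℂ (FC N) 1728) : Divisor ℂ (FC N)).support
  have hgen : ∀ u : Place ℂ (FC N), u ∉ B → HasMultFun N (baseDiv u) := by
    intro u hu
    simp only [B, Finset.mem_union, Finsupp.mem_support_iff, FF.divisorOf_apply, not_or,
      not_not] at hu
    obtain ⟨z, rfl, hz0, hz1⟩ := exists_generic hu.1 hu.2
    exact hasMultFun_placeOf_sub hz0 hz1
  by_cases hvQ : v = Q
  · rw [hvQ, baseDiv, sub_self]; exact hasMultFun_zero
  by_cases hvB : v ∈ B
  swap
  · exact hgen v hvB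
  have hQB : Q ∈ B := by
    refine Finset.mem_union_left _ (Finsupp.mem_support_iff.2 ?_)
    rw [FF.divisorOf_apply, ord_jC_cuspPlace]
    have := (ModularPlaces.cuspWidth_spec (N := N) (1 : SL(2, ℤ))).1
    omega
  obtain ⟨y₀, hy₀, hv₀, hpos⟩ :=
    FF.exists_ord_neg_forall_pos v (B.erase v) (Finset.notMem_erase v B)
  have hord : ∀ u ∈ B, (u = v → u.ord (y₀ - 1) = v.ord y₀) ∧ (u ≠ v → u.ord (y₀ - 1) = 0) := by
    intro u hu
    refine ⟨fun h => ?_, fun h => ?_⟩
    · subst h
      have := FF.ord_add_of_lt u hy₀ (g := -1) (Or.inr (by rw [FF.ord_neg, Place.ord_one]; exact hv₀))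
      rw [sub_eq_add_neg, this.2]
    · have hp := hpos u (Finset.mem_erase.2 ⟨h, hu⟩)
      have := FF.ord_add_of_lt u (f := (-1 : FC N)) (neg_ne_zero.2 one_ne_zero) (g := y₀)
        (Or.inr (by rw [FF.ord_neg, Place.ord_one]; exact hp))
      rw [sub_eq_neg_add, this.2, FF.ord_neg, Place.ord_one]
  have hy : y₀ - 1 ≠ 0 := fun h => by
    have h1 := (hord v hvB).1 rfl
    rw [h, Place.ord_zero] at h1
    omega
  set D : Divisor ℂ (FC N) := FF.divisorOf (y₀ - 1)
  have hD : HasMultFun N D := hasMultFun_divisorOf hy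
  have hDv : D v = v.ord y₀ := by rw [FF.divisorOf_apply]; exact (hord v hvB).1 rfl
  have heq := eq_sum_baseDiv (Divisor.mem_degZero.2 (FF.degree_divisorOf (y₀ - 1)) :
    D ∈ Divisor.degZero (K := ℂ) (F := FC N))
  have hvsupp : v ∈ D.support := Finsupp.mem_support_iff.2 (by rw [hDv]; exact hv₀.ne)
  rw [Finsupp.sum, ← Finset.add_sum_erase _ _ hvsupp] at heq
  refine HasMultFun.of_zsmul (m := D v) (by rw [hDv]; exact hv₀.ne) ?_
  rw [eq_sub_of_add_eq heq.symm]
  refine hD.sub (HasMultFun.sum _ fun u hu => ?_)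
  obtain ⟨huv, hus⟩ := Finset.mem_erase.1 hu
  refine (hgen u fun huB => Finsupp.mem_support_iff.1 hus ?_).zsmul _
  rw [FF.divisorOf_apply]
  exact (hord u huB).2 huv

/-- Every divisor of degree zero is the divisor of a multiplier function. -/
theorem hasMultFun_of_degZero {D : Divisor ℂ (FC N)}
    (hD : D ∈ Divisor.degZero (K := ℂ) (F := FC N)) : HasMultFun N D := by
  rw [eq_sum_baseDiv hD]
  exact HasMultFun.sum _ fun v _ => (hasMultFun_baseDiv v).zsmul _

end FLTAgent.Torsion
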