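import Fermat.Agent.Torsion.Eisenstein
import Fermat.Agent.Torsion.MultGroup
import Fermat.Agent.Torsion.Span

/-!
# Divisors of the twisted Eisenstein multiplier functions

A multiplier function bounded at the cusps has an order at each cusp, depending only on the place
(`exists_hasCuspOrder_of_bounded`, `hasCuspOrder_of_cuspPlace_eq`). Its poles in `ℍ` lying over
`j = 0`, the function of `exists_isMult_of_unitary'` therefore has a divisor:
`exists_hasMult_of_unitary` makes every unitary character trivial on parabolic and finite order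
elements the multiplier of a function with a divisor.
-/

set_option autoImplicit false
set_option linter.unusedSectionVars false

noncomputable section

open UpperHalfPlane CongruenceSubgroup Filter Topology AlgebraicCurve ModularCurve
open scoped MatrixGroups

namespace FLTAgent.Torsion

open FLTAgent.Modular

variable {N : ℕ} [NeZero N] {c : Gamma0 N →* ℂˣ} {f : ℍ → ℂ}

/-- Over a zero of `E₄` the function `j` vanishes. -/
theorem ord_jC_pos_of_E₄_eq_zero {z : ℍ} (hz : ModularForm.E₄ z = 0) :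
    0 < (placeOf z : Place ℂ (FC N)).ord (ModularPlaces.jC N) := by
  have hj : ModularPlaces.jE z = 0 := by simp [ModularPlaces.jE, hz]
  have h := ModularPlaces.ordH_jC_sub (N := N) z
  rw [hj, map_zero, sub_zero, ← ord_placeOf z ModularPlaces.jC_ne_zero] at h
  have h1 : (0 : ℤ) < (ellOrder 1 z : ℤ) := by exact_mod_cast ModularPlaces.ellOrder_pos 1 z
  exact pos_of_mul_pos_right (h ▸ h1) (Int.natCast_nonneg _)

/-- The place determines the ramification index. -/
theorem ellOrder_eq_of_placeOf_eq {z z' : ℍ}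
    (h : (placeOf z' : Place ℂ (FC N)) = placeOf z) : ellOrder N z' = ellOrder N z := by
  obtain ⟨y, hy, hy1⟩ := FF.exists_ord_eq (placeOf z : Place ℂ (FC N)) 1
  obtain ⟨g, hg⟩ := (placeOf_eq_iff z z').1 h.symm
  have h1 := ord_placeOf z' hy
  rw [h, hy1, ← hg, ModularPlaces.ordH_smul_of_invariant
    (fun w => (isModFun_ev y).smul g w), ← ord_placeOf z hy, hy1, hg] at h1
  exact_mod_cast mul_right_cancel₀ one_ne_zero h1

/-- The place determines the width. -/
theorem cuspWidth_eq_of_cuspPlace_eq {γ γ' : SL(2, ℤ)}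
    (h : (cuspPlace γ' : Place ℂ (FC N)) = cuspPlace γ) : cuspWidth N γ' = cuspWidth N γ := by
  have h1 := ord_jC_cuspPlace (N := N) γ'
  rw [h, ord_jC_cuspPlace, neg_inj] at h1
  exact_mod_cast h1.symm

theorem order_eq_of_placeOf_eq (hsm : ∀ (γ : Gamma0 N) (z : ℍ),
      f ((γ : SL(2, ℤ)) • z) = (c γ : ℂ) * f z) (hf : IsMero f) {z z' : ℍ}
    (h : (placeOf z' : Place ℂ (FC N)) = placeOf z) :
    meromorphicOrderAt (f ∘ ofComplex) (z' : ℂ) = meromorphicOrderAt (f ∘ ofComplex) (z : ℂ) := by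
  obtain ⟨g, rfl⟩ := (placeOf_eq_iff z z').1 h.symm
  rw [← ModularPlaces.meromorphicOrderAt_smul f (g : SL(2, ℤ)) z,
    show (fun w : ℍ => f ((g : SL(2, ℤ)) • w)) ∘ ofComplex =
      (fun _ => (c g : ℂ)) * (f ∘ ofComplex) from funext fun w => hsm g (ofComplex w),
    meromorphicOrderAt_mul (analyticAt_const (v := (c g : ℂ))).meromorphicAt (hf.meromorphicAt z),
    meromorphicOrderAt_const, if_neg (c g).ne_zero, zero_add]

theorem hasCuspOrder_of_cuspPlace_eq (hsm : ∀ (γ : Gamma0 N) (z : ℍ),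
      f ((γ : SL(2, ℤ)) • z) = (c γ : ℂ) * f z) {γ γ' : SL(2, ℤ)}
    (h : (cuspPlace γ' : Place ℂ (FC N)) = cuspPlace γ) {k : ℤ}
    (hk : ModularPlaces.HasCuspOrder N γ f k) : ModularPlaces.HasCuspOrder N γ' f k := by
  obtain ⟨g, m, hm⟩ := (cuspPlace_eq_iff γ γ').1 h.symm
  have hact : ∀ z : ℍ, γ' • z = (g : SL(2, ℤ)) • (γ • ((m : ℝ) +ᵥ z)) := by
    intro z
    rw [← modular_T_zpow_smul, ← mul_smul, ← mul_smul]
    rcases hm with e | e
    · rw [e]
    · rw [e]
      exact (ModularGroup.SL_neg_smul _ _).symm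
  obtain ⟨L, hL, hlim⟩ := hk
  rw [ModularPlaces.HasCuspOrder, cuspWidth_eq_of_cuspPlace_eq h]
  set w : ℝ := (cuspWidth N γ : ℝ)
  set e : ℂ := Complex.exp (2 * Real.pi * Complex.I * ((-k : ℤ) : ℂ) * (m : ℂ) / (w : ℂ))
  refine ⟨(c g : ℂ) * e⁻¹ * L, mul_ne_zero (mul_ne_zero (c g).ne_zero
    (inv_ne_zero (Complex.exp_ne_zero _))) hL, ?_⟩
  refine ((hlim.comp (tendsto_vadd_atImInfty (m : ℝ))).const_mul _).congr fun z => ?_
  have hq : qPow w (-k) ((m : ℝ) +ᵥ z) = e * qPow w (-k) z := by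
    simp only [qPow, e, coe_vadd, ← Complex.exp_add, Complex.ofReal_intCast]
    congr 1
    ring
  simp only [Function.comp_apply, hq, hact, hsm]
  field_simp [Complex.exp_ne_zero, e]

theorem exists_hasCuspOrder_of_bounded (hf : IsMero f)
    (hne : ∀ z : ℍ, meromorphicOrderAt (f ∘ ofComplex) (z : ℂ) ≠ ⊤)
    (hsm : ∀ (γ : Gamma0 N) (z : ℍ), f ((γ : SL(2, ℤ)) • z) = (c γ : ℂ) * f z)
    (hpar : ∀ γ : Gamma0 N,
      ((γ : SL(2, ℤ)) : Matrix (Fin 2) (Fin 2) ℤ).trace ^ 2 = 4 → c γ = 1)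
    (hbd : ∀ δ : SL(2, ℤ), IsBoundedAtImInfty fun z : ℍ => f (δ • z)) (γ : SL(2, ℤ)) :
    ∃ k : ℤ, ModularPlaces.HasCuspOrder N γ f k := by
  set w : ℝ := (cuspWidth N γ : ℝ)
  have hw : 0 < w := cuspWidth_cast_pos γ
  set F : ℍ → ℂ := fun z => f (γ • z)
  have hper : ∀ z : ℍ, F (w +ᵥ z) = F z := by
    intro z
    have hs := ModularPlaces.cuspWidth_spec (N := N) γ
    simp only [F]
    rw [show w = (((cuspWidth N γ : ℕ) : ℤ) : ℝ) by simp [w], shift_smul,
      hsm ⟨_, hs.2⟩]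
    have : c ⟨_, hs.2⟩ = 1 := hpar _ (by
      show ((γ * ModularGroup.T ^ (cuspWidth N γ : ℤ) * γ⁻¹ : SL(2, ℤ)) :
        Matrix (Fin 2) (Fin 2) ℤ).trace ^ 2 = 4
      rw [Matrix.SpecialLinearGroup.coe_mul, Matrix.SpecialLinearGroup.coe_mul,
        Matrix.trace_mul_cycle, ← Matrix.SpecialLinearGroup.coe_mul, inv_mul_cancel,
        Matrix.SpecialLinearGroup.coe_one, one_mul, ModularGroup.coe_T_zpow]
      simp [Matrix.trace_fin_two])
    rw [this, Units.val_one, one_mul]
  have hb : IsBoundedAtImInfty fun z : ℍ => qPow w 0 z * F z := by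
    simpa [qPow_zero, F] using hbd γ
  obtain ⟨y, hy, -⟩ := exists_hasQExp_of_periodic hw hper
    ((hf.comp_sl γ).eventually_analyticAt_of_bounded hb) 0 hb
  refine ⟨y.order, y.coeff y.order, ?_, hy.tendsto_leading hw fun k hk =>
    HahnSeries.coeff_eq_zero_of_lt_order hk⟩
  rw [Ne, HahnSeries.coeff_order_eq_zero]
  rintro rfl
  obtain ⟨C, hC⟩ := hy
  obtain ⟨z, hz⟩ := exists_im_gt C
  refine hne (γ • z) ?_
  rw [← ModularPlaces.meromorphicOrderAt_smul f γ z, meromorphicOrderAt_eq_top_iff]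
  refine eventually_nhdsWithin_of_eventually_nhds ?_
  filter_upwards [isOpen_upperHalfPlaneSet.mem_nhds z.im_pos,
    (isOpen_lt continuous_const Complex.continuous_im).mem_nhds hz] with x hx hxC
  have h0 : F ⟨x, hx⟩ = 0 := (hC ⟨x, hx⟩ hxC).unique (by simp [hasSum_zero])
  simpa [F, ofComplex_apply_of_im_pos hx] using h0

/-- A unitary character which kills parabolic and finite order elements is the multiplier of a
function with a divisor. -/
theorem exists_hasMult_of_unitary (hnorm : ∀ γ : Gamma0 N, ‖(c γ : ℂ)‖ = 1)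
    (hpar : ∀ γ : Gamma0 N,
      ((γ : SL(2, ℤ)) : Matrix (Fin 2) (Fin 2) ℤ).trace ^ 2 = 4 → c γ = 1)
    (hfin : ∀ γ : Gamma0 N, IsOfFinOrder γ → c γ = 1) :
    ∃ (f : ℍ → ℂ) (D : Divisor ℂ (FC N)), HasDivisor N f D ∧
      ∀ (γ : Gamma0 N) (z : ℍ), f ((γ : SL(2, ℤ)) • z) = (c γ : ℂ) * f z := by
  classical
  obtain ⟨f, hf, han, hbd⟩ := exists_isMult_of_unitary' hpar hnorm
  obtain ⟨f', hf', han', hbd'⟩ := exists_isMult_of_unitary' (c := c⁻¹)
    (fun γ h => by rw [MonoidHom.inv_apply, hpar γ h, inv_one])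
    (fun γ => by rw [MonoidHom.inv_apply, Units.val_inv_eq_inv_val, norm_inv, hnorm, inv_one])
  obtain ⟨z₀, hz₀⟩ := hf.nonzero
  obtain ⟨z₀', hz₀'⟩ := hf'.nonzero
  have hne : ∀ z : ℍ, meromorphicOrderAt (f ∘ ofComplex) (z : ℂ) ≠ ⊤ :=
    fun z => hf.mero.raw.order_ne_top hz₀ z
  have hne' : ∀ z : ℍ, meromorphicOrderAt (f' ∘ ofComplex) (z : ℂ) ≠ ⊤ :=
    fun z => hf'.mero.raw.order_ne_top hz₀' z
  have hraw : IsMeroRaw (f * f') := hf.mero.raw.mul hf'.mero.raw
  set P := nfH (f * f') with hP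
  have hPm : IsMero P := isMero_nfH hraw
  have heq : EqOffDiscrete P (f * f') := fun z => nfH_eventuallyEq hraw z
  have hPord : ∀ z : ℍ, meromorphicOrderAt (P ∘ ofComplex) (z : ℂ) =
      meromorphicOrderAt (f ∘ ofComplex) (z : ℂ) + meromorphicOrderAt (f' ∘ ofComplex) (z : ℂ) :=
    fun z => by
      rw [meromorphicOrderAt_congr (heq z),
        show (f * f') ∘ ofComplex = (f ∘ ofComplex) * (f' ∘ ofComplex) from rfl,
        meromorphicOrderAt_mul (hf.mero.meromorphicAt z) (hf'.mero.meromorphicAt z)]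
  have hmod : IsModFun N P :=
    { mero := hPm
      meroCusp := fun δ => by
        refine ⟨0, ?_⟩
        have h0 : ∀ (g : ℍ → ℂ), IsMero g → IsBoundedAtImInfty (fun z : ℍ => g (δ • z)) →
            ∀ᶠ z : ℍ in atImInfty, AnalyticAt ℂ (g ∘ ofComplex) ((δ • z : ℍ) : ℂ) := by
          intro g hg hb
          filter_upwards [(hg.comp_sl δ).eventually_analyticAt_of_bounded (h := 1) (n := 0)
            (by simpa [qPow_zero] using hb)] with z hz
          exact analyticAt_smul_of_comp hg δ hz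
        refine Asymptotics.IsBigO.congr' ((hbd δ).mul (hbd' δ)) ?_ EventuallyEq.rfl
        filter_upwards [h0 f hf.mero (hbd δ), h0 f' hf'.mero (hbd' δ)] with z hz hz'
        rw [Nat.cast_zero, qPow_zero, one_mul,
          eq_of_eqOffDiscrete_of_analyticAt hPm heq (hz.mul hz'), Pi.mul_apply]
        rfl
      smul := fun γ => congrFun ((hPm.comp_sl _).eq_of_eventuallyEq hPm (z := UpperHalfPlane.I) (by
        filter_upwards [heq UpperHalfPlane.I, eventually_smul_nhdsNE (γ : SL(2, ℤ))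
          UpperHalfPlane.I (heq ((γ : SL(2, ℤ)) • UpperHalfPlane.I))] with w hw hw'
        simp only [Function.comp_apply] at hw hw' ⊢
        rw [hw', hw, Pi.mul_apply, Pi.mul_apply, hf.smul, hf'.smul, MonoidHom.inv_apply,
          Units.val_inv_eq_inv_val]
        field_simp [(c γ).ne_zero])) }
  obtain ⟨y, hy⟩ := exists_eq_ev hmod
  have hy0 : y ≠ 0 := by
    rintro rfl
    rw [ZeroMemClass.coe_zero, ev_zero'] at hy
    have h1 := hPord UpperHalfPlane.I
    rw [← hy, show meromorphicOrderAt ((fun _ : ℍ => (0 : ℂ)) ∘ ofComplex) (UpperHalfPlane.I : ℂ) = ⊤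
      from meromorphicOrderAt_eq_top_iff.mpr (Eventually.of_forall fun _ => rfl)] at h1
    exact WithTop.add_ne_top.2 ⟨hne _, hne' _⟩ h1.symm
  set j := ModularPlaces.jC N
  set S : Finset (Place ℂ (FC N)) := (FF.divisorOf y : Divisor ℂ (FC N)).support ∪
    (FF.divisorOf j : Divisor ℂ (FC N)).support
  have hellip : ∀ z : ℍ, ∃ k : ℤ, meromorphicOrderAt (f ∘ ofComplex) (z : ℂ) =
      (((ellOrder N z : ℤ) * k : ℤ) : WithTop ℤ) ∧ (k ≠ 0 → placeOf z ∈ S) := by
    intro z
    obtain ⟨m, hm⟩ := WithTop.ne_top_iff_exists.mp (hne z)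
    have := finite_stab (N := N) z
    have : IsCyclic (MulAction.stabilizer (Gamma0 N) z) :=
      isCyclic_of_injective_ringHom (stabDen z) (stabDen_injective z)
    obtain ⟨g, hg⟩ := IsCyclic.exists_ofOrder_eq_natCard
      (α := MulAction.stabilizer (Gamma0 N) z)
    have hg1 : c (g : Gamma0 N) = 1 := hfin _ (by
      have := isOfFinOrder_of_finite g
      exact (MulAction.stabilizer (Gamma0 N) z).subtype.isOfFinOrder this)
    have h1 := den_zpow_eq_inv (hf.smul (g : Gamma0 N)) g.2 (hf.mero.meromorphicAt z) hm.symm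
    rw [hg1, Units.val_one, one_mul] at h1
    have hu : (Units.map (stabDen z) (toUnits g) : ℂˣ) ^ (2 * m) = 1 := Units.ext (by
      rw [Units.val_zpow_eq_zpow_val]; exact h1)
    have h2 := orderOf_dvd_iff_zpow_eq_one.mpr hu
    rw [← orderOf_units, Units.coe_map, val_toUnits_apply,
      orderOf_injective _ (stabDen_injective z), hg] at h2
    erw [ModularPlaces.card_fixed_eq N z] at h2
    rw [Nat.cast_mul, Nat.cast_ofNat] at h2
    obtain ⟨k, hk⟩ := (mul_dvd_mul_iff_left (by norm_num : (2 : ℤ) ≠ 0)).mp h2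
    refine ⟨k, by rw [← hm, hk], fun hk0 => ?_⟩
    simp only [S, Finset.mem_union, Finsupp.mem_support_iff, FF.divisorOf_apply]
    by_contra hS
    push Not at hS
    have hE : ModularForm.E₄ z ≠ 0 := fun h => (ord_jC_pos_of_E₄_eq_zero h).ne' hS.2
    have hn := (han z hE).meromorphicOrderAt_nonneg
    have hn' := (han' z hE).meromorphicOrderAt_nonneg
    obtain ⟨m', hm'⟩ := WithTop.ne_top_iff_exists.mp (hne' z)
    have h3 := (hasDivisor_ev (D := FF.divisorOf y) hy0 fun v => FF.divisorOf_apply y v).order z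
    rw [hy, hPord, FF.divisorOf_apply, hS.1, mul_zero, ← hm, ← hm', ← WithTop.coe_add,
      WithTop.coe_inj] at h3
    rw [← hm, ← WithTop.coe_zero, WithTop.coe_le_coe] at hn
    rw [← hm', ← WithTop.coe_zero, WithTop.coe_le_coe] at hn'
    have hm0 : m = 0 := by omega
    rw [hm0, eq_comm, mul_eq_zero] at hk
    exact hk0 (hk.resolve_left (by exact_mod_cast (ModularPlaces.ellOrder_pos N z).ne'))
  have hloc : ∀ v : Place ℂ (FC N), ∃ k : ℤ,
      (∀ z : ℍ, placeOf z = v → meromorphicOrderAt (f ∘ ofComplex) (z : ℂ) =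
        (((ellOrder N z : ℤ) * k : ℤ) : WithTop ℤ)) ∧
      (∀ γ : SL(2, ℤ), cuspPlace γ = v → ModularPlaces.HasCuspOrder N γ f k) ∧
      (k ≠ 0 → v ∈ S) := by
    intro v
    rcases place_exhaustive v with ⟨z, rfl⟩ | ⟨γ, rfl⟩
    · obtain ⟨k, hk, hkS⟩ := hellip z
      refine ⟨k, fun z' h => ?_, fun γ h => absurd h.symm (placeOf_ne_cuspPlace z γ), hkS⟩
      rw [order_eq_of_placeOf_eq hf.smul hf.mero h, hk, ellOrder_eq_of_placeOf_eq h]
    · obtain ⟨k, hk⟩ := exists_hasCuspOrder_of_bounded hf.mero hne hf.smul hpar hbd γ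
      refine ⟨k, fun z h => absurd h (placeOf_ne_cuspPlace z γ),
        fun γ' h => hasCuspOrder_of_cuspPlace_eq hf.smul h hk, fun _ => ?_⟩
      refine Finset.mem_union_right _ (Finsupp.mem_support_iff.2 ?_)
      rw [FF.divisorOf_apply, ord_jC_cuspPlace]
      have := (ModularPlaces.cuspWidth_spec (N := N) γ).1
      omega
  choose k hk hkc hkS using hloc
  refine ⟨f, Finsupp.onFinset S k hkS, ⟨hf.mero, fun z => ?_, fun γ => ?_⟩, hf.smul⟩
  · rw [Finsupp.onFinset_apply]; exact hk _ z rfl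
  · rw [Finsupp.onFinset_apply]; exact hkc _ γ rfl

end FLTAgent.Torsion
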