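import Fermat.Agent.Torsion.Root

/-!
# Exponential primitives of meromorphic functions with simple poles

If every pole of `G` is simple of residue one, `G` is the logarithmic derivative of a holomorphic
function with simple zeros exactly at the poles: on discs (`exists_expPrimitive_ball`) and, by
exhaustion, on `ℍ` (`exists_expPrimitive`). `exists_tendsto_expPrimitive`: if `G` is periodic with
limit `L` at `i∞`, then the primitive times `exp (-L z)` has a nonzero limit there.
-/

set_option autoImplicit false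
set_option linter.unusedSectionVars false

noncomputable section

open UpperHalfPlane Filter Topology Set

namespace FLTAgent.Torsion

open FLTAgent.Modular

/-- `G` has at most a simple pole at `a`, of residue `0` or `1`. -/
def HasUnitResidue (G : ℂ → ℂ) (a : ℂ) : Prop :=
  AnalyticAt ℂ G a ∨ ∃ φ : ℂ → ℂ, AnalyticAt ℂ φ a ∧ G =ᶠ[𝓝[≠] a] fun w => (w - a)⁻¹ + φ w

/-- A linear differential equation of first order has no nonzero solution with a zero. -/
theorem eventually_eq_zero_of_ode {W G : ℂ → ℂ} {b : ℂ} (hW : AnalyticAt ℂ W b)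
    (hG : AnalyticAt ℂ G b) (hode : deriv W =ᶠ[𝓝[≠] b] fun w => G w * W w) (hb : W b = 0) :
    ∀ᶠ w in 𝓝 b, W w = 0 := by
  by_contra hne
  have htop : meromorphicOrderAt W b ≠ ⊤ := by
    rw [Ne, meromorphicOrderAt_eq_top_iff]
    intro h
    exact hne ((hW.frequently_zero_iff_eventually_zero).1 h.frequently)
  obtain ⟨k, hk⟩ := WithTop.ne_top_iff_exists.1 htop
  have hk0 : k ≠ 0 := by
    rintro rfl
    exact (hW.meromorphicNFAt.meromorphicOrderAt_eq_zero_iff.1 hk.symm) hb
  have h1 := meromorphicOrderAt_deriv_eq_sub_one (n := k) (Int.cast_ne_zero.2 hk0) hk.symm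
  have h2 : meromorphicOrderAt (deriv W) b = meromorphicOrderAt G b + meromorphicOrderAt W b := by
    rw [meromorphicOrderAt_congr hode]
    exact meromorphicOrderAt_mul hG.meromorphicAt hW.meromorphicAt
  have hG0 := hG.meromorphicOrderAt_nonneg
  rw [h1, ← hk] at h2
  cases hg : meromorphicOrderAt G b with
  | top => rw [hg, top_add] at h2; exact WithTop.coe_ne_top h2
  | coe m =>
    rw [hg, ← WithTop.coe_add, WithTop.coe_inj] at h2
    rw [hg, ← WithTop.coe_zero, WithTop.coe_le_coe] at hG0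
    omega

theorem finite_nonanalytic {G : ℂ → ℂ} {K : Set ℂ} (hK : IsCompact K)
    (h : ∀ a ∈ K, MeromorphicAt G a) : {a ∈ K | ¬AnalyticAt ℂ G a}.Finite := by
  have hU : ∀ a ∈ K, {w | w = a ∨ AnalyticAt ℂ G w} ∈ 𝓝 a := by
    intro a ha
    have := (h a ha).eventually_analyticAt
    rw [eventually_nhdsWithin_iff] at this
    filter_upwards [this] with w hw
    by_cases hwa : w = a
    · exact Or.inl hwa
    · exact Or.inr (hw hwa)
  obtain ⟨t, -, ht⟩ := hK.elim_nhds_subcover _ hU
  refine t.finite_toSet.subset fun a ha => ?_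
  obtain ⟨x, hx, hax⟩ := mem_iUnion₂.1 (ht ha.1)
  rcases hax with rfl | hax
  · exact hx
  · exact absurd hax ha.2

/-- Exponential primitive on a disc. -/
theorem exists_expPrimitive_ball {G : ℂ → ℂ} {c : ℂ} {R : ℝ}
    (hmero : ∀ a ∈ Metric.closedBall c R, MeromorphicAt G a)
    (h : ∀ a ∈ Metric.closedBall c R, HasUnitResidue G a) :
    ∃ F : ℂ → ℂ, (∀ a ∈ Metric.ball c R, AnalyticAt ℂ F a ∧
      meromorphicOrderAt F a ≠ ⊤ ∧
      (AnalyticAt ℂ G a → HasDerivAt F (G a * F a) a ∧ F a ≠ 0) ∧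
      (¬AnalyticAt ℂ G a → meromorphicOrderAt F a = 1)) := by
  classical
  have hfin := finite_nonanalytic (isCompact_closedBall c R) hmero
  set S := hfin.toFinset with hS
  have hmemS : ∀ a, a ∈ S ↔ a ∈ Metric.closedBall c R ∧ ¬AnalyticAt ℂ G a := fun a => by
    simp [hS]
  let g : ℂ → ℂ := fun w => G w - ∑ a ∈ S, (w - a)⁻¹
  let g' : ℂ → ℂ := fun w => toMeromorphicNFAt g w w
  -- local analytic representatives
  have hloc : ∀ a ∈ Metric.ball c R, ∃ φ : ℂ → ℂ, AnalyticAt ℂ φ a ∧ g =ᶠ[𝓝[≠] a] φ := by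
    intro a ha
    have hrest : ∀ T : Finset ℂ, a ∉ T → AnalyticAt ℂ (fun w => ∑ b ∈ T, (w - b)⁻¹) a :=
      fun T hT => Finset.analyticAt_fun_sum T fun b hb =>
        (analyticAt_id.sub analyticAt_const).inv (sub_ne_zero.2 fun h => hT (by have h' : a = b := h; rw [h']; exact hb))
    by_cases haS : a ∈ S
    · rcases h a (Metric.ball_subset_closedBall ha) with hG | ⟨φ, hφ, hGφ⟩
      · exact absurd hG ((hmemS a).1 haS).2
      · refine ⟨fun w => φ w - ∑ b ∈ S.erase a, (w - b)⁻¹,
          hφ.sub (hrest _ (Finset.notMem_erase a S)), ?_⟩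
        filter_upwards [hGφ] with w hw
        simp only [g]
        rw [hw, ← Finset.add_sum_erase _ _ haS]
        ring
    · have hG : AnalyticAt ℂ G a := by
        by_contra hne
        exact haS ((hmemS a).2 ⟨Metric.ball_subset_closedBall ha, hne⟩)
      exact ⟨g, hG.sub (hrest S haS), EventuallyEq.rfl⟩
  have hg' : ∀ a ∈ Metric.ball c R, AnalyticAt ℂ g' a := by
    intro a ha
    obtain ⟨φ, hφ, hgφ⟩ := hloc a ha
    refine hφ.congr ?_
    have h1 := eventually_eventually_nhdsWithin.2 hgφ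
    rw [eventually_nhdsWithin_iff] at h1
    filter_upwards [h1, hφ.eventually_analyticAt] with w hw hw'
    show φ w = g' w
    by_cases hwa : w = a
    · subst hwa
      have e := (toMeromorphicNFAt_eventuallyEq_nhds_congr (x := w) hgφ).eq_of_nhds
      show φ w = toMeromorphicNFAt g w w
      rw [e, toMeromorphicNFAt_eq_self.2 hφ.meromorphicNFAt]
    · have h2 : g =ᶠ[𝓝 w] φ := by
        have := hw hwa
        rwa [isOpen_compl_singleton.nhdsWithin_eq hwa] at this
      show φ w = toMeromorphicNFAt g w w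
      rw [toMeromorphicNFAt_eq_self.2 (hw'.congr h2.symm).meromorphicNFAt]
      exact h2.eq_of_nhds.symm
  have hg'eq : ∀ a ∈ Metric.ball c R, a ∉ S → g' a = g a := by
    intro a ha haS
    obtain ⟨φ, hφ, hgφ⟩ := hloc a ha
    have hG : AnalyticAt ℂ G a := by
      by_contra hne
      exact haS ((hmemS a).2 ⟨Metric.ball_subset_closedBall ha, hne⟩)
    have hga : AnalyticAt ℂ g a := hG.sub (Finset.analyticAt_fun_sum S fun b hb =>
      (analyticAt_id.sub analyticAt_const).inv (sub_ne_zero.2 fun h => haS (by have h' : a = b := h; rw [h']; exact hb)))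
    show toMeromorphicNFAt g a a = g a
    rw [toMeromorphicNFAt_eq_self.2 hga.meromorphicNFAt]
  obtain ⟨H, hH⟩ := DifferentiableOn.isExactOn_ball
    (f := g') (fun a ha => (hg' a ha).differentiableAt.differentiableWithinAt)
  let P : ℂ → ℂ := fun w => ∏ b ∈ S, (w - b)
  refine ⟨fun w => Complex.exp (H w) * P w, fun a ha => ?_⟩
  have hHan : AnalyticAt ℂ H a :=
    DifferentiableOn.analyticAt (fun x hx => (hH x hx).differentiableAt.differentiableWithinAt)
      (Metric.isOpen_ball.mem_nhds ha)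
  have hPan : ∀ T : Finset ℂ, AnalyticAt ℂ (fun w => ∏ b ∈ T, (w - b)) a := fun T =>
    Finset.analyticAt_fun_prod T fun b _ => analyticAt_id.sub analyticAt_const
  have hEan : AnalyticAt ℂ (fun w => Complex.exp (H w)) a := hHan.cexp
  have hF : AnalyticAt ℂ (fun w => Complex.exp (H w) * P w) a := hEan.mul (hPan S)
  by_cases haS : a ∈ S
  · have hord : meromorphicOrderAt (fun w => Complex.exp (H w) * P w) a = 1 := by
      have e : (fun w => Complex.exp (H w) * P w) =
          (fun w => Complex.exp (H w) * ∏ b ∈ S.erase a, (w - b)) * (fun w => w - a) := by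
        funext w
        simp only [P, Pi.mul_apply]
        rw [← Finset.mul_prod_erase _ _ haS]
        ring
      have h1 : AnalyticAt ℂ (fun w => Complex.exp (H w) * ∏ b ∈ S.erase a, (w - b)) a :=
        hEan.mul (hPan _)
      have h2 : AnalyticAt ℂ (fun w : ℂ => w - a) a := analyticAt_id.sub analyticAt_const
      rw [e, meromorphicOrderAt_mul h1.meromorphicAt h2.meromorphicAt,
        h1.meromorphicNFAt.meromorphicOrderAt_eq_zero_iff.2 ?_, zero_add,
        meromorphicOrderAt_id_sub_const]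
      exact mul_ne_zero (Complex.exp_ne_zero _) (Finset.prod_ne_zero_iff.2 fun b hb =>
        sub_ne_zero.2 (Finset.ne_of_mem_erase hb).symm)
    refine ⟨hF, by rw [hord]; exact WithTop.coe_ne_top (a := (1 : ℤ)), fun hG => ?_, fun _ => hord⟩
    exact absurd hG ((hmemS a).1 haS).2
  · have hP0 : P a ≠ 0 := Finset.prod_ne_zero_iff.2 fun b hb => sub_ne_zero.2 fun h => haS (h ▸ hb)
    have hF0 : Complex.exp (H a) * P a ≠ 0 := mul_ne_zero (Complex.exp_ne_zero _) hP0
    refine ⟨hF, by
      rw [hF.meromorphicNFAt.meromorphicOrderAt_eq_zero_iff.2 hF0]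
      exact WithTop.zero_ne_top, fun _ => ⟨?_, hF0⟩, fun hG => ?_⟩
    · have hE := (hH a ha).cexp
      have hPd : HasDerivAt P (∑ b ∈ S, (∏ x ∈ S.erase b, (a - x)) * 1) a := by
        simpa only [P, smul_eq_mul] using
          HasDerivAt.fun_finsetProd (u := S) (f := fun b w => w - b)
            (fun b _ => (hasDerivAt_id a).sub_const b)
      refine (hE.mul hPd).congr_deriv ?_
      have hsum : ∑ b ∈ S, (∏ x ∈ S.erase b, (a - x)) * 1 = P a * ∑ b ∈ S, (a - b)⁻¹ := by
        rw [Finset.mul_sum]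
        refine Finset.sum_congr rfl fun b hb => ?_
        simp only [P]
        rw [← Finset.mul_prod_erase _ _ hb, mul_one]
        have : a - b ≠ 0 := sub_ne_zero.2 fun h => haS (h ▸ hb)
        field_simp
      rw [hsum, hg'eq a ha haS]
      simp only [g]
      ring
    · exact absurd ((hmemS a).2 ⟨Metric.ball_subset_closedBall ha, hG⟩) haS

/-- A holomorphic function on `ℍ` with logarithmic derivative `G`. -/
theorem exists_expPrimitive {G : ℍ → ℂ} (hG : IsMero G)
    (h : ∀ z : ℍ, HasUnitResidue (G ∘ ofComplex) (z : ℂ)) :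
    ∃ f : ℍ → ℂ, ∀ z : ℍ, AnalyticAt ℂ (f ∘ ofComplex) (z : ℂ) ∧
      (AnalyticAt ℂ (G ∘ ofComplex) (z : ℂ) →
        HasDerivAt (f ∘ ofComplex) (G z * f z) (z : ℂ) ∧ f z ≠ 0) ∧
      (¬AnalyticAt ℂ (G ∘ ofComplex) (z : ℂ) →
        meromorphicOrderAt (f ∘ ofComplex) (z : ℂ) = 1) := by
  classical
  set G' := G ∘ ofComplex
  set B : ℕ → Set ℂ := fun m => Metric.ball (discC m) (discR m)
  have hBU : ∀ m, B m ⊆ upperHalfPlaneSet := fun m =>
    Metric.ball_subset_closedBall.trans (closedBall_disc_subset m)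
  have hF₀ := fun m => exists_expPrimitive_ball (G := G') (c := discC m) (R := discR m)
    (fun a ha => hG.meromorphicAt ⟨a, closedBall_disc_subset m ha⟩)
    (fun a ha => h ⟨a, closedBall_disc_subset m ha⟩)
  choose F₀ hF₀ using hF₀
  -- a base point
  obtain ⟨b, hb, hbG⟩ : ∃ b ∈ B 0, AnalyticAt ℂ G' b := by
    have hc : discC 0 ∈ B 0 := Metric.mem_ball_self (discR_pos 0)
    have := (hG.meromorphicAt ⟨discC 0, hBU 0 hc⟩).eventually_analyticAt
    have h2 : ∀ᶠ x in 𝓝[≠] discC 0, x ∈ B 0 :=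
      mem_nhdsWithin_of_mem_nhds (Metric.isOpen_ball.mem_nhds hc)
    obtain ⟨b, hb1, hb2⟩ := (this.and h2).exists
    exact ⟨b, hb2, hb1⟩
  have hbm : ∀ m, b ∈ B m := fun m => ball_disc_mono (Nat.zero_le m) hb
  let F : ℕ → ℂ → ℂ := fun m w => F₀ m w / F₀ m b
  have hFb : ∀ m, F₀ m b ≠ 0 := fun m => (((hF₀ m) b (hbm m)).2.2.1 hbG).2
  have hFm : ∀ m, ∀ a ∈ B m, AnalyticAt ℂ (F m) a ∧
      (AnalyticAt ℂ G' a → HasDerivAt (F m) (G' a * F m a) a ∧ F m a ≠ 0) ∧
      (¬AnalyticAt ℂ G' a → meromorphicOrderAt (F m) a = 1) := by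
    intro m a ha
    obtain ⟨h1, -, h3, h4⟩ := hF₀ m a ha
    refine ⟨h1.div_const, fun hGa => ⟨((h3 hGa).1.div_const (F₀ m b)).congr_deriv (by
      simp only [F]; ring), div_ne_zero (h3 hGa).2 (hFb m)⟩, fun hGa => ?_⟩
    have e : F m = (fun _ => (F₀ m b)⁻¹) * F₀ m := by
      funext w; simp only [F, Pi.mul_apply]; ring
    rw [e, meromorphicOrderAt_mul (analyticAt_const (v := (F₀ m b)⁻¹)).meromorphicAt
      h1.meromorphicAt, meromorphicOrderAt_const, if_neg (inv_ne_zero (hFb m)), zero_add, h4 hGa]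
  have hstep : ∀ m, EqOn (F m) (F (m + 1)) (B m) := by
    intro m
    have hsub : B m ⊆ B (m + 1) := ball_disc_mono m.le_succ
    have hW : AnalyticOnNhd ℂ (fun w => F m w - F (m + 1) w) (B m) := fun a ha =>
      (hFm m a ha).1.sub (hFm (m + 1) a (hsub ha)).1
    have hev : ∀ᶠ w in 𝓝 b, F m w - F (m + 1) w = 0 := by
      refine eventually_eq_zero_of_ode (hW b (hbm m)) hbG ?_ ?_
      · filter_upwards [hbG.eventually_analyticAt.filter_mono nhdsWithin_le_nhds,
          mem_nhdsWithin_of_mem_nhds (Metric.isOpen_ball.mem_nhds (hbm m))] with w hw hwB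
        have h1 : HasDerivAt (fun x => F m x - F (m + 1) x)
            (G' w * F m w - G' w * F (m + 1) w) w :=
          ((hFm m w hwB).2.1 hw).1.sub ((hFm (m + 1) w (hsub hwB)).2.1 hw).1
        rw [h1.deriv]
        ring
      · simp only [F, div_self (hFb m), div_self (hFb (m + 1)), sub_self]
    intro w hw
    exact sub_eq_zero.1 (hW.eqOn_zero_of_preconnected_of_eventuallyEq_zero
      (convex_ball _ _).isPreconnected (hbm m) hev hw)
  have hle : ∀ m m', m ≤ m' → EqOn (F m) (F m') (B m) := by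
    intro m m' h
    induction m', h using Nat.le_induction with
    | base => exact fun _ _ => rfl
    | succ m' h ih => exact ih.trans ((hstep m').mono (ball_disc_mono h))
  let idx : ℍ → ℕ := fun z => Nat.find (exists_mem_ball_disc (z : ℂ) z.im_pos)
  have hidx : ∀ z : ℍ, (z : ℂ) ∈ B (idx z) := fun z =>
    Nat.find_spec (exists_mem_ball_disc (z : ℂ) z.im_pos)
  refine ⟨fun z => F (idx z) z, fun z => ?_⟩
  have hloc : (fun w : ℍ => F (idx w) w) ∘ ofComplex =ᶠ[𝓝 (z : ℂ)] F (idx z) := by
    filter_upwards [Metric.isOpen_ball.mem_nhds (hidx z)] with w hw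
    have hw0 : 0 < w.im := hBU _ hw
    simp only [Function.comp_apply, ofComplex_apply_of_im_pos hw0]
    rcases le_total (idx ⟨w, hw0⟩) (idx z) with hle' | hle'
    · exact hle _ _ hle' (hidx ⟨w, hw0⟩)
    · exact (hle _ _ hle' hw).symm
  obtain ⟨h1, h2, h3⟩ := hFm (idx z) z (hidx z)
  refine ⟨h1.congr hloc.symm, fun hGz => ?_, fun hGz => ?_⟩
  · have hz : G' (z : ℂ) = G z := by simp [G', ofComplex_apply]
    refine ⟨?_, (h2 hGz).2⟩
    rw [← hz]
    exact (h2 hGz).1.congr_of_eventuallyEq hloc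
  · rw [meromorphicOrderAt_congr (hloc.filter_mono nhdsWithin_le_nhds)]
    exact h3 hGz

/-- The behaviour at `i∞` of a function with periodic logarithmic derivative. -/
theorem exists_tendsto_expPrimitive {v g : ℍ → ℂ} {w : ℝ} (hw : 0 < w) {L : ℂ}
    (hder : ∀ᶠ z : ℍ in atImInfty, HasDerivAt (v ∘ ofComplex) (g z * v z) (z : ℂ) ∧ v z ≠ 0 ∧
      DifferentiableAt ℂ (g ∘ ofComplex) (z : ℂ))
    (hper : ∀ z : ℍ, g (w +ᵥ z) = g z) (hlim : Tendsto g atImInfty (𝓝 L)) :
    ∃ K : ℂ, K ≠ 0 ∧
      Tendsto (fun z : ℍ => v z * Complex.exp (-(L * (z : ℂ)))) atImInfty (𝓝 K) := by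
  set u : ℂ → ℂ := fun x => (g ∘ ofComplex) x - L with hu
  have hperu : Function.Periodic u (w : ℂ) := by
    intro x
    simp only [hu, Function.comp_apply]
    congr 1
    by_cases hx : 0 < x.im
    · have hx' : 0 < (x + (w : ℂ)).im := by simpa using hx
      rw [ofComplex_apply_of_im_pos hx, ofComplex_apply_of_im_pos hx', ← hper ⟨x, hx⟩]
      congr 1
      apply UpperHalfPlane.ext
      simp [UpperHalfPlane.coe_vadd, add_comm]
    · have hx' : ¬0 < (x + (w : ℂ)).im := by simpa using hx
      rw [ofComplex_apply_of_im_nonpos (not_lt.mp hx), ofComplex_apply_of_im_nonpos (not_lt.mp hx')]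
  rw [Filter.Eventually, atImInfty_mem] at hder
  obtain ⟨A, hA⟩ := hder
  have hhol : ∀ᶠ x in comap Complex.im atTop, DifferentiableAt ℂ u x := by
    filter_upwards [preimage_mem_comap (Ioi_mem_atTop (max A 0))] with x hx
    have hx0 : 0 < x.im := lt_of_le_of_lt (le_max_right _ _) hx
    exact ((hA ⟨x, hx0⟩ (le_trans (le_max_left _ _) (le_of_lt hx))).2.2).sub_const L
  have hzero : ZeroAtFilter (comap Complex.im atTop) u := by
    have h1 : Tendsto (fun z : ℍ => g z - L) atImInfty (𝓝 0) := by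
      simpa using hlim.sub_const L
    have h2 : Tendsto (fun x : ℂ => (ofComplex x : ℍ)) (comap Complex.im atTop) atImInfty := by
      rw [atImInfty, tendsto_comap_iff]
      refine tendsto_comap.congr' ?_
      filter_upwards [preimage_mem_comap (Ioi_mem_atTop (0 : ℝ))] with x hx
      simp [ofComplex_apply_of_im_pos (hx : 0 < x.im), UpperHalfPlane.im]
    exact h1.comp h2
  set Φ := Function.Periodic.cuspFunction w u with hΦ
  have hΦ0 : Φ 0 = 0 := Function.Periodic.cuspFunction_zero_of_zero_at_inf hw hzero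
  have hΦd : ∀ᶠ q in 𝓝 (0 : ℂ), DifferentiableAt ℂ Φ q := by
    have h1 := Function.Periodic.differentiableAt_cuspFunction_zero hw hperu hhol
      hzero.boundedAtFilter
    have h2 := Function.Periodic.eventually_differentiableAt_cuspFunction_nhds_ne_zero hw hperu hhol
    rw [eventually_nhdsWithin_iff] at h2
    filter_upwards [h2] with q hq
    by_cases h0 : q = 0
    · exact h0 ▸ h1
    · exact hq h0
  obtain ⟨ε, hε, hball⟩ := Metric.eventually_nhds_iff_ball.1 hΦd
  have hψ : DifferentiableOn ℂ (fun q => (w : ℂ) / (2 * Real.pi * Complex.I) * dslope Φ 0 q)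
      (Metric.ball 0 ε) :=
    ((Complex.differentiableOn_dslope (Metric.ball_mem_nhds 0 hε)).2
      fun q hq => (hball q hq).differentiableWithinAt).const_mul _
  obtain ⟨Ψ, hΨ⟩ := hψ.isExactOn_ball
  -- a half plane mapping into the disc
  obtain ⟨A', hA'⟩ : ∃ A' : ℝ, ∀ x : ℂ, A' < x.im →
      Function.Periodic.qParam w x ∈ Metric.ball (0 : ℂ) ε := by
    have h1 := (Function.Periodic.qParam_tendsto hw).mono_right nhdsWithin_le_nhds
    obtain ⟨s, hs, hs'⟩ := h1 (Metric.ball_mem_nhds (0 : ℂ) hε)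
    obtain ⟨A', hA'⟩ := mem_atTop_sets.1 hs
    exact ⟨A', fun x hx => hs' (hA' _ hx.le)⟩
  set H : Set ℂ := {x | max (max A A') 0 < x.im}
  let k : ℂ → ℂ := fun x => (v ∘ ofComplex) x * Complex.exp (-(L * x)) *
    Complex.exp (-Ψ (Function.Periodic.qParam w x))
  have hk : ∀ x ∈ H, HasDerivAt k 0 x := by
    intro x hx
    have hx0 : 0 < x.im := lt_of_le_of_lt (le_max_right _ _) hx
    have hxA : A ≤ x.im := le_trans ((le_max_left A A').trans (le_max_left _ _)) (le_of_lt hx)
    have hxA' : A' < x.im := lt_of_le_of_lt ((le_max_right A A').trans (le_max_left _ _)) hx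
    obtain ⟨hv, -, -⟩ := hA ⟨x, hx0⟩ hxA
    set q := Function.Periodic.qParam w x with hq
    have hqd : HasDerivAt (Function.Periodic.qParam w) (q * (2 * Real.pi * Complex.I / w)) x := by
      simpa only [id_eq, mul_one, hq, Function.Periodic.qParam] using!
        (((hasDerivAt_id x).const_mul _).div_const _).cexp
    have hΨd := (hΨ q (hA' x hxA')).comp x hqd
    have hkey : (w : ℂ) / (2 * Real.pi * Complex.I) * dslope Φ 0 q *
        (q * (2 * Real.pi * Complex.I / w)) = (g ∘ ofComplex) x - L := by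
      have h1 : dslope Φ 0 q * q = u x := by
        have := sub_smul_dslope Φ 0 q
        rw [sub_zero, hΦ0, sub_zero, smul_eq_mul] at this
        rw [mul_comm, this, hΦ, hq, Function.Periodic.eq_cuspFunction hw.ne' hperu]
      have hw' : (w : ℂ) ≠ 0 := by exact_mod_cast hw.ne'
      calc _ = dslope Φ 0 q * q * ((w : ℂ) / (2 * Real.pi * Complex.I) *
            (2 * Real.pi * Complex.I / w)) := by ring
        _ = u x := by
            rw [h1, div_mul_div_comm, mul_comm (w : ℂ), div_self (mul_ne_zero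
              Complex.two_pi_I_ne_zero hw'), mul_one]
    rw [hkey] at hΨd
    have hv' : HasDerivAt (v ∘ ofComplex) ((g ∘ ofComplex) x * (v ∘ ofComplex) x) x := by
      simpa [ofComplex_apply_of_im_pos hx0] using hv
    have := (hv'.mul ((hasDerivAt_id x).const_mul L).neg.cexp).mul hΨd.neg.cexp
    refine this.congr_deriv ?_
    simp only [Function.comp_apply, Pi.mul_apply, id, mul_one]
    ring
  have hHo : IsOpen H := isOpen_lt continuous_const Complex.continuous_im
  obtain ⟨K₀, hK₀⟩ := hHo.exists_is_const_of_deriv_eq_zero (f := k)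
    (convex_halfSpace_im_gt _).isPreconnected
    (fun x hx => (hk x hx).differentiableAt.differentiableWithinAt) (fun x hx => (hk x hx).deriv)
  have hkz : ∀ z : ℍ, max (max A A') 0 < z.im →
      v z * Complex.exp (-(L * (z : ℂ))) =
        K₀ * Complex.exp (Ψ (Function.Periodic.qParam w z)) := by
    intro z hz
    rw [← hK₀ z hz]
    simp only [k, Function.comp_apply, ofComplex_apply]
    rw [mul_assoc _ (Complex.exp (-Ψ _)), ← Complex.exp_add, neg_add_cancel, Complex.exp_zero,
      mul_one]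
  refine ⟨K₀ * Complex.exp (Ψ 0), mul_ne_zero ?_ (Complex.exp_ne_zero _), ?_⟩
  · obtain ⟨z, hz⟩ := exists_im_gt (max (max A A') 0)
    intro h0
    have h1 := hkz z hz
    rw [h0, zero_mul] at h1
    exact (mul_ne_zero (hA z ((le_max_left A A').trans (le_max_left _ _) |>.trans hz.le)).2.1
      (Complex.exp_ne_zero _)) h1
  · have hΨ0 : ContinuousAt Ψ 0 := (hΨ 0 (Metric.mem_ball_self hε)).continuousAt
    have hq0 : Tendsto (fun z : ℍ => Function.Periodic.qParam w (z : ℂ)) atImInfty (𝓝 0) :=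
      ((Function.Periodic.qParam_tendsto hw).mono_right nhdsWithin_le_nhds).comp (by
        rw [tendsto_comap_iff]; exact tendsto_comap)
    have hlim' : Tendsto (fun z : ℍ => K₀ * Complex.exp (Ψ (Function.Periodic.qParam w (z : ℂ))))
        atImInfty (𝓝 (K₀ * Complex.exp (Ψ 0))) :=
      ((hΨ0.tendsto.comp hq0).cexp).const_mul K₀
    refine hlim'.congr' ?_
    have hev : ∀ᶠ z : ℍ in atImInfty, max (max A A') 0 < z.im := by
      rw [Filter.Eventually, atImInfty_mem]
      exact ⟨max (max A A') 0 + 1, fun z hz => by simp only [Set.mem_ofPred_eq]; linarith⟩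
    filter_upwards [hev] with z hz
    exact (hkz z hz).symm

end FLTAgent.Torsion
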