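import Mathlib

/-!
# Roots of meromorphic functions on plane domains

`exists_const_of_pow_eq`: on a preconnected domain two meromorphic functions with the same `n`-th
power differ by an `n`-th root of unity. `exists_root_ball`: if all orders on a closed disc are
divisible by `n`, an `n`-th root exists on the disc (divide off the zeros and poles, then take an
exponential of the primitive of the logarithmic derivative).
-/

set_option autoImplicit false

noncomputable section

open Filter Topology Set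

namespace FLTAgent.Torsion

variable {U : Set ℂ} {f g : ℂ → ℂ}

/-- Two meromorphic functions with the same `n`-th power differ by an `n`-th root of unity. -/
theorem exists_const_of_pow_eq (hU : IsOpen U) (hUc : IsPreconnected U) (hne : U.Nonempty)
    (hf : MeromorphicNFOn f U) (hg : MeromorphicNFOn g U)
    (hg0 : ∀ z ∈ U, meromorphicOrderAt g z ≠ ⊤) {n : ℕ} (hn : n ≠ 0)
    (h : ∀ z ∈ U, f ^ n =ᶠ[𝓝[≠] z] g ^ n) :
    ∃ ζ : ℂ, ζ ^ n = 1 ∧ EqOn f (fun z => ζ * g z) U := by
  have hfm := hf.meromorphicOn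
  have hgm := hg.meromorphicOn
  have hord : ∀ z ∈ U, meromorphicOrderAt (f / g) z = 0 := by
    intro z hz
    obtain ⟨k, hk⟩ := WithTop.ne_top_iff_exists.mp (hg0 z hz)
    have h1 := meromorphicOrderAt_congr (h z hz)
    rw [meromorphicOrderAt_pow (hfm z hz), meromorphicOrderAt_pow (hgm z hz), ← hk] at h1
    rw [meromorphicOrderAt_div (hfm z hz) (hgm z hz)]
    cases hl : meromorphicOrderAt f z with
    | top => rw [hl, WithTop.mul_top (by exact_mod_cast hn)] at h1; exact absurd h1.symm (by simp [← WithTop.coe_natCast, ← WithTop.coe_mul])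
    | coe l =>
      rw [hl, ← WithTop.coe_natCast, ← WithTop.coe_mul, ← WithTop.coe_mul, WithTop.coe_inj] at h1
      have : l = k := mul_left_cancel₀ (by exact_mod_cast hn) h1
      rw [← hk, this, ← WithTop.LinearOrderedAddCommGroup.coe_sub, sub_self]
      rfl
  set q := toMeromorphicNFOn (f / g) U with hq
  have hdiv : MeromorphicOn (f / g) U := hfm.div hgm
  have hqe : ∀ z ∈ U, f / g =ᶠ[𝓝[≠] z] q := fun z hz =>
    (hdiv.toMeromorphicNFOn_eq_self_on_nhdsNE hz).symm
  have hqnf : MeromorphicNFOn q U := meromorphicNFOn_toMeromorphicNFOn _ _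
  have hqan : ∀ z ∈ U, AnalyticAt ℂ q z := fun z hz => by
    rw [← (hqnf hz).meromorphicOrderAt_nonneg_iff_analyticAt, ← meromorphicOrderAt_congr (hqe z hz),
      hord z hz]
  have hgne : ∀ z ∈ U, ∀ᶠ w in 𝓝[≠] z, g w ≠ 0 := fun z hz =>
    (meromorphicOrderAt_ne_top_iff_eventually_ne_zero (hgm z hz)).mp (hg0 z hz)
  have hqn : ∀ z ∈ U, q z ^ n = 1 := by
    intro z hz
    have h1 : ∀ᶠ w in 𝓝[≠] z, q w ^ n = 1 := by
      filter_upwards [h z hz, hqe z hz, hgne z hz] with w hw hw' hw''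
      simp only [Pi.pow_apply] at hw
      rw [← hw', Pi.div_apply, div_pow, hw, div_self (pow_ne_zero _ hw'')]
    exact tendsto_nhds_unique (((hqan z hz).continuousAt.pow n).tendsto.mono_left nhdsWithin_le_nhds)
      (tendsto_const_nhds.congr' (EventuallyEq.symm h1))
  obtain ⟨z₀, hz₀⟩ := hne
  have hfin : {ζ : ℂ | ζ ^ n = 1}.Finite := by
    refine (Polynomial.nthRoots n (1 : ℂ)).toFinset.finite_toSet.subset fun ζ hζ => ?_
    simpa [Polynomial.mem_nthRoots (Nat.pos_of_ne_zero hn)] using hζ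
  have hconst : ∀ z ∈ U, q z = q z₀ := fun z hz =>
    hUc.constant_of_mapsTo hfin.isDiscrete
      (fun w hw => (hqan w hw).continuousAt.continuousWithinAt) hqn hz hz₀
  refine ⟨q z₀, hqn z₀ hz₀, fun z hz => ?_⟩
  have hζ0 : q z₀ ≠ 0 := fun h0 => by simpa [h0, zero_pow hn] using hqn z₀ hz₀
  have h2 : f =ᶠ[𝓝[≠] z] fun w => q z₀ * g w := by
    filter_upwards [hqe z hz, hgne z hz, nhdsWithin_le_nhds (hU.mem_nhds hz)] with w hw hw' hwU
    rw [← hconst w hwU, ← hw, Pi.div_apply, div_mul_cancel₀ _ hw']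
  exact (((hf hz).eventuallyEq_nhdsNE_iff_eventuallyEq_nhds
    ((meromorphicNFAt_mul_iff_right analyticAt_const hζ0).mpr (hg hz))).mp h2).eq_of_nhds

/-- `n`-th roots exist on a disc whose closure lies in the domain of meromorphy. -/
theorem exists_root_ball {c : ℂ} {r : ℝ} {g : ℂ → ℂ} (hr : 0 < r)
    (hg : MeromorphicOn g (Metric.closedBall c r))
    (hg0 : ∀ z ∈ Metric.closedBall c r, meromorphicOrderAt g z ≠ ⊤) {n : ℕ} (hn : n ≠ 0)
    (hdiv : ∀ z ∈ Metric.closedBall c r, (n : ℤ) ∣ (meromorphicOrderAt g z).untop₀) :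
    ∃ f : ℂ → ℂ, MeromorphicNFOn f (Metric.ball c r) ∧
      (∀ z ∈ Metric.ball c r, f ^ n =ᶠ[𝓝[≠] z] g) := by
  classical
  set K := Metric.closedBall c r
  set B := Metric.ball c r
  set D := MeromorphicOn.divisor g K
  have hfin : D.support.Finite :=
    Function.locallyFinsuppWithin.finiteSupport _ (isCompact_closedBall c r)
  obtain ⟨h, hh, hh0, hgh⟩ := hg.extract_zeros_poles (fun u => hg0 u u.2) hfin
  set s := hfin.toFinset
  have hDn : ∀ u, (n : ℤ) ∣ D u := by
    intro u
    by_cases hu : u ∈ K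
    · rw [MeromorphicOn.divisor_apply hg hu]; exact hdiv u hu
    · rw [Function.locallyFinsuppWithin.apply_eq_zero_of_notMem _ hu]; exact dvd_zero _
  have hφ : (∏ᶠ u, (· - u) ^ D u : ℂ → ℂ) = ∏ u ∈ s, (· - u) ^ D u := by
    refine finprod_eq_prod_of_mulSupport_subset _ fun u hu => ?_
    simp only [s, Set.Finite.coe_toFinset, Function.mem_support]
    intro h0
    exact hu (by simp [h0])
  let ψ : ℂ → ℂ := ∏ u ∈ s, (· - u) ^ (D u / n)
  have hψm : ∀ z, MeromorphicAt ψ z := fun z =>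
    MeromorphicAt.prod fun u _ => ((MeromorphicAt.id z).sub (MeromorphicAt.const u z)).zpow _
  have hψn : ∀ x, ψ x ^ n = (∏ᶠ u, (· - u) ^ D u : ℂ → ℂ) x := by
    intro x
    simp only [hφ, ψ, Finset.prod_apply, Pi.pow_apply, ← Finset.prod_pow]
    refine Finset.prod_congr rfl fun u _ => ?_
    rw [← zpow_natCast, ← zpow_mul, Int.ediv_mul_cancel (hDn u)]
  have hBK : B ⊆ K := Metric.ball_subset_closedBall
  have hd : DifferentiableOn ℂ (fun z => deriv h z / h z) B := fun z hz =>
    ((hh z (hBK hz)).deriv.div (hh z (hBK hz)) (hh0 ⟨z, hBK hz⟩)).differentiableAt.differentiableWithinAt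
  obtain ⟨H, hH⟩ := hd.isExactOn_ball
  let L : ℂ → ℂ := fun z => h z * Complex.exp (-H z)
  have hL : ∀ z ∈ B, HasDerivAt L 0 z := fun z hz => by
    have h1 := (hh z (hBK hz)).differentiableAt.hasDerivAt.mul ((hH z hz).neg.cexp)
    refine h1.congr_deriv ?_
    have := hh0 ⟨z, hBK hz⟩
    simp only at this
    field_simp
    ring
  have hL' : ∀ z ∈ B, L z = L c := by
    obtain ⟨a, ha⟩ := IsOpen.exists_is_const_of_deriv_eq_zero Metric.isOpen_ball
      (convex_ball c r).isPreconnected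
      (fun z hz => (hL z hz).differentiableAt.differentiableWithinAt)
      (fun z hz => (hL z hz).deriv)
    intro z hz
    rw [ha z hz, ha c (Metric.mem_ball_self hr)]
  obtain ⟨a, ha⟩ := IsAlgClosed.exists_pow_nat_eq (L c) (Nat.pos_of_ne_zero hn)
  let f₁ : ℂ → ℂ := fun z => ψ z * (a * Complex.exp (H z / n))
  have hHan : ∀ z ∈ B, AnalyticAt ℂ H z := fun z hz =>
    (DifferentiableOn.analyticAt (fun w hw => (hH w hw).differentiableAt.differentiableWithinAt)
      (Metric.isOpen_ball.mem_nhds hz))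
  have hf₁ : MeromorphicOn f₁ B := fun z hz =>
    (hψm z).mul (analyticAt_const.mul ((hHan z hz).div analyticAt_const
      (by exact_mod_cast hn)).cexp).meromorphicAt
  refine ⟨toMeromorphicNFOn f₁ B, meromorphicNFOn_toMeromorphicNFOn _ _, fun z hz => ?_⟩
  have h1 : ∀ᶠ w in 𝓝[≠] z, toMeromorphicNFOn f₁ B w = f₁ w :=
    hf₁.toMeromorphicNFOn_eq_self_on_nhdsNE hz
  have h2 : ∀ᶠ w in 𝓝[≠] z, g w = ((∏ᶠ u, (· - u) ^ D u : ℂ → ℂ) • h) w := by
    have := mem_codiscreteWithin_iff_forall_mem_nhdsNE.mp hgh z (hBK hz)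
    filter_upwards [this, nhdsWithin_le_nhds (Metric.isOpen_ball.mem_nhds hz)] with w hw hwB
    exact hw.resolve_right (fun hc => hc (hBK hwB))
  filter_upwards [h1, h2, nhdsWithin_le_nhds (Metric.isOpen_ball.mem_nhds hz)] with w hw1 hw2 hwB
  rw [Pi.pow_apply, hw1, hw2, Pi.smul_apply', smul_eq_mul, mul_pow, mul_pow, hψn, ha,
    ← Complex.exp_nat_mul, mul_div_cancel₀ _ (by exact_mod_cast hn : (n : ℂ) ≠ 0)]
  have := hL' w hwB
  simp only [L] at this ⊢
  rw [← this, mul_assoc (h w), ← Complex.exp_add, neg_add_cancel, Complex.exp_zero, mul_one]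

end FLTAgent.Torsion
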