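import Fermat.Agent.Torsion.MeroAux
import Fermat.Agent.Torsion.Defs
import Fermat.Agent.Modular.Mero

/-!
# Roots of meromorphic functions on the upper half plane

`exists_eq_const_mul_of_pow_eq`: equal `n`-th powers differ by a root of unity.
`exists_root`: a meromorphic function on `ℍ` with all orders divisible by `n` is an `n`-th power;
the roots on an exhausting sequence of discs (`discC`, `discR`) are normalised to agree and glued.
-/

set_option autoImplicit false

noncomputable section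

open UpperHalfPlane Filter Topology Set

namespace FLTAgent.Torsion

open FLTAgent.Modular

theorem meromorphicNFOn_of_isMero {f : ℍ → ℂ} (hf : IsMero f) :
    MeromorphicNFOn (f ∘ ofComplex) upperHalfPlaneSet := fun z hz => hf ⟨z, hz⟩

theorem isMero_const_mul {f : ℍ → ℂ} (hf : IsMero f) {a : ℂ} (ha : a ≠ 0) :
    IsMero fun z => a * f z := fun z => by
  show MeromorphicNFAt ((fun _ => a) * (f ∘ ofComplex)) (z : ℂ)
  exact (meromorphicNFAt_mul_iff_right analyticAt_const ha).mpr (hf z)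

/-- Two functions on `ℍ` with the same `n`-th power differ by an `n`-th root of unity. -/
theorem exists_eq_const_mul_of_pow_eq {f g : ℍ → ℂ} (hf : IsMero f) (hg : IsMero g)
    (hg0 : ∀ z : ℍ, meromorphicOrderAt (g ∘ ofComplex) (z : ℂ) ≠ ⊤) {n : ℕ} (hn : n ≠ 0)
    (h : EqOffDiscrete (f ^ n) (g ^ n)) :
    ∃ ζ : ℂ, ζ ^ n = 1 ∧ ∀ z, f z = ζ * g z := by
  obtain ⟨ζ, hζ, hfg⟩ := exists_const_of_pow_eq (f := f ∘ ofComplex) (g := g ∘ ofComplex)
    isOpen_upperHalfPlaneSet isPreconnected_upperHalfPlaneSet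
    ⟨(UpperHalfPlane.I : ℂ), UpperHalfPlane.I.im_pos⟩ (meromorphicNFOn_of_isMero hf)
    (meromorphicNFOn_of_isMero hg) (fun z hz => hg0 ⟨z, hz⟩) hn (fun z hz => h ⟨z, hz⟩)
  exact ⟨ζ, hζ, fun z => by simpa [ofComplex_apply] using hfg z.im_pos⟩

/-- Centres of an exhausting sequence of discs. -/
def discC (m : ℕ) : ℂ := Complex.I * ((m : ℝ) + 2 : ℝ)

/-- Radii of an exhausting sequence of discs. -/
def discR (m : ℕ) : ℝ := (m : ℝ) + 2 - 1 / ((m : ℝ) + 2)

theorem discR_pos (m : ℕ) : 0 < discR m := by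
  have h : (0 : ℝ) ≤ m := Nat.cast_nonneg m
  have h2 : 1 / ((m : ℝ) + 2) ≤ 1 := by rw [div_le_one (by linarith)]; linarith
  unfold discR; linarith

theorem closedBall_disc_subset (m : ℕ) :
    Metric.closedBall (discC m) (discR m) ⊆ upperHalfPlaneSet := by
  intro z hz
  rw [Metric.mem_closedBall, dist_eq_norm] at hz
  have h := (Complex.abs_im_le_norm (z - discC m)).trans hz
  have hpos : 0 < 1 / ((m : ℝ) + 2) := by positivity
  have him : (discC m).im = (m : ℝ) + 2 := by simp [discC]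
  rw [Complex.sub_im, him, abs_le] at h
  show 0 < z.im
  unfold discR at h
  linarith [h.1]

theorem ball_disc_mono : Monotone fun m => Metric.ball (discC m) (discR m) := by
  refine monotone_nat_of_le_succ fun m => Metric.ball_subset_ball' ?_
  have hd : dist (discC m) (discC (m + 1)) = 1 := by
    rw [dist_eq_norm, discC, discC, ← mul_sub, norm_mul, Complex.norm_I, one_mul,
      ← Complex.ofReal_sub, Complex.norm_real]
    simp
  have h1 : 1 / (((m + 1 : ℕ) : ℝ) + 2) ≤ 1 / ((m : ℝ) + 2) :=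
    one_div_le_one_div_of_le (by positivity) (by push_cast; linarith)
  rw [hd]
  unfold discR
  push_cast at h1 ⊢
  linarith

theorem exists_mem_ball_disc (z : ℂ) (hz : 0 < z.im) :
    ∃ m, z ∈ Metric.ball (discC m) (discR m) := by
  obtain ⟨m, hm⟩ := exists_nat_gt ((z.re ^ 2 + z.im ^ 2 + 2) / (2 * z.im))
  refine ⟨m, ?_⟩
  rw [Metric.mem_ball, dist_eq_norm]
  have hR := discR_pos m
  rw [← sq_lt_sq₀ (norm_nonneg _) hR.le, Complex.sq_norm, Complex.normSq_apply]
  have hc : (discC m).im = (m : ℝ) + 2 := by simp [discC]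
  have hcr : (discC m).re = 0 := by simp [discC]
  rw [Complex.sub_re, Complex.sub_im, hc, hcr]
  rw [div_lt_iff₀ (by positivity)] at hm
  have hpos : (0 : ℝ) < (m : ℝ) + 2 := by positivity
  have hmul : (discR m) ^ 2 ≥ ((m : ℝ) + 2) ^ 2 - 2 := by
    unfold discR
    have h2 : ((m : ℝ) + 2) * (1 / ((m : ℝ) + 2)) = 1 := by field_simp
    nlinarith [sq_nonneg (1 / ((m : ℝ) + 2))]
  nlinarith

/-- An `n`-th root of a meromorphic function with orders divisible by `n`. -/
theorem exists_root {g : ℍ → ℂ} (hg : IsMero g)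
    (hg0 : ∀ z : ℍ, meromorphicOrderAt (g ∘ ofComplex) (z : ℂ) ≠ ⊤) {n : ℕ} (hn : n ≠ 0)
    (hdiv : ∀ z : ℍ, (n : ℤ) ∣ ordH g z) :
    ∃ f : ℍ → ℂ, IsMero f ∧ EqOffDiscrete (f ^ n) g := by
  classical
  set G := g ∘ ofComplex
  set B : ℕ → Set ℂ := fun m => Metric.ball (discC m) (discR m)
  have hBU : ∀ m, B m ⊆ upperHalfPlaneSet := fun m =>
    Metric.ball_subset_closedBall.trans (closedBall_disc_subset m)
  have hroot : ∀ m, ∃ f : ℂ → ℂ, MeromorphicNFOn f (B m) ∧
      ∀ z ∈ B m, f ^ n =ᶠ[𝓝[≠] z] G := fun m =>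
    exists_root_ball (discR_pos m)
      (fun z hz => (meromorphicNFOn_of_isMero hg).meromorphicOn z (closedBall_disc_subset m hz))
      (fun z hz => hg0 ⟨z, closedBall_disc_subset m hz⟩) hn
      (fun z hz => hdiv ⟨z, closedBall_disc_subset m hz⟩)
  choose r hr hrn using hroot
  have hmero : ∀ m, ∀ z ∈ B m, MeromorphicAt (r m) z := fun m z hz => (hr m hz).meromorphicAt
  have hr0 : ∀ m, ∀ z ∈ B m, meromorphicOrderAt (r m) z ≠ ⊤ := by
    intro m z hz htop
    have h := meromorphicOrderAt_congr (hrn m z hz)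
    rw [meromorphicOrderAt_pow (hmero m z hz), htop, WithTop.mul_top (by exact_mod_cast hn)] at h
    exact hg0 ⟨z, hBU m hz⟩ h.symm
  have hstep : ∀ m, ∀ f : ℂ → ℂ,
      (MeromorphicNFOn f (B m) ∧ ∀ z ∈ B m, f ^ n =ᶠ[𝓝[≠] z] G) →
      ∃ ζ : ℂ, ζ ^ n = 1 ∧ EqOn f (fun z => ζ * r (m + 1) z) (B m) := by
    intro m f hf
    have hmm : B m ⊆ B (m + 1) := ball_disc_mono m.le_succ
    refine exists_const_of_pow_eq Metric.isOpen_ball (convex_ball _ _).isPreconnected
      ⟨_, Metric.mem_ball_self (discR_pos m)⟩ hf.1 (fun z hz => hr (m + 1) (hmm hz))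
      (fun z hz => hr0 (m + 1) z (hmm hz)) hn ?_
    intro z hz
    exact (hf.2 z hz).trans (hrn (m + 1) z (hmm hz)).symm
  let P : ℕ → (ℂ → ℂ) → Prop := fun m f =>
    MeromorphicNFOn f (B m) ∧ ∀ z ∈ B m, f ^ n =ᶠ[𝓝[≠] z] G
  have hmul : ∀ m, ∀ ζ : ℂ, ζ ^ n = 1 → P m fun z => ζ * r m z := by
    intro m ζ hζ
    have hζ0 : ζ ≠ 0 := fun h0 => by simp [h0, zero_pow hn] at hζ
    refine ⟨fun z hz => (meromorphicNFAt_mul_iff_right analyticAt_const hζ0).mpr (hr m hz),
      fun z hz => ?_⟩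
    filter_upwards [hrn m z hz] with w hw
    rw [Pi.pow_apply, mul_pow, hζ, one_mul]
    exact hw
  let F : ∀ m, {f : ℂ → ℂ // P m f} := fun m =>
    Nat.rec ⟨r 0, hr 0, hrn 0⟩
      (fun m f => ⟨fun z => (hstep m f.1 f.2).choose * r (m + 1) z,
        hmul (m + 1) _ (hstep m f.1 f.2).choose_spec.1⟩) m
  have hsucc : ∀ m, EqOn (F m).1 (F (m + 1)).1 (B m) := fun m =>
    (hstep m (F m).1 (F m).2).choose_spec.2
  have hle : ∀ m m', m ≤ m' → EqOn (F m).1 (F m').1 (B m) := by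
    intro m m' h
    induction m', h using Nat.le_induction with
    | base => exact fun _ _ => rfl
    | succ m' h ih => exact ih.trans ((hsucc m').mono (ball_disc_mono h))
  let idx : ℍ → ℕ := fun z => Nat.find (exists_mem_ball_disc (z : ℂ) z.im_pos)
  have hidx : ∀ z : ℍ, (z : ℂ) ∈ B (idx z) := fun z =>
    Nat.find_spec (exists_mem_ball_disc (z : ℂ) z.im_pos)
  let f : ℍ → ℂ := fun z => (F (idx z)).1 (z : ℂ)
  have hloc : ∀ z : ℍ, f ∘ ofComplex =ᶠ[𝓝 (z : ℂ)] (F (idx z)).1 := by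
    intro z
    filter_upwards [Metric.isOpen_ball.mem_nhds (hidx z)] with w hw
    have hwim : 0 < w.im := hBU _ hw
    simp only [Function.comp_apply, f]
    rw [ofComplex_apply_of_im_pos hwim]
    exact hle _ _ (Nat.find_min' (exists_mem_ball_disc w hwim) hw) (hidx ⟨w, hwim⟩)
  refine ⟨f, fun z => (meromorphicNFAt_congr (hloc z)).mpr ((F (idx z)).2.1 (hidx z)),
    fun z => ?_⟩
  refine EventuallyEq.trans ?_ ((F (idx z)).2.2 _ (hidx z))
  filter_upwards [nhdsWithin_le_nhds (hloc z)] with w hw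
  simp only [Function.comp_apply, Pi.pow_apply] at hw ⊢
  rw [hw]

end FLTAgent.Torsion
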