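import Fermat.Agent.ModularDiff.Asymp
import Fermat.Agent.ModularPlaces.CuspOrders

/-!
# Residues under the weight two action of `SL(2, ℤ)`

`HasResidueH G z ρ` says `G` has at most a simple pole at `z`, of residue `ρ`; it is invariant
under the weight two slash action (`HasResidueH.slash`).
`eq_zero_of_levelOne_weight_two`: a holomorphic weight two form of level one bounded at `i∞` is
zero.
-/

set_option autoImplicit false
set_option linter.unusedSectionVars false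

noncomputable section

open UpperHalfPlane CongruenceSubgroup Filter Topology
open scoped MatrixGroups ModularForm

namespace FLTAgent.Torsion

open FLTAgent.Modular

/-- `G` has at most a simple pole at `z`, with residue `ρ`. -/
def HasResidueH (G : ℍ → ℂ) (z : ℍ) (ρ : ℂ) : Prop :=
  ∃ φ : ℂ → ℂ, AnalyticAt ℂ φ (z : ℂ) ∧
    G ∘ ofComplex =ᶠ[𝓝[≠] (z : ℂ)] fun w => ρ * (w - (z : ℂ))⁻¹ + φ w

theorem hasResidueH_of_analyticAt {G : ℍ → ℂ} {z : ℍ}
    (h : AnalyticAt ℂ (G ∘ ofComplex) (z : ℂ)) : HasResidueH G z 0 :=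
  ⟨G ∘ ofComplex, h, Eventually.of_forall fun w => by simp⟩

theorem HasResidueH.analyticAt {G : ℍ → ℂ} {z : ℍ} (h : HasResidueH G z 0) (hG : IsMero G) :
    AnalyticAt ℂ (G ∘ ofComplex) (z : ℂ) := by
  obtain ⟨φ, hφ, he⟩ := h
  have he' : G ∘ ofComplex =ᶠ[𝓝[≠] (z : ℂ)] φ := by
    filter_upwards [he] with w hw
    simpa using hw
  exact hφ.congr (((hG z).eventuallyEq_nhdsNE_iff_eventuallyEq_nhds hφ.meromorphicNFAt).1 he').symm

theorem HasResidueH.congr {G G' : ℍ → ℂ} {z : ℍ} {ρ : ℂ} (h : HasResidueH G z ρ)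
    (hGG : G ∘ ofComplex =ᶠ[𝓝[≠] (z : ℂ)] G' ∘ ofComplex) : HasResidueH G' z ρ := by
  obtain ⟨φ, hφ, he⟩ := h
  exact ⟨φ, hφ, hGG.symm.trans he⟩

theorem HasResidueH.const_mul {G : ℍ → ℂ} {z : ℍ} {ρ : ℂ} (h : HasResidueH G z ρ) (a : ℂ) :
    HasResidueH (fun w => a * G w) z (a * ρ) := by
  obtain ⟨φ, hφ, he⟩ := h
  refine ⟨fun w => a * φ w, analyticAt_const.mul hφ, ?_⟩
  filter_upwards [he] with w hw
  simp only [Function.comp_apply] at hw ⊢
  rw [hw]
  ring

theorem HasResidueH.sub {G G' : ℍ → ℂ} {z : ℍ} {ρ ρ' : ℂ} (h : HasResidueH G z ρ)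
    (h' : HasResidueH G' z ρ') : HasResidueH (G - G') z (ρ - ρ') := by
  obtain ⟨φ, hφ, he⟩ := h
  obtain ⟨φ', hφ', he'⟩ := h'
  refine ⟨fun w => φ w - φ' w, hφ.sub hφ', ?_⟩
  filter_upwards [he, he'] with w hw hw'
  simp only [Function.comp_apply, Pi.sub_apply] at hw hw' ⊢
  rw [hw, hw']
  ring

theorem hasResidueH_sum {ι : Type*} (s : Finset ι) {G : ι → ℍ → ℂ} {z : ℍ} {ρ : ι → ℂ}
    (h : ∀ i ∈ s, HasResidueH (G i) z (ρ i)) :
    HasResidueH (∑ i ∈ s, G i) z (∑ i ∈ s, ρ i) := by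
  classical
  induction s using Finset.induction with
  | empty => exact ⟨fun _ => 0, analyticAt_const, Eventually.of_forall fun w => by simp⟩
  | insert i s hi ih =>
    obtain ⟨φ, hφ, he⟩ := h i (Finset.mem_insert_self i s)
    obtain ⟨ψ, hψ, he'⟩ := ih fun j hj => h j (Finset.mem_insert_of_mem hj)
    refine ⟨fun w => φ w + ψ w, hφ.add hψ, ?_⟩
    filter_upwards [he, he'] with w hw hw'
    rw [Finset.sum_insert hi, Finset.sum_insert hi]
    simp only [Function.comp_apply, Pi.add_apply] at hw hw' ⊢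
    rw [hw, hw']
    ring

/-- A simple pole has a residue. -/
theorem exists_hasResidueH {G : ℍ → ℂ} (hG : IsMero G) {z : ℍ}
    (h : meromorphicOrderAt (G ∘ ofComplex) (z : ℂ) = ((-1 : ℤ) : WithTop ℤ)) :
    ∃ ρ : ℂ, ρ ≠ 0 ∧ HasResidueH G z ρ := by
  obtain ⟨g, hg, hg0, he⟩ := (meromorphicOrderAt_eq_int_iff (hG z).meromorphicAt).1 h
  obtain ⟨p, hp⟩ := hg
  refine ⟨g z, hg0, dslope g z, ⟨_, hp.has_fpower_series_dslope_fslope⟩, ?_⟩
  filter_upwards [he, self_mem_nhdsWithin] with w hw hwz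
  rw [hw, smul_eq_mul, dslope_of_ne g (by exact hwz), slope_def_field, zpow_neg_one]
  have : w - (z : ℂ) ≠ 0 := sub_ne_zero.2 hwz
  field_simp
  ring

theorem denom_eq_den (γ : SL(2, ℤ)) (w : ℂ) :
    denom (γ : GL (Fin 2) ℝ) w = ModularPlaces.den γ w := by
  simp [denom, ModularPlaces.den]

/-- The residue of a weight two form is invariant. -/
theorem HasResidueH.slash {G : ℍ → ℂ} (γ : SL(2, ℤ)) {z : ℍ} {ρ : ℂ}
    (h : HasResidueH G (γ • z) ρ) : HasResidueH (G ∣[(2 : ℤ)] γ) z ρ := by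
  obtain ⟨φ, hφ, he⟩ := h
  have hd := ModularPlaces.den_ne_zero γ z.im_pos
  have hz : ModularPlaces.mob γ z = ((γ • z : ℍ) : ℂ) := (ModularPlaces.coe_smul_eq_mob γ z).symm
  have hm := ModularPlaces.analyticAt_mob γ hd
  refine ⟨fun w => -ρ * (γ.1 1 0 : ℂ) / ModularPlaces.den γ w +
    φ (ModularPlaces.mob γ w) * (ModularPlaces.den γ w ^ 2)⁻¹, ?_, ?_⟩
  · refine ((analyticAt_const.div (ModularPlaces.analyticAt_den γ _) hd).add ?_)
    exact (hφ.comp_of_eq hm hz).mul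
      (((ModularPlaces.analyticAt_den γ _).pow 2).inv (pow_ne_zero _ hd))
  have hne₁ : ∀ᶠ w in 𝓝[≠] (z : ℂ), w ≠ (z : ℂ) := self_mem_nhdsWithin
  have hne : ∀ᶠ w in 𝓝[≠] (z : ℂ), w ≠ (z : ℂ) ∧ 0 < w.im :=
    hne₁.and (mem_nhdsWithin_of_mem_nhds
      ((isOpen_lt continuous_const Complex.continuous_im).mem_nhds z.im_pos))
  have htend : Tendsto (ModularPlaces.mob γ) (𝓝[≠] (z : ℂ)) (𝓝[≠] ((γ • z : ℍ) : ℂ)) := by
    rw [← hz]
    refine tendsto_nhdsWithin_iff.2 ⟨hm.continuousAt.tendsto.mono_left nhdsWithin_le_nhds, ?_⟩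
    filter_upwards [hne] with w hw h0
    have h2 := ModularPlaces.mob_sub_mob γ (ModularPlaces.den_ne_zero γ hw.2) hd
    rw [(h0 : ModularPlaces.mob γ w = _), sub_self] at h2
    exact hw.1 (sub_eq_zero.mp ((div_eq_zero_iff.mp h2.symm).resolve_right
      (mul_ne_zero (ModularPlaces.den_ne_zero γ hw.2) hd)))
  filter_upwards [htend.eventually he, hne,
    mem_nhdsWithin_of_mem_nhds (ModularDiff.slash_comp_ofComplex G γ 2 z),
    mem_nhdsWithin_of_mem_nhds (ModularPlaces.eventuallyEq_smul_comp_ofComplex G γ z)]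
    with w h1 hw h2 h3
  simp only [Pi.mul_apply, Function.comp_apply] at h1 h2 h3 ⊢
  rw [h2, h3, h1, denom_eq_den, ← hz, ModularPlaces.mob_sub_mob γ
    (ModularPlaces.den_ne_zero γ hw.2) hd]
  have hw' : w - (z : ℂ) ≠ 0 := sub_ne_zero.2 hw.1
  have hdw := ModularPlaces.den_ne_zero γ hw.2
  have e : ModularPlaces.den γ (z : ℂ) =
      ModularPlaces.den γ w - (γ.1 1 0 : ℂ) * (w - (z : ℂ)) := by
    simp only [ModularPlaces.den]; ring
  rw [zpow_neg, zpow_two]
  field_simp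
  rw [e]
  ring

theorem slash_T_zpow (F : ℍ → ℂ) (m : ℤ) (z : ℍ) :
    (F ∣[(2 : ℤ)] (ModularGroup.T ^ m)) z = F ((m : ℝ) +ᵥ z) := by
  rw [ModularForm.SL_slash_apply, modular_T_zpow_smul, denom_eq_den]
  simp [ModularPlaces.den, ModularGroup.coe_T_zpow]

/-- A holomorphic form of weight two and level one vanishes. -/
theorem eq_zero_of_levelOne_weight_two {F : ℍ → ℂ}
    (han : ∀ z : ℍ, AnalyticAt ℂ (F ∘ ofComplex) (z : ℂ))
    (hinv : ∀ γ : SL(2, ℤ), F ∣[(2 : ℤ)] γ = F) (hbd : IsBoundedAtImInfty F) : F = 0 := by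
  let f : ModularForm 𝒮ℒ 2 :=
    { toFun := F
      slash_action_eq' := fun A hA => by
        obtain ⟨A, rfl⟩ := hA
        exact hinv A
      holo' := fun z => UpperHalfPlane.mdifferentiableAt_iff.2 (han z).differentiableAt
      bdd_at_cusps' := fun {c} hc => by
        rw [Subgroup.IsArithmetic.isCusp_iff_isCusp_SL2Z] at hc
        rw [OnePoint.isBoundedAt_iff_forall_SL2Z hc]
        intro γ _
        rw [hinv]
        exact hbd }
  have h := rank_zero_iff_forall_zero.1 ModularForm.levelOne_weight_two_rank_zero f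
  exact congrArg DFunLike.coe h

end FLTAgent.Torsion
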