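import Fermat.Agent.Torsion.MultGroup
import Fermat.Agent.Torsion.ExpPrimitive
import Fermat.Agent.Torsion.SlashResidue
import Fermat.Agent.ModularDiff.CuspForms
import Fermat.Agent.ModularPlaces.Fibres
import Fermat.Agent.ModularPlaces.LevelOneRat
import Fermat.Agent.FF.RiemannRoch
import Fermat.Agent.FF.Differentials

/-!
# Multiplier functions from differentials of the third kind

`exists_thirdKind`: differentials with exactly two simple poles at given places exist.
`hasMultFun_placeOf_sub`: for `z` with `j ≠ 0, 1728`, `(z) - (∞)` is the divisor of a multiplier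
function, the exponential primitive of the normalised weight two form of such a differential.
The residue at `∞` is found by summing over cosets and comparing with `dj / (j - j(z))`, using
that holomorphic weight two forms of level one vanish.
-/

set_option autoImplicit false
set_option linter.unusedSectionVars false
set_option linter.style.haveILetI false

noncomputable section

open UpperHalfPlane CongruenceSubgroup Filter Topology AlgebraicCurve ModularCurve
open scoped MatrixGroups ModularForm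

namespace FLTAgent.Torsion

open FLTAgent.Modular

/-- A differential of the third kind. -/
theorem exists_thirdKind {K F : Type*} [Field K] [Field F] [Algebra K F] [IsAlgClosed K]
    [CharZero K] [FF.IsFF K F] {P Q : Place K F} (hPQ : P ≠ Q) :
    ∃ ω : Ω[F⁄K], ω ≠ 0 ∧ P.ordDifferential ω = -1 ∧ Q.ordDifferential ω = -1 ∧
      ∀ v, v ≠ P → v ≠ Q → 0 ≤ v.ordDifferential ω := by
  classical
  have hdim : ∀ D : Divisor K F, (Module.finrank K ↥(FF.differentialsGE D) : ℤ) =
      (FF.ell D : ℤ) - Divisor.degree D - 1 + (genusFF K F : ℤ) := fun D => by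
    have h1 := FF.finrank_differentialsGE D
    have h2 := FF.riemann_roch D
    change _ = FF.hOne D at h1
    rw [h1]
    omega
  have hneg : ∀ D : Divisor K F, Divisor.degree D < 0 → FF.ell D = 0 :=
    fun D hD => FF.ell_eq_zero_of_degree_neg hD
  set D : Divisor K F := -Finsupp.single P 1 - Finsupp.single Q 1 with hD
  have hdegD : Divisor.degree D = -2 := by
    rw [hD, map_sub, map_neg, FF.degree_single_one, FF.degree_single_one]; norm_num
  have hsingle : ∀ R : Place K F,
      FF.differentialsGE (-Finsupp.single R 1 : Divisor K F) ≤ FF.differentialsGE 0 := by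
    intro R
    have hle : FF.differentialsGE (0 : Divisor K F) ≤ FF.differentialsGE (-Finsupp.single R 1) := by
      rintro ω (hω | hω)
      · exact Or.inl hω
      · refine Or.inr fun v => le_trans ?_ (hω v)
        rw [Finsupp.neg_apply, Finsupp.coe_zero, Pi.zero_apply, neg_nonpos, Finsupp.single_apply]
        split <;> norm_num
    refine (Submodule.eq_of_le_of_finrank_le hle ?_).ge
    have h1 := hdim (-Finsupp.single R 1 : Divisor K F)
    have h0 := hdim (0 : Divisor K F)
    rw [hneg _ (by rw [map_neg, FF.degree_single_one]; norm_num), map_neg,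
      FF.degree_single_one] at h1
    rw [FF.ell_zero, map_zero] at h0
    omega
  have hlt : ¬ FF.differentialsGE D ≤ FF.differentialsGE (0 : Divisor K F) := by
    intro hle
    have := Submodule.finrank_mono hle
    have h1 := hdim D
    have h0 := hdim (0 : Divisor K F)
    rw [hneg D (by rw [hdegD]; norm_num), hdegD] at h1
    rw [FF.ell_zero, map_zero] at h0
    omega
  obtain ⟨ω, hωD, hω0⟩ := SetLike.not_le_iff_exists.1 hlt
  have hne : ω ≠ 0 := fun h => hω0 (Or.inl h)
  rcases hωD with h | hωD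
  · exact absurd h hne
  have hP : (-1 : ℤ) ≤ P.ordDifferential ω := by
    simpa [hD, Finsupp.single_eq_of_ne hPQ] using hωD P
  have hQ : (-1 : ℤ) ≤ Q.ordDifferential ω := by
    simpa [hD, Finsupp.single_eq_of_ne hPQ.symm] using hωD Q
  have hrest : ∀ v, v ≠ P → v ≠ Q → 0 ≤ v.ordDifferential ω := fun v hvP hvQ => by
    simpa [hD, Finsupp.single_eq_of_ne hvP, Finsupp.single_eq_of_ne hvQ]
      using hωD v
  refine ⟨ω, hne, ?_, ?_, hrest⟩
  · by_contra hne1
    refine hω0 (hsingle Q (Or.inr fun v => ?_))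
    rcases eq_or_ne v Q with rfl | hvQ
    · rw [Finsupp.neg_apply, Finsupp.single_eq_same]; exact hQ
    · rw [Finsupp.neg_apply, Finsupp.single_eq_of_ne hvQ, neg_zero]
      rcases eq_or_ne v P with rfl | hvP
      · omega
      · exact hrest v hvP hvQ
  · by_contra hne1
    refine hω0 (hsingle P (Or.inr fun v => ?_))
    rcases eq_or_ne v P with rfl | hvP
    · rw [Finsupp.neg_apply, Finsupp.single_eq_same]; exact hP
    · rw [Finsupp.neg_apply, Finsupp.single_eq_of_ne hvP, neg_zero]
      rcases eq_or_ne v Q with rfl | hvQ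
      · omega
      · exact hrest v hvP hvQ

variable {N : ℕ} [NeZero N]

theorem cuspPlace_eq_one_iff (γ : SL(2, ℤ)) :
    (cuspPlace γ : Place ℂ (FC N)) = cuspPlace 1 ↔ γ ∈ Gamma0 N := by
  have hT : ∀ n : ℤ, ModularGroup.T ^ n ∈ Gamma0 N := fun n => by
    simp [Gamma0_mem, ModularGroup.coe_T_zpow]
  rw [eq_comm, cuspPlace_eq_iff]
  constructor
  · rintro ⟨g, n, h | h⟩
    · rw [← h, mul_one]; exact mul_mem g.2 (hT n)
    · have h' : -γ ∈ Gamma0 N := by rw [← h, mul_one]; exact mul_mem g.2 (hT n)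
      rw [Gamma0_mem] at h' ⊢
      simpa using h'
  · intro h
    exact ⟨⟨γ, h⟩, 0, Or.inl (by simp)⟩

theorem tendsto_qPow_zero {w : ℝ} (hw : 0 < w) {k : ℤ} (hk : 0 < k) :
    Tendsto (fun z : ℍ => qPow w k z) atImInfty (𝓝 0) :=
  ModularDiff.tendsto_qPow hw hk

theorem stabilizer_generic {z : ℍ} (h : ellOrder 1 z = 1) {s : SL(2, ℤ)} (hs : s • z = z) :
    s = 1 ∨ s = -1 := by
  classical
  have hcard : Nat.card (MulAction.stabilizer SL(2, ℤ) z) = 2 := by
    rw [ModularPlaces.ellOrder_one_eq, h]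
  haveI := ModularPlaces.finite_stabilizer z
  let one' : MulAction.stabilizer SL(2, ℤ) z := 1
  let neg' : MulAction.stabilizer SL(2, ℤ) z :=
    ⟨-1, by show (-1 : SL(2, ℤ)) • z = z; exact Period.neg_one_smul_upperHalfPlane z⟩
  have hne : one' ≠ neg' := fun h0 => by
    have h1 := congrArg
      (fun g : MulAction.stabilizer SL(2, ℤ) z => ((g : SL(2, ℤ)) : Matrix (Fin 2) (Fin 2) ℤ) 0 0) h0
    simp [one', neg'] at h1
  by_contra hcon
  push Not at hcon
  let s' : MulAction.stabilizer SL(2, ℤ) z := ⟨s, hs⟩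
  have h1 : s' ≠ one' := fun h0 => hcon.1 (congrArg Subtype.val h0)
  have h2 : s' ≠ neg' := fun h0 => hcon.2 (congrArg Subtype.val h0)
  haveI := Fintype.ofFinite (MulAction.stabilizer SL(2, ℤ) z)
  have h3 : ({one', neg', s'} : Finset _).card ≤ 2 := by
    have := Finset.card_le_univ ({one', neg', s'} : Finset _)
    rw [← Nat.card_eq_fintype_card, hcard] at this
    exact this
  rw [Finset.card_insert_of_notMem (by simp [hne, h1.symm]),
    Finset.card_pair h2.symm] at h3
  omega

set_option maxHeartbeats 800000 in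
/-- `(z₀) - (∞)` has a multiplier function. -/
theorem hasMultFun_placeOf_sub {z₀ : ℍ} (h0 : ModularPlaces.jE z₀ ≠ 0)
    (h1728 : ModularPlaces.jE z₀ ≠ 1728) :
    HasMultFun N (Finsupp.single (placeOf z₀ : Place ℂ (FC N)) 1 -
      Finsupp.single (cuspPlace 1) 1) := by
  classical
  set P : Place ℂ (FC N) := placeOf z₀
  set Q : Place ℂ (FC N) := cuspPlace 1
  have hPQ : P ≠ Q := placeOf_ne_cuspPlace z₀ 1
  obtain ⟨ω, hω, hωP, hωQ, hωrest⟩ := exists_thirdKind hPQ
  have he1 : ∀ γ : SL(2, ℤ), ellOrder 1 (γ • z₀) = 1 := fun γ =>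
    ModularPlaces.ellOrder_one_generic (by rw [ModularPlaces.jE_smul]; exact h0)
      (by rw [ModularPlaces.jE_smul]; exact h1728)
  have heN : ∀ γ : SL(2, ℤ), ellOrder N (γ • z₀) = 1 := fun γ => by
    have h := ModularPlaces.card_orbit_mul_ellOrder (N := N) (γ • z₀) 1
    rw [he1, inv_one, one_smul] at h
    exact Nat.eq_one_of_mul_eq_one_left h
  set G₀ := ModularDiff.formOf ω
  have hG₀ : IsMero G₀ := ModularDiff.isMero_formOf ω
  have hG₀slash : ∀ γ : Gamma0 N, G₀ ∣[(2 : ℤ)] (γ : SL(2, ℤ)) = G₀ := fun γ =>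
    ModularDiff.eq_of_codEq (ModularDiff.isMero_slash hG₀ _ _) hG₀
      ((ModularDiff.isWForm_formOf ω).invar γ)
  -- analytic away from the orbit of `z₀`
  have hG₀an : ∀ z : ℍ, (placeOf z : Place ℂ (FC N)) ≠ P →
      AnalyticAt ℂ (G₀ ∘ ofComplex) (z : ℂ) := by
    intro z hz
    rw [← (hG₀ z).meromorphicOrderAt_nonneg_iff_analyticAt,
      ModularDiff.meromorphicOrderAt_formOf hω z, ← WithTop.coe_zero, WithTop.coe_le_coe]
    have h1 := hωrest _ hz (placeOf_ne_cuspPlace z 1)
    have h2 : (1 : ℤ) ≤ (ellOrder N z : ℤ) := by exact_mod_cast ModularPlaces.ellOrder_pos N z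
    nlinarith
  obtain ⟨ρ, hρ, hres₀⟩ := exists_hasResidueH hG₀ (z := z₀) (by
    rw [ModularDiff.meromorphicOrderAt_formOf hω z₀, hωP]
    norm_num)
  set G : ℍ → ℂ := fun z => ρ⁻¹ * G₀ z with hGdef
  have hG : IsMero G := isMero_const_mul hG₀ (inv_ne_zero hρ)
  have hGslash : ∀ γ : Gamma0 N, G ∣[(2 : ℤ)] (γ : SL(2, ℤ)) = G := fun γ => by
    funext z
    have := congrFun (hG₀slash γ) z
    rw [ModularForm.SL_slash_apply] at this ⊢
    simp only [hGdef]
    rw [mul_assoc, this]
  have hGan : ∀ z : ℍ, (placeOf z : Place ℂ (FC N)) ≠ P →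
      AnalyticAt ℂ (G ∘ ofComplex) (z : ℂ) := fun z hz => analyticAt_const.mul (hG₀an z hz)
  have hGres : ∀ z : ℍ, HasResidueH G z (if (placeOf z : Place ℂ (FC N)) = P then 1 else 0) := by
    intro z
    by_cases hz : (placeOf z : Place ℂ (FC N)) = P
    · rw [if_pos hz]
      obtain ⟨γ, hγ⟩ := (placeOf_eq_iff z₀ z).1 hz.symm
      have h1 : HasResidueH G z₀ 1 := by
        have := hres₀.const_mul ρ⁻¹
        rwa [inv_mul_cancel₀ hρ] at this
      have h2 : HasResidueH G (((γ⁻¹ : Gamma0 N) : SL(2, ℤ)) • z) 1 := by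
        rw [← hγ, Subgroup.coe_inv, inv_smul_smul]
        exact h1
      have h3 := h2.slash
      rwa [hGslash] at h3
    · rw [if_neg hz]
      exact hasResidueH_of_analyticAt (hGan z hz)
  have hcuspG : ∀ γ : SL(2, ℤ), ∃ L : ℂ, (γ ∉ Gamma0 N → L = 0) ∧
      Tendsto (G ∣[(2 : ℤ)] γ) atImInfty (𝓝 L) := by
    intro γ
    obtain ⟨c, -, hc⟩ := ModularDiff.tendsto_formOf_slash hω γ
    set k : ℤ := (cuspPlace γ : Place ℂ (FC N)).ordDifferential ω + 1 with hk
    have hslash : ∀ z, (G ∣[(2 : ℤ)] γ) z = ρ⁻¹ * (G₀ ∣[(2 : ℤ)] γ) z := fun z => by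
      rw [ModularForm.SL_slash_apply, ModularForm.SL_slash_apply]
      simp only [hGdef]
      ring
    by_cases hγ : γ ∈ Gamma0 N
    · have hk0 : k = 0 := by rw [hk, (cuspPlace_eq_one_iff γ).2 hγ, hωQ]; rfl
      refine ⟨ρ⁻¹ * c, fun h => absurd hγ h, (hc.const_mul ρ⁻¹).congr fun z => ?_⟩
      rw [hslash, hk0, neg_zero, qPow_zero, mul_one]
    · have hk0 : 0 < k := by
        have h1 : 0 ≤ (cuspPlace γ : Place ℂ (FC N)).ordDifferential ω :=
          hωrest _ (placeOf_ne_cuspPlace z₀ γ).symm fun h => hγ ((cuspPlace_eq_one_iff γ).1 h)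
        omega
      refine ⟨0, fun _ => rfl, ?_⟩
      have h2 := (hc.mul (tendsto_qPow_zero (cuspWidth_cast_pos (N := N) γ) hk0)).const_mul ρ⁻¹
      rw [mul_zero, mul_zero] at h2
      refine h2.congr fun z => ?_
      rw [hslash, mul_assoc (((G₀ ∣[(2 : ℤ)] γ)) z), ← qPow_add, neg_add_cancel, qPow_zero,
        mul_one]
  choose L hL0 hLlim using hcuspG
  -- the residue theorem
  have hLone : L 1 = -(2 * Real.pi * Complex.I) := by
    set j₀ := jFun z₀
    set Ψ : ℍ → ℂ := fun z => ModularDiff.djH N z / (jFun z - j₀) with hΨ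
    set H : ModularPlaces.Cos N → ℍ → ℂ := fun x => G ∣[(2 : ℤ)] x.out⁻¹
    set T₀ : ℍ → ℂ := ∑ x, H x - Ψ with hT₀
    have hHmk : ∀ (g : SL(2, ℤ)), H (g : ModularPlaces.Cos N) = G ∣[(2 : ℤ)] g⁻¹ := by
      intro g
      obtain ⟨u, hu⟩ := QuotientGroup.mk_out_eq_mul (Gamma0 N) g
      simp only [H]
      rw [hu, mul_inv_rev, SlashAction.slash_mul]
      rw [show ((u : SL(2, ℤ)))⁻¹ = ((u⁻¹ : Gamma0 N) : SL(2, ℤ)) from rfl, hGslash]
    have hT₀inv : ∀ δ : SL(2, ℤ), T₀ ∣[(2 : ℤ)] δ = T₀ := by
      intro δ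
      have hΨinv : Ψ ∣[(2 : ℤ)] δ = Ψ := by
        funext z
        have := congrFun (ModularDiff.djH_slash (N := N) δ) z
        rw [ModularForm.SL_slash_apply] at this ⊢
        simp only [hΨ, jFun_smul]
        rw [div_mul_eq_mul_div, this]
      have hsum : (∑ x, H x) ∣[(2 : ℤ)] δ = ∑ x, H x := by
        rw [SlashAction.sum_slash]
        refine Fintype.sum_equiv (MulAction.toPerm (δ⁻¹ : SL(2, ℤ))) _ _ fun x => ?_
        induction x using QuotientGroup.induction_on with
        | _ g =>
          rw [hHmk, ← SlashAction.slash_mul]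
          show _ = H (((δ⁻¹ * g : SL(2, ℤ))) : ModularPlaces.Cos N)
          rw [hHmk, mul_inv_rev, inv_inv]
      rw [hT₀, sub_eq_add_neg, SlashAction.add_slash, SlashAction.neg_slash, hsum, hΨinv]
    have hΨmero : ModularDiff.MeroH Ψ := ModularDiff.isMero_djH.meroH.div
      fun z => ((analyticAt_jFun z).sub analyticAt_const).meromorphicAt
    have hΨres : ∀ z : ℍ, HasResidueH Ψ z (if jFun z = j₀ then 1 else 0) := by
      intro z
      have hu : AnalyticAt ℂ (fun w : ℂ => (jFun ∘ ofComplex) w - j₀) (z : ℂ) :=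
        (analyticAt_jFun z).sub analyticAt_const
      have hd : ∀ w : ℂ, 0 < w.im → deriv (fun w : ℂ => (jFun ∘ ofComplex) w - j₀) w =
          (ModularDiff.djH N ∘ ofComplex) w := by
        intro w hw
        rw [deriv_sub_const]
        simp [ModularDiff.djH, ModularDiff.dH, ModularDiff.ev_jFC, ofComplex_apply_of_im_pos hw]
      by_cases hz : jFun z = j₀
      · rw [if_pos hz]
        have hord : meromorphicOrderAt (fun w : ℂ => (jFun ∘ ofComplex) w - j₀) (z : ℂ) =
            ((1 : ℤ) : WithTop ℤ) := by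
          have hz' : ModularPlaces.jE z = ModularPlaces.jE z₀ := by
            rw [← ModularPlaces.jFun_eq_jE]; exact hz
          have h1 := ModularPlaces.ordH_jC_sub (N := N) z
          rw [ModularPlaces.ev_jC_sub, ← congrFun ModularPlaces.jFun_eq_jE z, hz,
            ModularPlaces.ellOrder_one_eq_of_jE (z := z₀) hz',
            show ellOrder 1 z₀ = 1 by simpa using he1 1, ordH] at h1
          have h3 : meromorphicOrderAt (fun w : ℂ => (jFun ∘ ofComplex) w - j₀) (z : ℂ) ≠ ⊤ := by
            intro htop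
            rw [show ((fun z : ℍ => jFun z - j₀) ∘ ofComplex) =
              fun w : ℂ => (jFun ∘ ofComplex) w - j₀ from rfl, htop] at h1
            simp at h1
          rw [← WithTop.coe_untop₀_of_ne_top h3]
          exact congrArg _ h1
        obtain ⟨v, hv, hv0, hev⟩ := (meromorphicOrderAt_eq_int_iff hu.meromorphicAt).1 hord
        refine ⟨fun w => deriv v w / v w, hv.deriv.div hv hv0, ?_⟩
        filter_upwards [eventually_eventually_nhdsWithin.2 hev,
          hv.eventually_analyticAt.filter_mono nhdsWithin_le_nhds,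
          (hv.continuousAt.eventually_ne hv0).filter_mono nhdsWithin_le_nhds,
          self_mem_nhdsWithin, mem_nhdsWithin_of_mem_nhds
            ((isOpen_lt continuous_const Complex.continuous_im).mem_nhds z.im_pos)]
          with w hw hvw hvw0 hwz hwim
        have hwz' : w ≠ (z : ℂ) := hwz
        have heq : (fun x : ℂ => (jFun ∘ ofComplex) x - j₀) =ᶠ[𝓝 w]
            fun x => (x - (z : ℂ)) * v x := by
          rw [isOpen_compl_singleton.nhdsWithin_eq hwz] at hw
          filter_upwards [hw] with x hx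
          rw [hx, zpow_one, smul_eq_mul]
        have h2 : deriv (fun x : ℂ => (jFun ∘ ofComplex) x - j₀) w =
            v w + (w - (z : ℂ)) * deriv v w := by
          rw [heq.deriv_eq]
          refine (((hasDerivAt_id w).sub_const (z : ℂ)).mul hvw.differentiableAt.hasDerivAt).deriv.trans ?_
          simp
        rw [hd w hwim] at h2
        have h4 := heq.eq_of_nhds
        simp only [Function.comp_apply, hΨ] at h2 h4 ⊢
        rw [h2, h4]
        have : w - (z : ℂ) ≠ 0 := sub_ne_zero.2 hwz'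
        field_simp
      · rw [if_neg hz]
        refine hasResidueH_of_analyticAt ((ModularDiff.analyticAt_djH z).div hu ?_)
        simpa [ofComplex_apply, sub_eq_zero] using hz
    have hsumres : ∀ z : ℍ, HasResidueH (∑ x, H x) z (if jFun z = j₀ then 1 else 0) := by
      intro z
      have h := hasResidueH_sum Finset.univ (G := H) (z := z)
        (ρ := fun x : ModularPlaces.Cos N =>
          if (placeOf (x.out⁻¹ • z) : Place ℂ (FC N)) = P then (1 : ℂ) else 0)
        fun x _ => (hGres _).slash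
      convert h using 1
      by_cases hz : jFun z = j₀
      · rw [if_pos hz]
        rw [ModularPlaces.jFun_eq_jE] at hz
        obtain ⟨δ, rfl⟩ := ModularPlaces.jE_injective_mod (z := z₀) (z' := z)
          ((congrFun ModularPlaces.jFun_eq_jE z₀).symm.trans hz.symm)
        have key : ∀ x : ModularPlaces.Cos N,
            (placeOf (x.out⁻¹ • δ • z₀) : Place ℂ (FC N)) = P ↔
              x = (δ : ModularPlaces.Cos N) := by
          intro x
          constructor
          · intro hx
            obtain ⟨g, hg⟩ := (placeOf_eq_iff z₀ _).1 hx.symm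
            have hs : ((g : SL(2, ℤ))⁻¹ * x.out⁻¹ * δ) • z₀ = z₀ := by
              rw [mul_smul, mul_smul, ← hg, inv_smul_smul]
            have hmem : x.out⁻¹ * δ ∈ Gamma0 N := by
              rcases stabilizer_generic (by simpa using he1 1) hs with h | h
              · rw [mul_assoc, inv_mul_eq_one] at h
                exact h ▸ g.2
              · rw [mul_assoc, inv_mul_eq_iff_eq_mul] at h
                rw [h]
                exact mul_mem g.2 (by simp [Gamma0_mem])
            rw [← QuotientGroup.out_eq' x]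
            exact QuotientGroup.eq.2 hmem
          · rintro rfl
            obtain ⟨u, hu⟩ := QuotientGroup.mk_out_eq_mul (Gamma0 N) δ
            refine ((placeOf_eq_iff z₀ _).2 ⟨u⁻¹, ?_⟩).symm
            rw [hu, mul_inv_rev, mul_smul, inv_smul_smul, Subgroup.coe_inv]
        rw [Finset.sum_eq_single (δ : ModularPlaces.Cos N)
          (fun x _ hx => if_neg fun hP => hx ((key x).1 hP))
          (fun h => absurd (Finset.mem_univ _) h), if_pos ((key _).2 rfl)]
      · rw [if_neg hz]
        refine (Finset.sum_eq_zero fun x _ => ?_).symm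
        rw [if_neg]
        intro hx
        obtain ⟨g, hg⟩ := (placeOf_eq_iff z₀ _).1 hx.symm
        refine hz ?_
        rw [← jFun_smul x.out⁻¹ z, ← hg, jFun_smul]
    set T : ℍ → ℂ := ModularDiff.nfH T₀
    have hT₀mero : ModularDiff.MeroH T₀ := by
      intro z
      obtain ⟨φ, hφ, he⟩ := (hsumres z).sub (hΨres z)
      refine MeromorphicAt.congr ?_ he.symm
      exact (MeromorphicAt.const _ _).mul ((analyticAt_id.sub analyticAt_const).meromorphicAt.inv)
        |>.add hφ.meromorphicAt
    have hTeq : T =ᶠ[codiscrete ℍ] T₀ := ModularDiff.nfH_codEq hT₀mero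
    have hTan : ∀ z : ℍ, AnalyticAt ℂ (T ∘ ofComplex) (z : ℂ) := by
      intro z
      have h1 := (hsumres z).sub (hΨres z)
      rw [sub_self] at h1
      exact (h1.congr ((ModularDiff.codEq_iff.1 hTeq z).symm)).analyticAt
        (ModularDiff.isMero_nfH _)
    have hTinv : ∀ δ : SL(2, ℤ), T ∣[(2 : ℤ)] δ = T := fun δ => by
      refine ModularDiff.eq_of_codEq (ModularDiff.isMero_slash (ModularDiff.isMero_nfH _) _ _)
        (ModularDiff.isMero_nfH _) ((ModularDiff.codEq_slash hTeq δ 2).trans ?_)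
      rw [hT₀inv δ]
      exact hTeq.symm
    have hsumlim : Tendsto (∑ x, H x) atImInfty (𝓝 (L 1)) := by
      have h1 : Tendsto (fun z => ∑ x, H x z) atImInfty (𝓝 (∑ x : ModularPlaces.Cos N, L x.out⁻¹)) :=
        tendsto_finsetSum _ fun x _ => hLlim _
      have h2 : ∑ x : ModularPlaces.Cos N, L x.out⁻¹ = L 1 := by
        rw [Finset.sum_eq_single ((1 : SL(2, ℤ)) : ModularPlaces.Cos N)]
        · obtain ⟨u, hu⟩ := QuotientGroup.mk_out_eq_mul (Gamma0 N) (1 : SL(2, ℤ))
          rw [hu, one_mul]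
          refine tendsto_nhds_unique (hLlim _) ((hLlim 1).congr fun z => ?_)
          rw [show ((u : SL(2, ℤ)))⁻¹ = ((u⁻¹ : Gamma0 N) : SL(2, ℤ)) from rfl, hGslash,
            SlashAction.slash_one]
        · intro x _ hx
          refine hL0 _ fun hmem => hx ?_
          rw [← QuotientGroup.out_eq' x]
          exact QuotientGroup.eq.2 (by simpa using hmem)
        · simp
      rw [h2] at h1
      convert h1 using 1
      funext z
      rw [Finset.sum_apply]
    have hΨlim : Tendsto Ψ atImInfty (𝓝 (-(2 * Real.pi * Complex.I))) := by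
      have hq : Tendsto (fun z : ℍ => qPow 1 1 z) atImInfty (𝓝 0) :=
        tendsto_qPow_zero one_pos one_pos
      have h1 := (ModularDiff.tendsto_djH (N := N)).div
        (ModularPlaces.tendsto_jFun_mul_qPow.sub (hq.const_mul j₀)) (by simp)
      rw [mul_zero, sub_zero, div_one] at h1
      refine h1.congr fun z => ?_
      simp only [Pi.div_apply, hΨ]
      rw [← sub_mul, mul_div_mul_right _ _ (qPow_ne_zero _ _ _)]
    have hTlim : Tendsto T atImInfty (𝓝 (L 1 - -(2 * Real.pi * Complex.I))) := by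
      refine (hsumlim.sub hΨlim).congr' ?_
      have h2 := hasQExp_jFun.eventually_analyticAt one_pos
      have h3 : ∀ᶠ z : ℍ in atImInfty, jFun z ≠ j₀ := by
        have hj := ModularPlaces.tendsto_jFun_mul_qPow
        have hq : Tendsto (fun z : ℍ => j₀ * qPow 1 1 z) atImInfty (𝓝 0) := by
          simpa using (tendsto_qPow_zero one_pos (k := 1) one_pos).const_mul j₀
        have := (hj.sub hq).eventually_ne (show ((1 : ℂ) - 0) ≠ 0 by norm_num)
        filter_upwards [this] with z hz h
        rw [h, sub_self] at hz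
        exact hz rfl
      filter_upwards [h3] with z hz
      have h4 := hsumres z
      have h5 := hΨres z
      rw [if_neg hz] at h4 h5
      have han : AnalyticAt ℂ (T₀ ∘ ofComplex) (z : ℂ) := by
        refine AnalyticAt.sub (f := (∑ x, H x) ∘ ofComplex) (g := Ψ ∘ ofComplex) ?_ ?_
        · rw [show (∑ x, H x) ∘ ofComplex = fun w => ∑ x, (H x ∘ ofComplex) w by
            funext w; simp [Finset.sum_apply]]
          refine Finset.analyticAt_fun_sum _ fun x _ => ?_
          refine HasResidueH.analyticAt ?_ (ModularDiff.isMero_slash hG _ _)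
          have hx := (hGres (x.out⁻¹ • z)).slash
          rwa [if_neg] at hx
          intro hx'
          obtain ⟨g, hg⟩ := (placeOf_eq_iff z₀ _).1 hx'.symm
          exact hz (by rw [← jFun_smul x.out⁻¹ z, ← hg, jFun_smul])
        · exact (ModularDiff.analyticAt_djH z).div ((analyticAt_jFun z).sub analyticAt_const)
            (by simpa [ofComplex_apply, sub_eq_zero] using hz)
      have h6 := (((ModularDiff.isMero_nfH T₀) z).eventuallyEq_nhdsNE_iff_eventuallyEq_nhds
        han.meromorphicNFAt).1 (ModularDiff.codEq_iff.1 hTeq z)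
      have h7 := h6.eq_of_nhds
      simp only [Function.comp_apply, ofComplex_apply] at h7
      exact h7.symm
    have hT0 := eq_zero_of_levelOne_weight_two hTan hTinv
      (ModularDiff.isBoundedAtImInfty_of_tendsto hTlim)
    rw [hT0] at hTlim
    have h := tendsto_nhds_unique hTlim tendsto_const_nhds
    have h' : L 1 - -(2 * Real.pi * Complex.I) = 0 := h
    linear_combination h'
  -- the exponential primitive
  obtain ⟨f, hf⟩ := exists_expPrimitive hG fun z => by
    obtain ⟨φ, hφ, he⟩ := hGres z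
    by_cases hz : (placeOf z : Place ℂ (FC N)) = P
    · rw [if_pos hz] at he
      exact Or.inr ⟨φ, hφ, by simpa using he⟩
    · exact Or.inl (hGan z hz)
  have hfmero : IsMero f := isMero_of_analyticAt fun z => (hf z).1
  have hpole : ∀ z : ℍ, AnalyticAt ℂ (G ∘ ofComplex) (z : ℂ) ↔
      (placeOf z : Place ℂ (FC N)) ≠ P := by
    refine fun z => ⟨fun han hz => ?_, hGan z⟩
    obtain ⟨φ, hφ, he⟩ := hGres z
    rw [if_pos hz] at he
    have h1 : Tendsto (fun w => (w - (z : ℂ))⁻¹) (𝓝[≠] (z : ℂ))
        (𝓝 ((G ∘ ofComplex) (z : ℂ) - φ z)) := by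
      refine (((han.continuousAt.tendsto.sub hφ.continuousAt.tendsto).mono_left
        nhdsWithin_le_nhds)).congr' ?_
      filter_upwards [he] with w hw
      simp only [Function.comp_apply] at hw ⊢
      rw [hw]
      ring
    have h2 : Tendsto (fun w => (w - (z : ℂ))) (𝓝[≠] (z : ℂ)) (𝓝 0) :=
      tendsto_nhdsWithin_of_tendsto_nhds
        ((by fun_prop : Continuous fun w : ℂ => w - (z : ℂ)).tendsto' _ _ (sub_self _))
    have h3 : Tendsto (fun w => (w - (z : ℂ))⁻¹ * (w - (z : ℂ))) (𝓝[≠] (z : ℂ)) (𝓝 1) := by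
      refine tendsto_const_nhds.congr' ?_
      filter_upwards [self_mem_nhdsWithin] with w hw
      rw [inv_mul_cancel₀ (sub_ne_zero.2 hw)]
    have h4 := tendsto_nhds_unique h3 (h1.mul h2)
    rw [mul_zero] at h4
    exact one_ne_zero h4
  -- a base point
  obtain ⟨b, hb⟩ : ∃ b : ℍ, (placeOf b : Place ℂ (FC N)) ≠ P := by
    obtain ⟨z, hz⟩ := ModularPlaces.exists_jE_eq (ModularPlaces.jE z₀ + 1)
    refine ⟨z, fun h => ?_⟩
    obtain ⟨g, hg⟩ := (placeOf_eq_iff z₀ z).1 h.symm
    rw [← hg, ModularPlaces.jE_smul] at hz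
    simp at hz
  have hbne : f b ≠ 0 := ((hf b).2.1 ((hpole b).2 hb)).2
  have hplace : ∀ (γ : Gamma0 N) (z : ℍ),
      (placeOf ((γ : SL(2, ℤ)) • z) : Place ℂ (FC N)) = placeOf z :=
    fun γ z => ((placeOf_eq_iff z _).2 ⟨γ, rfl⟩).symm
  have hderγ : ∀ (γ : SL(2, ℤ)) (z : ℍ), (placeOf (γ • z) : Place ℂ (FC N)) ≠ P →
      HasDerivAt ((fun w => f (γ • w)) ∘ ofComplex)
        ((G ∣[(2 : ℤ)] γ) z * f (γ • z)) (z : ℂ) := by
    intro γ z hz
    have h1 := ((hf (γ • z)).2.1 ((hpole _).2 hz)).1
    have h2 := h1.comp_of_eq (z : ℂ)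
      (ModularPlaces.hasDerivAt_mob γ (ModularPlaces.den_ne_zero γ z.im_pos))
      (ModularPlaces.coe_smul_eq_mob γ z)
    refine (h2.congr_of_eventuallyEq (ModularPlaces.eventuallyEq_smul_comp_ofComplex f γ z)).congr_deriv ?_
    rw [ModularForm.SL_slash_apply, denom_eq_den]
    rw [zpow_neg, zpow_two]
    field_simp
  have hfsmul : ∀ (γ : Gamma0 N) (z : ℍ),
      f ((γ : SL(2, ℤ)) • z) = f ((γ : SL(2, ℤ)) • b) / f b * f z := by
    intro γ
    set W : ℂ → ℂ := fun w => f b * ((fun u => f ((γ : SL(2, ℤ)) • u)) ∘ ofComplex) w -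
      f ((γ : SL(2, ℤ)) • b) * (f ∘ ofComplex) w with hW
    have hWan : AnalyticOnNhd ℂ W upperHalfPlaneSet := by
      intro w hw
      refine AnalyticAt.sub (analyticAt_const.mul ?_) (analyticAt_const.mul (hf ⟨w, hw⟩).1)
      refine (AnalyticAt.congr ?_
        (ModularPlaces.eventuallyEq_smul_comp_ofComplex f (γ : SL(2, ℤ)) ⟨w, hw⟩).symm)
      exact (hf ((γ : SL(2, ℤ)) • ⟨w, hw⟩)).1.comp_of_eq
        (ModularPlaces.analyticAt_mob _ (ModularPlaces.den_ne_zero _ hw))
        (ModularPlaces.coe_smul_eq_mob (γ : SL(2, ℤ)) ⟨w, hw⟩).symm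
    have hGb : AnalyticAt ℂ (G ∘ ofComplex) (b : ℂ) := (hpole b).2 hb
    have hev : ∀ᶠ w in 𝓝 (b : ℂ), W w = 0 := by
      refine eventually_eq_zero_of_ode (hWan b b.im_pos) hGb ?_ ?_
      · filter_upwards [mem_nhdsWithin_of_mem_nhds hGb.eventually_analyticAt,
          mem_nhdsWithin_of_mem_nhds (isOpen_upperHalfPlaneSet.mem_nhds b.im_pos)] with w hw hwim
        set u : ℍ := ⟨w, hwim⟩
        have hu : (placeOf u : Place ℂ (FC N)) ≠ P := (hpole u).1 hw
        have h1 := hderγ (γ : SL(2, ℤ)) u (by rwa [hplace])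
        rw [hGslash] at h1
        have h2 := ((hf u).2.1 hw).1
        refine ((h1.const_mul (f b)).sub (h2.const_mul (f ((γ : SL(2, ℤ)) • b)))).deriv.trans ?_
        simp only [hW, Function.comp_apply, ofComplex_apply_of_im_pos hwim]
        ring
      · simp only [hW, Function.comp_apply, ofComplex_apply]
        ring
    intro z
    have h := hWan.eqOn_zero_of_preconnected_of_eventuallyEq_zero isPreconnected_upperHalfPlaneSet
      b.im_pos hev z.im_pos
    simp only [hW, Function.comp_apply, ofComplex_apply, Pi.zero_apply, sub_eq_zero] at h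
    field_simp
    linear_combination h
  have hγb : ∀ γ : Gamma0 N, f ((γ : SL(2, ℤ)) • b) ≠ 0 := fun γ =>
    ((hf _).2.1 ((hpole _).2 (by rwa [hplace]))).2
  let c : Gamma0 N →* ℂˣ := MonoidHom.toHomUnits
    { toFun := fun γ => f ((γ : SL(2, ℤ)) • b) / f b
      map_one' := by simp [hbne]
      map_mul' := fun γ δ => by
        rw [Subgroup.coe_mul, mul_smul, hfsmul γ]
        ring }
  refine ⟨f, c, ⟨hfmero, fun z => ?_, fun γ => ?_⟩, hfsmul⟩
  · have hQz : (placeOf z : Place ℂ (FC N)) ≠ Q := placeOf_ne_cuspPlace z 1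
    rw [Finsupp.sub_apply, Finsupp.single_eq_of_ne hQz, sub_zero]
    by_cases hz : (placeOf z : Place ℂ (FC N)) = P
    · obtain ⟨g, hg⟩ := (placeOf_eq_iff z₀ z).1 hz.symm
      rw [hz, Finsupp.single_eq_same, (hf z).2.2 fun h => (hpole z).1 h hz, ← hg, heN]
      norm_num
    · rw [Finsupp.single_eq_of_ne hz, mul_zero,
        (hf z).1.meromorphicNFAt.meromorphicOrderAt_eq_zero_iff.2
          (by simpa [ofComplex_apply] using ((hf z).2.1 (hGan z hz)).2)]
      rfl
  · set w := cuspWidth N γ with hwdef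
    have hw : (0 : ℝ) < (w : ℝ) := cuspWidth_cast_pos γ
    have hper : ∀ z : ℍ, (G ∣[(2 : ℤ)] γ) ((w : ℝ) +ᵥ z) = (G ∣[(2 : ℤ)] γ) z := by
      intro z
      have h1 : (G ∣[(2 : ℤ)] γ) ∣[(2 : ℤ)] (ModularGroup.T ^ (w : ℤ)) = G ∣[(2 : ℤ)] γ := by
        rw [← SlashAction.slash_mul,
          show γ * ModularGroup.T ^ (w : ℤ) = γ * ModularGroup.T ^ (w : ℤ) * γ⁻¹ * γ by group,
          SlashAction.slash_mul, hGslash ⟨_, (ModularPlaces.cuspWidth_spec (N := N) γ).2⟩]
      have h2 := congrFun h1 z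
      rw [slash_T_zpow] at h2
      exact_mod_cast h2
    have hevz : ∀ᶠ z : ℍ in atImInfty, (placeOf (γ • z) : Place ℂ (FC N)) ≠ P := by
      have h := (ModularPlaces.tendsto_jFun_mul_qPow.sub
        ((tendsto_qPow_zero one_pos (k := 1) one_pos).const_mul (jFun z₀))).eventually_ne
          (show ((1 : ℂ) - jFun z₀ * 0) ≠ 0 by norm_num)
      filter_upwards [h] with z hz hP
      obtain ⟨g, hg⟩ := (placeOf_eq_iff z₀ _).1 hP.symm
      refine hz ?_
      rw [show jFun z = jFun z₀ by rw [← jFun_smul γ z, ← hg, jFun_smul], sub_self]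
    obtain ⟨K, hK, hKlim⟩ := exists_tendsto_expPrimitive (v := fun z => f (γ • z))
      (g := G ∣[(2 : ℤ)] γ) hw (L := L γ) (by
        filter_upwards [hevz] with z hz
        refine ⟨hderγ γ z hz, ((hf _).2.1 ((hpole _).2 hz)).2, ?_⟩
        have hres := (hGres (γ • z)).slash (γ := γ)
        rw [if_neg hz] at hres
        exact (hres.analyticAt (ModularDiff.isMero_slash hG _ _)).differentiableAt) hper (hLlim γ)
    refine ⟨K, hK, hKlim.congr fun z => ?_⟩
    congr 1
    have hPγ : (cuspPlace γ : Place ℂ (FC N)) ≠ P := (placeOf_ne_cuspPlace z₀ γ).symm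
    rw [Finsupp.sub_apply, Finsupp.single_eq_of_ne hPγ]
    by_cases hγ : γ ∈ Gamma0 N
    · have hLγ : L γ = L 1 := by
        refine tendsto_nhds_unique (hLlim γ) ((hLlim 1).congr fun z => ?_)
        rw [show (γ : SL(2, ℤ)) = ((⟨γ, hγ⟩ : Gamma0 N) : SL(2, ℤ)) from rfl, hGslash,
          SlashAction.slash_one]
      have hw1 : w = 1 := by
        have hle : w ≤ 1 := Nat.sInf_le ⟨one_pos, mul_mem (mul_mem hγ
          (by simp [Gamma0_mem, ModularGroup.coe_T])) (inv_mem hγ)⟩
        have := (ModularPlaces.cuspWidth_spec (N := N) γ).1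
        rw [← hwdef] at this
        omega
      rw [(cuspPlace_eq_one_iff γ).2 hγ, Finsupp.single_eq_same, hLγ, hLone, hw1, qPow]
      congr 1
      push_cast
      ring
    · rw [Finsupp.single_eq_of_ne fun h => hγ ((cuspPlace_eq_one_iff γ).1 h), hL0 γ hγ,
        sub_zero, neg_zero, qPow_zero, zero_mul, neg_zero, Complex.exp_zero]

end FLTAgent.Torsion
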